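import Fermat.Agent.DeligneSerre.Residual.EigenRep
import Fermat.Agent.DeligneSerre.Periods
import Mathlib.Algebra.BigOperators.NatAntidiagonal

/-!
# A weight two form congruent to a weight one form

Multiplying by `2ℓ · E₁(ψ)`, `ψ` the inverse Teichmüller character, which is `≡ 1` modulo a place
over `ℓ`, gives weight two and an eigenclass in the periods; whence the residual representations
of a depleted eigenform of weight one, given the action of Galois on the periods.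
-/

set_option autoImplicit false

noncomputable section

namespace Fermat.Agent.DeligneSerre

open CongruenceSubgroup ModularFormClass Matrix Finset
open UpperHalfPlane hiding I
open Fermat.Agent.IntegralStructure (qFun qHom qHom_apply mem_qFun_of_modularFormClass)
open Fermat.Agent.RT.GammaH Fermat.Agent.Gamma0
open scoped MatrixGroups ModularForm Manifold

theorem eq_of_map_eq_of_pow_eq_one {k : Type*} [Field k] (φ : ZBar →+* k) {m : ℕ} (hm0 : m ≠ 0)
    (hm : (m : k) ≠ 0) {z w : ZBar} (hz : z ^ m = 1) (hw : w ^ m = 1) (h : φ z = φ w) : z = w := by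
  have hu : (z * w ^ (m - 1)) ^ m = 1 := by rw [mul_pow, hz, pow_right_comm, hw, one_pow, one_mul]
  have hφu : φ (z * w ^ (m - 1)) = 1 := by
    rw [map_mul, h, ← map_mul, ← pow_succ', Nat.sub_add_cancel (Nat.pos_of_ne_zero hm0), hw,
      map_one]
  have h1 : z * w ^ (m - 1) = 1 := by
    by_contra hne
    refine hm ?_
    have hg := mul_geom_sum (z * w ^ (m - 1)) m
    rw [hu, sub_self, mul_eq_zero, sub_eq_zero, or_iff_right hne] at hg
    simpa [map_sum, hφu] using congrArg φ hg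
  calc z = z * (w ^ (m - 1) * w) := by
        rw [← pow_succ, Nat.sub_add_cancel (Nat.pos_of_ne_zero hm0), hw, mul_one]
    _ = w := by rw [← mul_assoc, h1, one_mul]

/-- The inverse Teichmüller character at a place over `ℓ`. -/
theorem exists_teichmuller {k : Type*} [Field k] {ℓ : ℕ} [Fact ℓ.Prime] [CharP k ℓ]
    (hℓ2 : ℓ ≠ 2) (φ : ZBar →+* k) :
    ∃ ψ : DirichletCharacter ℂ ℓ, ψ.Odd ∧ ∀ t : ZMod ℓ, t ≠ 0 → ∀ y : ZBar, (y : ℂ) = ψ t →
      φ y * ZMod.castHom (dvd_refl ℓ) k t = 1 := by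
  have hℓ : ℓ.Prime := Fact.out
  set ι := ZMod.castHom (dvd_refl ℓ) k with hι
  set m := ℓ - 1 with hm
  have hm0 : m ≠ 0 := by have := hℓ.two_le; omega
  have hmk : (m : k) ≠ 0 := by
    rw [Ne, CharP.cast_eq_zero_iff k ℓ]
    exact fun h => by
      have := Nat.le_of_dvd (by omega) h
      omega
  have hex : ∀ u : (ZMod ℓ)ˣ, ∃ z : ZBar, z ^ m = 1 ∧ φ z = ι ((u⁻¹ : (ZMod ℓ)ˣ) : ZMod ℓ) := by
    intro u
    refine exists_root_lift φ hm0 ?_
    rw [← map_pow, ← Units.val_pow_eq_pow_val, ZMod.units_pow_card_sub_one_eq_one, Units.val_one,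
      map_one]
  choose T hT1 hT2 using hex
  have hinj := @eq_of_map_eq_of_pow_eq_one k _ φ m hm0 hmk
  let T' : (ZMod ℓ)ˣ →* ℂ :=
    { toFun := fun u => (T u : ℂ)
      map_one' := by
        rw [hinj (hT1 1) (one_pow m) (by rw [hT2, map_one]; simp)]
        simp
      map_mul' := fun u v => by
        rw [hinj (hT1 (u * v)) (w := T u * T v) (by rw [mul_pow, hT1, hT1, one_mul])
          (by rw [map_mul, hT2, hT2, hT2, ← map_mul, ← Units.val_mul, _root_.mul_inv_rev,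
            mul_comm v⁻¹])]
        simp }
  have hψ : ∀ u : (ZMod ℓ)ˣ, (MulChar.ofUnitHom T'.toHomUnits : DirichletCharacter ℂ ℓ) u = T u :=
    fun u => by rw [MulChar.ofUnitHom_coe]; rfl
  refine ⟨MulChar.ofUnitHom T'.toHomUnits, ?_, fun t ht y hy => ?_⟩
  · show _ = _
    rw [show (-1 : ZMod ℓ) = ((-1 : (ZMod ℓ)ˣ) : ZMod ℓ) by simp, hψ,
      hinj (hT1 (-1)) (w := -1) (by
        rw [Even.neg_one_pow]
        exact (hℓ.odd_of_ne_two hℓ2).tsub_odd odd_one) (by rw [hT2, map_neg, map_one]; simp)]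
    simp
  · obtain ⟨u, rfl⟩ := isUnit_iff_ne_zero.2 ht
    rw [hψ] at hy
    obtain rfl : y = T u := Subtype.ext hy
    rw [hT2, ← map_mul, ← Units.val_mul, inv_mul_cancel, Units.val_one, map_one]

theorem goodLevel_mul {N ℓ : ℕ} [Fact ℓ.Prime] (h7 : 7 ≤ ℓ) [NeZero (N * ℓ)] :
    Curve.GoodLevel (N * ℓ) := by
  obtain ⟨g, hg⟩ := IsCyclic.exists_ofOrder_eq_natCard (α := (ZMod ℓ)ˣ)
  obtain ⟨u, hu⟩ := ZMod.unitsMap_surjective (Dvd.intro_left N rfl : ℓ ∣ N * ℓ) g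
  refine ⟨⟨u, fun h => ?_⟩⟩
  have h1 : g ^ 4 = 1 := by rw [← hu, ← map_pow, h, map_one]
  have h2 := orderOf_le_of_pow_eq_one (by norm_num) h1
  rw [hg, Nat.card_eq_fintype_card, ZMod.card_units] at h2
  omega

theorem changeLevel_intCast {N M : ℕ} (h : N ∣ M) (ε : DirichletCharacter ℂ N) {a : ℤ}
    (ha : IsUnit (a : ZMod M)) :
    DirichletCharacter.changeLevel h ε (a : ZMod M) = ε (a : ZMod N) := by
  obtain ⟨u, hu⟩ := ha
  rw [← hu, DirichletCharacter.changeLevel_eq_cast_of_dvd ε h u, hu, ZMod.cast_intCast h]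

variable {N : ℕ} [NeZero N] {ε : DirichletCharacter ℂ N} {g : CuspForm (Gamma1 N) 1}

omit [NeZero N] in
theorem HasNeb.changeLevel {M : ℕ} [NeZero M] (h : N ∣ M) {k : ℤ} {f : ℍ → ℂ}
    (hf : HasNeb k ε f) : HasNeb k (DirichletCharacter.changeLevel h ε) f := fun γ hγ => by
  have hγ' : γ ∈ Gamma0 N := by
    rw [Gamma0_mem] at hγ ⊢
    have := congrArg (ZMod.castHom h (ZMod N)) hγ
    rwa [map_intCast, map_zero] at this
  rw [hf γ hγ', changeLevel_intCast h ε (isUnit_lowerRight hγ)]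

theorem exists_congruent (hg : IsDepleted ε (qCoeff g)) {ℓ : ℕ} [Fact ℓ.Prime] (hℓ2 : ℓ ≠ 2)
    [NeZero (N * ℓ)] {k : Type*} [Field k] [CharP k ℓ] (φ : ZBar →+* k) :
    ∃ (δ : DirichletCharacter ℂ (N * ℓ)) (f : CuspForm (Gamma1 (N * ℓ)) 2) (b : ℕ → ZBar),
      HasNeb 2 δ ⇑f ∧ (∀ n, (b n : ℂ) = qCoeff f n) ∧
      (∀ n, φ (b n) = φ ⟨qCoeff g n, isIntegral_coeff hg n⟩) ∧
      ∀ p : ℕ, p.Prime → ¬ p ∣ N * ℓ → ∀ y y' : ZBar, (y : ℂ) = δ (p : ZMod (N * ℓ)) →
        (y' : ℂ) = ε (p : ZMod N) → (p : k) * φ y = φ y' := by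
  have hℓ : ℓ.Prime := Fact.out
  obtain ⟨ψ, hψodd, hψ⟩ := exists_teichmuller hℓ2 φ
  set δ : DirichletCharacter ℂ (N * ℓ) := DirichletCharacter.changeLevel (Dvd.intro ℓ rfl) ε *
    DirichletCharacter.changeLevel (Dvd.intro_left N rfl) ψ with hδ
  have hneb : HasNeb 2 δ (((2 * ℓ : ℕ) : ℂ) • (⇑g * eisOne ψ)) := fun γ hγ => by
    have h := ((hg.hecke.nebentypus).changeLevel (Dvd.intro ℓ rfl)).mul
      ((show HasNeb 1 ψ (eisOne ψ) from fun γ hγ => eisOne_slash_gamma0 hψodd hγ).changeLevel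
        (Dvd.intro_left N rfl : ℓ ∣ N * ℓ)) γ hγ
    rw [ModularForm.SL_smul_slash, show (2 : ℤ) = 1 + 1 from rfl, h, smul_comm]
  let f : CuspForm (Gamma1 (N * ℓ)) 2 := mkCuspForm (Gamma1 (N * ℓ)) 2
    (((2 * ℓ : ℕ) : ℂ) • (⇑g * eisOne ψ)) (fun γ hγ => hneb.slash_gamma1 hγ)
    (((CuspFormClass.holo g).mul (mdifferentiable_eisOne hψodd)).const_smul _)
    (fun γ => by
      rw [ModularForm.SL_smul_slash, show (2 : ℤ) = 1 + 1 from rfl, ModularForm.mul_slash_SL2]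
      exact ((CuspFormClass.zero_at_infty_slash g γ).mul_boundedAtFilter
        (isBoundedAtImInfty_slash_eisOne hψodd γ)).smul _)
  have hEi : ∀ j, IsIntegral ℤ (((2 * ℓ : ℕ) : ℂ) * eisCoeff ψ j) := fun j => by
    have := eisSeries_mem_zbar ψ hψodd j
    rwa [PowerSeries.coeff_C_mul, qExpansion_eisOne hψodd] at this
  let A : ℕ → ZBar := fun i => ⟨qCoeff g i, isIntegral_coeff hg i⟩
  let EZ : ℕ → ZBar := fun j => ⟨_, hEi j⟩
  have hE : ∀ j, φ (EZ j) = if j = 0 then 1 else 0 := by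
    intro j
    let Y : ZMod ℓ → ZBar := fun t => ⟨ψ t, isIntegral_character ψ t⟩
    split_ifs with hj
    · subst hj
      have e : EZ 0 = -∑ t : ZMod ℓ, (t.val : ZBar) * Y t := by
        refine Subtype.ext ?_
        show ((2 * ℓ : ℕ) : ℂ) * eisCoeff ψ 0 = _
        rw [show ((2 * ℓ : ℕ) : ℂ) = 2 * (ℓ : ℂ) by push_cast; ring, eisCoeff_zero_mul]
        simp [Y, -ZMod.natCast_val]
      have ht : ∀ t : ZMod ℓ, φ ((t.val : ZBar) * Y t) = 1 - if t = 0 then 1 else 0 := fun t => by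
        rw [map_mul, map_natCast]
        split_ifs with h
        · simp [h]
        · rw [show (t.val : k) = ZMod.castHom (dvd_refl ℓ) k t by
            rw [← map_natCast (ZMod.castHom (dvd_refl ℓ) k), ZMod.natCast_zmod_val],
            mul_comm, hψ t h _ rfl, sub_zero]
      rw [e, map_neg, map_sum, Finset.sum_congr rfl fun t _ => ht t, Finset.sum_sub_distrib]
      simp
    · have e : EZ j = (2 * ℓ : ℕ) * ∑ m ∈ j.divisors, Y (m : ZMod ℓ) := by
        refine Subtype.ext ?_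
        show ((2 * ℓ : ℕ) : ℂ) * eisCoeff ψ j = _
        rw [eisCoeff, if_neg hj]
        rw [Subalgebra.coe_mul, AddSubmonoidClass.coe_finsetSum,
          show (((2 * ℓ : ℕ) : ZBar) : ℂ) = ((2 * ℓ : ℕ) : ℂ) from
            map_natCast (integralClosure ℤ ℂ).val _]
      rw [e, map_mul, map_natCast, Nat.cast_mul, CharP.cast_eq_zero k ℓ, mul_zero, zero_mul]
  refine ⟨δ, f, fun n => ∑ x ∈ antidiagonal n, A x.1 * EZ x.2, hneb, fun n => ?_, fun n => ?_,
    fun p hp hpNℓ y y' hy hy' => ?_⟩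
  · have hgm : (⇑g : ℍ → ℂ) ∈ qFun := mem_qFun_of_modularFormClass (by simp) g
    let qg : qFun := ⟨⇑g, hgm⟩
    let qe : qFun := ⟨eisOne ψ, eisOne_mem_qFun hψodd⟩
    have h : qExpansion 1 ⇑f = ((2 * ℓ : ℕ) : ℂ) • (qHom qg * qHom qe) := by
      rw [← map_mul, ← map_smul]
      rfl
    show _ = (qExpansion 1 ⇑f).coeff n
    rw [h, PowerSeries.coeff_smul, PowerSeries.coeff_mul, smul_eq_mul, Finset.mul_sum]
    simp only [AddSubmonoidClass.coe_finsetSum, Subalgebra.coe_mul]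
    refine Finset.sum_congr rfl fun x _ => ?_
    rw [qHom_apply, qHom_apply]
    show qCoeff g x.1 * (_ * eisCoeff ψ x.2) =
      _ * (qCoeff g x.1 * (qExpansion 1 (eisOne ψ)).coeff x.2)
    rw [qExpansion_eisOne hψodd]
    ring
  · rw [map_sum, Finset.sum_eq_single (n, 0)]
    · rw [map_mul, hE, if_pos rfl, mul_one]
    · intro x hx hne
      rw [map_mul, hE, if_neg, mul_zero]
      intro h0
      rw [HasAntidiagonal.mem_antidiagonal] at hx
      exact hne (Prod.ext (by simp; omega) h0)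
    · simp
  · have hu : IsUnit ((p : ℤ) : ZMod (N * ℓ)) := by
      rw [Int.cast_natCast]
      exact (ZMod.isUnit_prime_iff_not_dvd hp).2 hpNℓ
    have hv : δ (p : ZMod (N * ℓ)) = ε (p : ZMod N) * ψ (p : ZMod ℓ) := by
      rw [← Int.cast_natCast (R := ZMod (N * ℓ)) p, hδ, MulChar.mul_apply,
        changeLevel_intCast _ ε hu, changeLevel_intCast _ ψ hu]
      simp
    let w : ZBar := ⟨ψ (p : ZMod ℓ), isIntegral_character ψ _⟩
    obtain rfl : y = y' * w := Subtype.ext (by rw [Subalgebra.coe_mul, hy, hy', hv])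
    have hp0 : (p : ZMod ℓ) ≠ 0 := by
      rw [Ne, CharP.cast_eq_zero_iff (ZMod ℓ) ℓ]
      exact fun h => hpNℓ (((Nat.prime_dvd_prime_iff_eq hℓ hp).1 h) ▸ dvd_mul_left ℓ N)
    have h1 := hψ _ hp0 w rfl
    rw [map_natCast] at h1
    rw [map_mul, mul_left_comm, mul_comm (p : k), h1, mul_one]

/-- Residual representations exist for a depleted eigenform of weight one. -/
theorem hasResidualReps (hg : IsDepleted ε (qCoeff g))
    (hgal : ∀ (M ℓ : ℕ) [NeZero M] [Curve.GoodLevel M], ℓ.Prime → GaloisOnPeriods M ℓ) :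
    HasResidualReps ε (qCoeff g) := by
  refine ⟨Finset.range 7, fun ℓ hℓ hℓS => ?_⟩
  have h7 : 7 ≤ ℓ := by simpa using hℓS
  have := Fact.mk hℓ
  have : NeZero (N * ℓ) := ⟨mul_ne_zero (NeZero.ne N) hℓ.ne_zero⟩
  have hgood : Curve.GoodLevel (N * ℓ) := goodLevel_mul h7
  obtain ⟨I, hI, hℓI⟩ := exists_maximal_above hℓ
  have := hI
  let _ := Ideal.Quotient.field I
  let φ : ZBar →+* AlgebraicClosure (ZBar ⧸ I) :=
    (algebraMap (ZBar ⧸ I) (AlgebraicClosure (ZBar ⧸ I))).comp (Ideal.Quotient.mk I)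
  have hφℓ : φ ℓ = 0 := by
    show algebraMap _ _ (Ideal.Quotient.mk I ℓ) = 0
    rw [Ideal.Quotient.eq_zero_iff_mem.2 hℓI, map_zero]
  have : CharP (AlgebraicClosure (ZBar ⧸ I)) ℓ :=
    (CharP.charP_iff_prime_eq_zero hℓ).2 ((map_natCast φ ℓ).symm.trans hφℓ)
  obtain ⟨δ, f, b, hneb, hb, hbφ, hδ⟩ := exists_congruent hg (by omega : ℓ ≠ 2) φ
  let A : ℕ → ZBar := fun i => ⟨qCoeff g i, isIntegral_coeff hg i⟩
  have hb1 : φ (b 1) = 1 := by
    rw [hbφ, show (⟨qCoeff g 1, isIntegral_coeff hg 1⟩ : ZBar) = 1 from Subtype.ext hg.one, map_one]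
  have hrec : ∀ p : ℕ, p.Prime → ¬ p ∣ N * ℓ → ∀ (n : ℕ) (y : ZBar),
      (y : ℂ) = δ (p : ZMod (N * ℓ)) →
      φ (b (p * n)) + p * φ y * (if p ∣ n then φ (b (n / p)) else 0) = φ (b p) * φ (b n) := by
    intro p hp hpNℓ n y hy
    have hpN : ¬ p ∣ N := fun h => hpNℓ (h.mul_right ℓ)
    let y' : ZBar := ⟨ε (p : ZMod N), isIntegral_character ε _⟩
    have h : A (p * n) + y' * (if p ∣ n then A (n / p) else 0) = A p * A n := by
      refine Subtype.ext ?_
      have h := hg.hecke p hp hpN n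
      split_ifs at h ⊢ <;> simpa [A, y'] using h
    have h' := congrArg φ h
    rw [map_add, map_mul, map_mul, apply_ite φ, map_zero] at h'
    rw [hδ p hp hpNℓ y y' hy rfl]
    simp only [hbφ]
    exact h'
  obtain ⟨v, hv0, hvmem, hvT, hvD⟩ := exists_periodClass hneb hℓ φ hφℓ b hb hb1 hrec
  let c : GoodOp (N * ℓ) → AlgebraicClosure (ZBar ⧸ I)
    | .inl p => φ (b p.1)
    | .inr u => φ ⟨δ (u : ZMod (N * ℓ)), isIntegral_character δ _⟩
  let x : Fin (homRank (N * ℓ)) → AlgebraicClosure (ZBar ⧸ I) :=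
    fun a => v (Additive.ofMul (homPts (N * ℓ) a))
  have hev : ∀ i, goodOp (AlgebraicClosure (ZBar ⧸ I)) i v = c i • v := by
    rintro (p | u)
    · have := Fact.mk p.2.1
      exact hvT p.1 p.2.2
    · exact hvD u _ rfl
  refine nonempty_resRep hℓ (by omega) φ (hgal (N * ℓ) ℓ hℓ) (fun p hp hpN hpℓ h => ?_) c x ?_ ?_
    (fun p hp hpM => ⟨A p, rfl, hbφ p⟩) (fun p hp hpM _ y hy => ?_)
  · rcases hp.dvd_mul.1 h with h | h
    · exact hpN h
    · exact hpℓ ((Nat.prime_dvd_prime_iff_eq hp hℓ).1 h)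
  · exact fun h0 => hv0 (eq_of_homPts hvmem (AddSubgroup.zero_mem _) fun a => congrFun h0 a)
  · intro i
    funext a
    have h := DFunLike.congr_fun (hev i) (Additive.ofMul (homPts (N * ℓ) a))
    rw [goodOp_apply_homPts i hvmem a, AddMonoidHom.smul_apply] at h
    simp only [zsmul_eq_mul] at h
    simpa [opMatOver, mulVec, dotProduct, x] using h
  · refine hδ p hp hpM _ y ?_ hy
    show δ ((ZMod.unitOfCoprime p _ : (ZMod (N * ℓ))ˣ) : ZMod (N * ℓ)) = _
    rw [ZMod.coe_unitOfCoprime]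

end Fermat.Agent.DeligneSerre
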