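import Fermat.Agent.DeligneSerre.Residual.Statement
import Fermat.Agent.DeligneSerre.Quadratic
import Fermat.Agent.Arith.RootsOfUnity
import Mathlib.RingTheory.SimpleModule.Basic
import Mathlib.LinearAlgebra.Eigenspace.Minpoly
import Mathlib.FieldTheory.IsAlgClosed.Basic

/-!
# A residual representation from an eigenclass

Galois acts on the common eigenspace of the good operators; on an irreducible constituent every
element satisfies the quadratic equation of some Frobenius, so the constituent has dimension at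
most two.
-/

set_option autoImplicit false

noncomputable section

namespace Fermat.Agent.DeligneSerre

open Fermat.Agent.Arith Matrix

section Burnside

variable {k : Type*} [Field k] {W : Type*} [AddCommGroup W] [Module k W] {G : Type*} [Monoid G]

/-- Burnside's theorem: an irreducible family spans all endomorphisms. -/
theorem span_range_eq_top_of_irreducible [IsAlgClosed k] [FiniteDimensional k W] [Nontrivial W]
    (σ : G →* Module.End k W)
    (hirr : ∀ U : Submodule k W, (∀ g, ∀ u ∈ U, σ g u ∈ U) → U = ⊥ ∨ U = ⊤) :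
    Submodule.span k (Set.range σ) = ⊤ := by
  classical
  let A := Algebra.adjoin k (Set.range σ)
  have hAS : Subalgebra.toSubmodule A = Submodule.span k (Set.range σ) := by
    rw [Algebra.adjoin_eq_span]
    congr 1
    rw [← MonoidHom.coe_mrange, Submonoid.closure_eq]
  rw [← hAS, eq_top_iff]
  rintro T -
  have hgen : ∀ g, σ g ∈ A := fun g => Algebra.subset_adjoin ⟨g, rfl⟩
  have hsimple : IsSimpleModule A W := by
    have : Nontrivial (Submodule A W) := (Submodule.nontrivial_iff A).2 inferInstance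
    refine (isSimpleModule_iff A W).2 ⟨fun U => ?_⟩
    rcases hirr (U.restrictScalars k) (fun g u hu => U.smul_mem (⟨σ g, hgen g⟩ : A) hu) with
      h | h
    · exact Or.inl ((Submodule.restrictScalars_eq_bot_iff k A W).1 h)
    · exact Or.inr ((Submodule.restrictScalars_eq_top_iff k A W).1 h)
  have hscalar : ∀ f : Module.End A W, ∃ c : k, ∀ w, f w = c • w := by
    intro f
    obtain ⟨c, hc⟩ := Module.End.exists_eigenvalue (f.restrictScalars k : Module.End k W)
    obtain ⟨w₀, hw₀⟩ := hc.exists_hasEigenvector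
    let U : Submodule A W :=
      { carrier := {w | f w = c • w}
        zero_mem' := by simp
        add_mem' := fun {u v} hu hv => by
          show f (u + v) = c • (u + v)
          rw [map_add, smul_add, show f u = c • u from hu, show f v = c • v from hv]
        smul_mem' := fun a u hu => by
          show f (a • u) = c • a • u
          rw [map_smul, show f u = c • u from hu, smul_comm] }
    have hU : U ≠ ⊥ := fun h => hw₀.2 ((Submodule.eq_bot_iff U).1 h w₀ hw₀.apply_eq_smul)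
    rcases eq_bot_or_eq_top U with h | h
    · exact absurd h hU
    · exact ⟨c, fun w => by
        have hw : w ∈ U := by rw [h]; trivial
        exact hw⟩
  let T' : Module.End (Module.End A W) W :=
    { toFun := T
      map_add' := map_add T
      map_smul' := fun f w => by
        obtain ⟨c, hc⟩ := hscalar f
        show T (f w) = f (T w)
        rw [hc, hc, map_smul] }
  let b := Module.finBasis k W
  obtain ⟨r, hr⟩ := jacobson_density T' (Finset.univ.image b)
  have hT : T = (r : Module.End k W) := b.ext fun i => by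
    exact hr (b i) (Finset.mem_image_of_mem _ (Finset.mem_univ i))
  rw [hT]
  exact r.2

theorem span_toMatrix_eq_top {d : ℕ} (b : Module.Basis (Fin d) k W) {σ : G →* Module.End k W}
    (h : Submodule.span k (Set.range σ) = ⊤) :
    Submodule.span k (Set.range
      ((LinearMap.toMatrixAlgEquiv b).toAlgHom.toRingHom.toMonoidHom.comp σ)) = ⊤ := by
  have hm := Submodule.map_span (LinearMap.toMatrixAlgEquiv b).toLinearMap (Set.range σ)
  rw [h, Submodule.map_top, ← Set.range_comp] at hm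
  exact hm.symm.trans (LinearMap.range_eq_top.2 (LinearMap.toMatrixAlgEquiv b).surjective)


end Burnside

section Cyclotomic

variable (N : ℕ) [NeZero N]

/-- The cyclotomic character modulo `N`. -/
def cycN : GQ →* (ZMod N)ˣ where
  toFun σ := modularCyclotomicCharacter QBar (HasEnoughRootsOfUnity.natCard_rootsOfUnity QBar N)
    (σ : QBar ≃+* QBar)
  map_one' := map_one _
  map_mul' σ τ := map_mul (modularCyclotomicCharacter QBar
    (HasEnoughRootsOfUnity.natCard_rootsOfUnity QBar N)) (σ : QBar ≃+* QBar) (τ : QBar ≃+* QBar)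

theorem exists_cycN_level : ∃ L : IntermediateField ℚ QBar, FiniteDimensional ℚ L ∧
    ∀ σ : GQ, (∀ x ∈ L, σ x = x) → cycN N σ = 1 := by
  classical
  set S : Set QBar := ((Polynomial.nthRootsFinset N (1 : QBar)) : Set QBar)
  have : FiniteDimensional ℚ (IntermediateField.adjoin ℚ S) :=
    IntermediateField.finiteDimensional_adjoin fun x _ =>
      (Algebra.IsAlgebraic.isAlgebraic x).isIntegral
  refine ⟨IntermediateField.adjoin ℚ S, inferInstance, fun σ hσ => Units.ext ?_⟩
  rw [Units.val_one, ← Nat.cast_one]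
  refine modularCyclotomicCharacter_eq_natCast _ fun ζ hζ => ?_
  rw [pow_one]
  exact hσ ζ (IntermediateField.subset_adjoin ℚ _
    ((Polynomial.mem_nthRootsFinset (NeZero.pos N) _).2 hζ))

end Cyclotomic

variable {M N : ℕ} [NeZero M] [NeZero N]

/-- An eigenclass of the good operators, with Galois acting, gives a residual representation. -/
theorem nonempty_resRep {ℓ : ℕ} (hℓ : ℓ.Prime) (hℓ2 : ℓ ≠ 2) {k : Type} [Field k] [IsAlgClosed k]
    [CharP k ℓ] (φ : ZBar →+* k) {ε : DirichletCharacter ℂ N} {a : ℕ → ℂ}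
    (hgal : GaloisOnPeriods M ℓ) (hM : ∀ p : ℕ, p.Prime → ¬ p ∣ N → p ≠ ℓ → ¬ p ∣ M)
    (c : GoodOp M → k) (x : Fin (homRank M) → k) (hx0 : x ≠ 0)
    (hx : ∀ i, opMatOver k i *ᵥ x = c i • x)
    (hcT : ∀ (p : ℕ) (hp : p.Prime) (hpM : ¬ p ∣ M),
      ∃ z : ZBar, (z : ℂ) = a p ∧ c (opT hp hpM) = φ z)
    (hcD : ∀ (p : ℕ) (hp : p.Prime) (hpM : ¬ p ∣ M), ¬ p ∣ N →
      ∀ y : ZBar, (y : ℂ) = ε (p : ZMod N) → (p : k) * c (opD hp hpM) = φ y) :
    Nonempty (ResRep ε a ℓ) := by
  classical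
  obtain ⟨ρ, hρL, hcomm, hfrob⟩ := hgal k
  have h2 : (2 : k) ≠ 0 := fun h => hℓ2 ((Nat.prime_dvd_prime_iff_eq hℓ Nat.prime_two).1
    ((CharP.cast_eq_zero_iff k ℓ 2).1 (by exact_mod_cast h)))
  -- the character
  let eZ : (ZMod N)ˣ →* ZBar :=
    { toFun := fun u => ⟨ε u, isIntegral_character ε _⟩
      map_one' := Subtype.ext (by simp)
      map_mul' := fun u v => Subtype.ext (by simp) }
  let χ : GQ →* k := (φ.toMonoidHom.comp eZ).comp (cycN N)
  have hχI : ∀ (p : ℕ), p.Prime → ¬ p ∣ N → ∀ A : ValuationSubring QBar, A.LiesOverPrime p →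
      ∀ σ ∈ A.inertiaSubgroupIn ℚ, χ σ = 1 := fun p hp hpN A hA σ hσ => by
    have h1 : cycN N σ = 1 := modularCyclotomicCharacter_inertia hA hp hσ _ hpN
    show φ (eZ (cycN N σ)) = 1
    rw [h1, map_one, map_one]
  have hχF : ∀ (p : ℕ), p.Prime → ¬ p ∣ N → ∀ A : ValuationSubring QBar, A.LiesOverPrime p →
      ∀ σ : GQ, A.IsFrobeniusAt σ p → ∀ y : ZBar, (y : ℂ) = ε (p : ZMod N) → χ σ = φ y :=
    fun p hp hpN A hA σ hσ y hy => by
    show φ (eZ (cycN N σ)) = φ y
    refine congrArg φ (Subtype.ext ?_)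
    rw [hy]
    exact congrArg ε (modularCyclotomicCharacter_frobenius hA hp hσ _ hpN)
  obtain ⟨L₀, hL₀fd, hL₀⟩ := hρL
  obtain ⟨L₁, hL₁fd, hL₁⟩ := exists_cycN_level N
  have hL : ∀ σ : GQ, (∀ y ∈ L₀ ⊔ L₁, σ y = y) → ρ σ = 1 ∧ χ σ = 1 := fun σ hσ => by
    refine ⟨hL₀ σ fun y hy => hσ y ((le_sup_left : L₀ ≤ L₀ ⊔ L₁) hy), ?_⟩
    show φ (eZ (cycN N σ)) = 1
    rw [hL₁ σ fun y hy => hσ y ((le_sup_right : L₁ ≤ L₀ ⊔ L₁) hy), map_one, map_one]
  have : FiniteDimensional ℚ (L₀ ⊔ L₁ : IntermediateField ℚ QBar) :=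
    IntermediateField.finiteDimensional_sup L₀ L₁
  -- the eigenspace
  let R : GQ →* Module.End k (Fin (homRank M) → k) :=
    Matrix.toLinAlgEquiv'.toAlgHom.toRingHom.toMonoidHom.comp ρ
  have hR : ∀ σ w, R σ w = ρ σ *ᵥ w := fun σ w => Matrix.toLinAlgEquiv'_apply _ _
  let E : Submodule k (Fin (homRank M) → k) :=
    { carrier := {w | ∀ i, opMatOver k i *ᵥ w = c i • w}
      zero_mem' := fun i => by rw [mulVec_zero, smul_zero]
      add_mem' := fun {u v} hu hv i => by rw [mulVec_add, hu i, hv i, smul_add]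
      smul_mem' := fun r u hu i => by rw [mulVec_smul, hu i, smul_comm] }
  have hEne : E ≠ ⊥ := fun h => hx0 ((Submodule.eq_bot_iff E).1 h x hx)
  have hEinv : ∀ σ, ∀ w ∈ E, R σ w ∈ E := fun σ w hw i => by
    rw [hR, mulVec_mulVec, (hcomm i σ).eq, ← mulVec_mulVec, hw i, mulVec_smul]
  have hFrobE : ∀ (p : ℕ) (hp : p.Prime) (hpM : ¬ p ∣ M), p ≠ ℓ → ¬ p ∣ N →
      ∀ A : ValuationSubring QBar, A.LiesOverPrime p → ∀ σ : GQ, A.IsFrobeniusAt σ p →
      ∀ z : ZBar, (z : ℂ) = a p → ∀ w ∈ E, R σ (R σ w) - φ z • R σ w + χ σ • w = 0 := by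
    intro p hp hpM hpℓ hpN A hA σ hσ z hz w hw
    obtain ⟨z', hz', hc'⟩ := hcT p hp hpM
    obtain rfl : z' = z := Subtype.ext (hz'.trans hz.symm)
    have hy := hcD p hp hpM hpN ⟨ε (p : ZMod N), isIntegral_character ε _⟩ rfl
    rw [← hχF p hp hpN A hA σ hσ ⟨ε (p : ZMod N), isIntegral_character ε _⟩ rfl] at hy
    have h := congrArg (fun B => B *ᵥ w) ((hfrob p hp hpM hpℓ A hA).2 σ hσ)
    simp only [add_mulVec, sub_mulVec, zero_mulVec, smul_mulVec, ← mulVec_mulVec] at h
    have hRw : ρ σ *ᵥ w ∈ E := hR σ w ▸ hEinv σ w hw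
    rw [hRw (opT hp hpM), hw (opD hp hpM), hc', smul_smul, hy] at h
    simpa only [hR] using h
  -- a minimal invariant subspace
  obtain ⟨W, ⟨hWne, hWE, hWinv⟩, hWmin⟩ := wellFounded_lt.has_min
    {U : Submodule k (Fin (homRank M) → k) | U ≠ ⊥ ∧ U ≤ E ∧ ∀ σ, ∀ w ∈ U, R σ w ∈ U}
    ⟨E, hEne, le_rfl, hEinv⟩
  have : Nontrivial W := Submodule.nontrivial_iff_ne_bot.2 hWne
  let σW : GQ →* Module.End k W :=
    { toFun := fun σ => (R σ).restrict (hWinv σ)
      map_one' := LinearMap.ext fun w => Subtype.ext (by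
        show R 1 (w : Fin (homRank M) → k) = w
        rw [map_one]; rfl)
      map_mul' := fun σ τ => LinearMap.ext fun w => Subtype.ext (by
        show R (σ * τ) (w : Fin (homRank M) → k) = R σ (R τ w)
        rw [map_mul]; rfl) }
  have hσW : ∀ σ (w : W), ((σW σ w : W) : Fin (homRank M) → k) = R σ w := fun _ _ => rfl
  have hirr : ∀ U : Submodule k W, (∀ g, ∀ u ∈ U, σW g u ∈ U) → U = ⊥ ∨ U = ⊤ := by
    intro U hU
    by_cases hb : U = ⊥
    · exact Or.inl hb
    refine Or.inr ?_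
    have hle : U.map W.subtype ≤ W := Submodule.map_subtype_le W U
    have hmem : U.map W.subtype ∈ {V : Submodule k (Fin (homRank M) → k) |
        V ≠ ⊥ ∧ V ≤ E ∧ ∀ σ, ∀ w ∈ V, R σ w ∈ V} := by
      refine ⟨fun h => hb (Submodule.map_injective_of_injective W.injective_subtype
        (by rw [h, Submodule.map_bot])), hle.trans hWE, ?_⟩
      rintro σ _ ⟨u, hu, rfl⟩
      exact ⟨σW σ u, hU σ u hu, hσW σ u⟩
    have heq : U.map W.subtype = W := (lt_or_eq_of_le hle).resolve_left (hWmin _ hmem)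
    exact Submodule.map_injective_of_injective W.injective_subtype
      (heq.trans (Submodule.map_subtype_top W).symm)
  have hspan := span_range_eq_top_of_irreducible σW hirr
  -- inertia and Frobenius on `W`
  have hWI : ∀ p : ℕ, p.Prime → ¬ p ∣ N → p ≠ ℓ → ∀ A : ValuationSubring QBar,
      A.LiesOverPrime p → ∀ σ ∈ A.inertiaSubgroupIn ℚ, σW σ = 1 := fun p hp hpN hpℓ A hA σ hσ => by
    refine LinearMap.ext fun w => Subtype.ext ?_
    rw [hσW, hR, (hfrob p hp (hM p hp hpN hpℓ) hpℓ A hA).1 σ hσ, one_mulVec]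
    rfl
  have hWF : ∀ p : ℕ, p.Prime → ¬ p ∣ N → p ≠ ℓ → ∀ A : ValuationSubring QBar,
      A.LiesOverPrime p → ∀ σ : GQ, A.IsFrobeniusAt σ p → ∀ z : ZBar, (z : ℂ) = a p →
      σW σ + χ σ • σW σ⁻¹ = φ z • 1 := by
    intro p hp hpN hpℓ A hA σ hσ z hz
    refine LinearMap.ext fun w => Subtype.ext ?_
    have h := congrArg (R σ⁻¹)
      (hFrobE p hp (hM p hp hpN hpℓ) hpℓ hpN A hA σ hσ z hz w (hWE w.2))
    have hcancel : ∀ v, R σ⁻¹ (R σ v) = v := fun v => by
      rw [← Module.End.mul_apply, ← map_mul, inv_mul_cancel, map_one, Module.End.one_apply]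
    rw [map_add, map_sub, map_smul, map_smul, map_zero, hcancel, hcancel] at h
    simp only [LinearMap.add_apply, LinearMap.smul_apply, Module.End.one_apply,
      Submodule.coe_add, Submodule.coe_smul, hσW]
    exact sub_eq_zero.1 (by rw [← h]; abel)
  have hscal : ∀ g, ∃ t : k, σW g + χ g • σW g⁻¹ = t • 1 := by
    intro g
    obtain ⟨p, hp, hpS, A, hA, σ, hσ, he⟩ := Chebotarev.exists_frobenius_eq (ρ.prod χ) (L₀ ⊔ L₁)
      (fun τ hτ => Prod.ext (hL τ hτ).1 (hL τ hτ).2) g (M.primeFactors ∪ N.primeFactors ∪ {ℓ})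
    simp only [Finset.mem_union, Nat.mem_primeFactors, Finset.mem_singleton, not_or, not_and] at hpS
    have hpN : ¬ p ∣ N := fun h => hpS.1.2 hp h (NeZero.ne N)
    have hρe : ρ σ = ρ g := congrArg Prod.fst he
    have hχe : χ σ = χ g := congrArg Prod.snd he
    obtain ⟨z, hz, -⟩ := hcT p hp (hM p hp hpN hpS.2)
    refine ⟨φ z, ?_⟩
    have hR' : R g = R σ := congrArg Matrix.toLinAlgEquiv'.toAlgHom.toRingHom.toMonoidHom hρe.symm
    have hinv : ρ g⁻¹ = ρ σ⁻¹ := by
      have e1 : ρ g⁻¹ * ρ σ = 1 := by rw [hρe, ← map_mul, inv_mul_cancel, map_one]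
      calc ρ g⁻¹ = ρ g⁻¹ * (ρ σ * ρ σ⁻¹) := by rw [← map_mul, mul_inv_cancel, map_one, mul_one]
        _ = ρ σ⁻¹ := by rw [← mul_assoc, e1, one_mul]
    have hR'' : R g⁻¹ = R σ⁻¹ := congrArg Matrix.toLinAlgEquiv'.toAlgHom.toRingHom.toMonoidHom hinv
    have e1 : σW g = σW σ := LinearMap.ext fun w => Subtype.ext (by rw [hσW, hσW, hR'])
    have e2 : σW g⁻¹ = σW σ⁻¹ := LinearMap.ext fun w => Subtype.ext (by rw [hσW, hσW, hR''])
    rw [e1, e2, ← hχe]
    exact hWF p hp hpN hpS.2 A hA σ hσ z hz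
  have hfin : ∀ σ : GQ, (∀ y ∈ L₀ ⊔ L₁, σ y = y) → σW σ = 1 := fun σ hσ => by
    refine LinearMap.ext fun w => Subtype.ext ?_
    rw [hσW, hR, (hL σ hσ).1, one_mulVec]
    rfl
  -- matrices
  have main : ∀ (d : ℕ) (b : Module.Basis (Fin d) k W), ∃ τ : GQ →* Matrix (Fin d) (Fin d) k,
      Submodule.span k (Set.range τ) = ⊤ ∧ (∀ g, ∃ t : k, τ g + χ g • τ g⁻¹ = t • 1) ∧
      (∀ σ, σW σ = 1 → τ σ = 1) ∧
      ∀ σ (t : k), σW σ + χ σ • σW σ⁻¹ = t • 1 → τ σ + χ σ • τ σ⁻¹ = t • 1 := by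
    intro d b
    have key : ∀ σ (t : k), σW σ + χ σ • σW σ⁻¹ = t • 1 →
        LinearMap.toMatrixAlgEquiv b (σW σ) + χ σ • LinearMap.toMatrixAlgEquiv b (σW σ⁻¹)
          = t • 1 := fun σ t h => by
      rw [← map_smul, ← map_add, h, map_smul, map_one]
    exact ⟨(LinearMap.toMatrixAlgEquiv b).toAlgHom.toRingHom.toMonoidHom.comp σW,
      span_toMatrix_eq_top b hspan, fun g => (hscal g).imp fun t h => key g t h,
      fun σ h => by
        show LinearMap.toMatrixAlgEquiv b (σW σ) = 1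
        rw [h, map_one], key⟩
  have hle : Module.finrank k W ≤ 2 := by
    obtain ⟨τ, hτ1, hτ2, -, -⟩ := main _ (Module.finBasis k W)
    simpa using card_le_two h2 hτ1 (map_mul χ) hτ2
  have hpos : 0 < Module.finrank k W := Module.finrank_pos
  have hℓ0 : φ ℓ = 0 := by rw [map_natCast, CharP.cast_eq_zero]
  rcases (show Module.finrank k W = 1 ∨ Module.finrank k W = 2 by omega) with h1 | h2'
  · obtain ⟨τ, -, -, hτ1, hτF⟩ := main 1 (Module.finBasisOfFinrankEq k W h1)
    let cc : GQ →* k := Matrix.detMonoidHom.comp τ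
    have hcc : ∀ g, cc g * cc g⁻¹ = 1 := fun g => by rw [← map_mul, mul_inv_cancel, map_one]
    let τ₂ : GQ →* Matrix (Fin 2) (Fin 2) k :=
      { toFun := fun g => diagonal ![cc g, χ g * cc g⁻¹]
        map_one' := by
          rw [← diagonal_one]
          exact congrArg diagonal (funext fun i => by fin_cases i <;> simp)
        map_mul' := fun g h => by
          rw [diagonal_mul_diagonal]
          refine congrArg diagonal (funext fun i => ?_)
          fin_cases i
          · simp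
          · simp only [_root_.mul_inv_rev, map_mul, Fin.mk_one, cons_val_one, cons_val_fin_one]
            ring }
    refine ⟨{ k := k, φ := φ, map_eq_zero := hℓ0, ρ := τ₂, finite_level := ?_, shape := ?_,
              inertia := ?_, frobenius := ?_ }⟩
    · refine ⟨L₀ ⊔ L₁, inferInstance, fun σ hσ => ?_⟩
      have ht : τ σ = 1 := hτ1 σ (hfin σ hσ)
      have hcσ : cc σ = 1 := by show (τ σ).det = 1; rw [ht, det_one]
      have hci : cc σ⁻¹ = 1 := by simpa [hcσ] using hcc σ
      show diagonal ![cc σ, χ σ * cc σ⁻¹] = 1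
      rw [hcσ, hci, (hL σ hσ).2, ← diagonal_one]
      exact congrArg diagonal (funext fun i => by fin_cases i <;> simp)
    · exact Or.inr fun g => ⟨diagonal_apply_ne _ (by decide), diagonal_apply_ne _ (by decide)⟩
    · intro p hp hpN hpℓ A hA σ hσ
      have ht : τ σ = 1 := hτ1 σ (hWI p hp hpN hpℓ A hA σ hσ)
      have hcσ : cc σ = 1 := by show (τ σ).det = 1; rw [ht, det_one]
      have hci : cc σ⁻¹ = 1 := by simpa [hcσ] using hcc σ
      show diagonal ![cc σ, χ σ * cc σ⁻¹] = 1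
      rw [hcσ, hci, hχI p hp hpN A hA σ hσ, ← diagonal_one]
      exact congrArg diagonal (funext fun i => by fin_cases i <;> simp)
    · intro p hp hpN hpℓ A hA σ hσ z y hz hy
      have h := congrFun (congrFun (hτF σ _ (hWF p hp hpN hpℓ A hA σ hσ z hz)) 0) 0
      simp only [Matrix.add_apply, Matrix.smul_apply, one_apply_eq, smul_eq_mul, mul_one] at h
      constructor
      · show (diagonal ![cc σ, χ σ * cc σ⁻¹]).trace = φ z
        rw [trace_diagonal, Fin.sum_univ_two]
        show cc σ + χ σ * cc σ⁻¹ = φ z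
        show (τ σ).det + χ σ * (τ σ⁻¹).det = φ z
        rw [det_fin_one, det_fin_one]
        exact h
      · show (diagonal ![cc σ, χ σ * cc σ⁻¹]).det = φ y
        rw [det_diagonal, Fin.prod_univ_two]
        show cc σ * (χ σ * cc σ⁻¹) = φ y
        rw [mul_left_comm, hcc, mul_one]
        exact hχF p hp hpN A hA σ hσ y hy
  · obtain ⟨τ, hτspan, hτscal, hτ1, hτF⟩ := main 2 (Module.finBasisOfFinrankEq k W h2')
    refine ⟨{ k := k, φ := φ, map_eq_zero := hℓ0, ρ := τ,
              finite_level := ⟨L₀ ⊔ L₁, inferInstance, fun σ hσ => hτ1 σ (hfin σ hσ)⟩,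
              shape := Or.inl hτspan,
              inertia := fun p hp hpN hpℓ A hA σ hσ => hτ1 σ (hWI p hp hpN hpℓ A hA σ hσ),
              frobenius := ?_ }⟩
    intro p hp hpN hpℓ A hA σ hσ z y hz hy
    obtain ⟨htr, hdet⟩ := trace_det_eq h2 hτspan (map_mul χ) hτscal σ
    have h := congrFun (congrFun (htr.symm.trans
      (hτF σ _ (hWF p hp hpN hpℓ A hA σ hσ z hz))) 0) 0
    simp at h
    exact ⟨h, hdet.trans (hχF p hp hpN A hA σ hσ y hy)⟩

end Fermat.Agent.DeligneSerre
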