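import Fermat.Agent.DeligneSerre.Curve.Field
import Mathlib.FieldTheory.IntermediateField.Adjoin.Basic
import Mathlib.RingTheory.Localization.Integral

/-!
# The field of `±Γ₁(M)` as an extension of the field of level `M`

Over `ℚ̄` it is generated by `u = uK 1`, whose conjugates are the `uK a`: so it has the powers of
`u` below the number of diamond classes as a basis.
-/

set_option autoImplicit false
set_option linter.unusedSectionVars false

noncomputable section

open Polynomial ModularCurve
open Fermat.Agent.ModFun (Hol FC qExp toFC exists_div_eq laurentBaseChange_eq_fullC)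
open scoped IntermediateField Classical

namespace Fermat.Agent.DeligneSerre.Residual

open Curve

variable {M : ℕ} [NeZero M] [GoodLevel M]

/-- The dia translates of `u` are conjugate over the complex field of level `M`. -/
theorem eval_uK_eq_zero {P : (FC M)[X]}
    (h : P.eval₂ (FC M).val.toRingHom (uK (M := M) ℂ 1) = 0) (a : (ZMod M)ˣ) :
    P.eval₂ (FC M).val.toRingHom (uK ℂ a) = 0 := by
  obtain ⟨⟨b, hb⟩, hQ⟩ :=
    IsLocalization.integerNormalization_map_to_map (nonZeroDivisors (Hol M)) P
  set Q := IsLocalization.integerNormalization (nonZeroDivisors (Hol M)) P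
  set g : Hol M →+* LaurentSeries ℂ := (FC M).val.toRingHom.comp (algebraMap (Hol M) (FC M))
  have hg : g = (qExp1 M).toRingHom.comp (Subalgebra.inclusion Hol_le_Hol1).toRingHom :=
    RingHom.ext fun f => (qExp1_inclusion f).symm
  have hev : ∀ x, Q.eval₂ g x = g b * P.eval₂ (FC M).val.toRingHom x := fun x => by
    rw [← eval₂_map, hQ, Algebra.smul_def, eval₂_mul]
    congr 1
    rw [IsScalarTower.algebraMap_apply (Hol M) (FC M) (FC M)[X], Polynomial.algebraMap_eq, eval₂_C]
    rfl
  have h1 := hev (qExp1 M (uC 1))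
  rw [qExp1_uC, h, mul_zero, ← qExp1_uC, hg] at h1
  change Q.eval₂ _ ((qExp1 M).toRingHom (uC 1)) = 0 at h1
  rw [← hom_eval₂] at h1
  have h2 : Q.eval₂ (Subalgebra.inclusion Hol_le_Hol1).toRingHom (uC 1) = 0 :=
    qExp1_injective (h1.trans (map_zero (qExp1 M)).symm)
  have h3 := congrArg (dia M a).toRingHom h2
  rw [hom_eval₂, map_zero] at h3
  have hdia : (dia M a).toRingHom.comp (Subalgebra.inclusion Hol_le_Hol1).toRingHom
      = (Subalgebra.inclusion Hol_le_Hol1).toRingHom :=
    RingHom.ext fun f => dia_inclusion a f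
  rw [hdia, show (dia M a).toRingHom (uC 1) = uC a from dia_uC_one a] at h3
  have h4 := congrArg (qExp1 M).toRingHom h3
  rw [hom_eval₂, map_zero, ← hg, show (qExp1 M).toRingHom (uC a) = uK ℂ a from qExp1_uC a,
    hev] at h4
  refine (mul_eq_zero.mp h4).resolve_left fun hb0 => nonZeroDivisors.ne_zero hb ?_
  have hb1 : algebraMap (Hol M) (FC M) b = 0 := Subtype.ext hb0
  exact IsFractionRing.injective (Hol M) (FC M) (hb1.trans (map_zero _).symm)

variable (M) in
/-- The field of level `M` over `ℚ̄` inside the field of `±Γ₁(M)`. -/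
def toF1 : modularFunctionFieldBar M →ₐ[AlgebraicClosure ℚ] JacTorsion.FQ (F1 M) :=
  IntermediateField.inclusion (baseChange_full_le (AlgebraicClosure ℚ))

variable (M) in
/-- The algebra structure of `toF1`. -/
abbrev algF1 : Algebra (modularFunctionFieldBar M) (JacTorsion.FQ (F1 M)) :=
  (toF1 M).toRingHom.toAlgebra

attribute [local instance] algF1

variable (M) in
theorem towerF1 : IsScalarTower (AlgebraicClosure ℚ) (modularFunctionFieldBar M)
    (JacTorsion.FQ (F1 M)) :=
  IsScalarTower.of_algebraMap_eq fun _ => rfl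

attribute [local instance] towerF1

variable (M) in
/-- `u` in the field of `±Γ₁(M)`. -/
def u1 : JacTorsion.FQ (F1 M) := ⟨uK (M := M) _ 1, uK_mem_baseChange _ 1⟩

variable (M) in
/-- The inclusion into Laurent series. -/
abbrev valF1 : JacTorsion.FQ (F1 M) →+* LaurentSeries (AlgebraicClosure ℚ) :=
  (JacTorsion.FQ (F1 M)).val.toRingHom

theorem coeffMap_mem_FC (c : modularFunctionFieldBar M) :
    coeffMap JacTorsion.ιQ (c : LaurentSeries (AlgebraicClosure ℚ)) ∈ FC M := by
  have h : coeffMap JacTorsion.ιQ (c : LaurentSeries (AlgebraicClosure ℚ)) ∈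
      JacTorsion.cExt JacTorsion.ιQ (JacTorsion.FQ (modularFunctionFieldFull M)) :=
    JacTorsion.coeffMap_mem_cExt _ _ c.2
  rw [JacTorsion.cExt_laurentBaseChange, laurentBaseChange_eq_fullC] at h
  exact h

/-- A polynomial over level `M` killing `u` kills all `uK a`. -/
theorem eval_uK_bar_eq_zero {P : (modularFunctionFieldBar M)[X]}
    (h : P.eval₂ (modularFunctionFieldBar M).val.toRingHom (uK (M := M) (AlgebraicClosure ℚ) 1) = 0)
    (a : (ZMod M)ˣ) :
    P.eval₂ (modularFunctionFieldBar M).val.toRingHom (uK (AlgebraicClosure ℚ) a) = 0 := by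
  let φ : modularFunctionFieldBar M →+* FC M :=
    ((coeffMap JacTorsion.ιQ).comp (modularFunctionFieldBar M).val.toRingHom).codRestrict
      (FC M).toSubfield coeffMap_mem_FC
  have hφ : (FC M).val.toRingHom.comp φ =
      (coeffMap JacTorsion.ιQ).comp (modularFunctionFieldBar M).val.toRingHom := rfl
  have key : ∀ b : (ZMod M)ˣ, (P.map φ).eval₂ (FC M).val.toRingHom (uK ℂ b) =
      coeffMap JacTorsion.ιQ
        (P.eval₂ (modularFunctionFieldBar M).val.toRingHom (uK (AlgebraicClosure ℚ) b)) := fun b => by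
    rw [eval₂_map, hφ, hom_eval₂, coeffMap_uK]
  refine (coeffMap JacTorsion.ιQ).injective ?_
  rw [map_zero, ← key]
  exact eval_uK_eq_zero (by rw [key, h, map_zero]) a

theorem coe_toF1 (c : modularFunctionFieldBar M) :
    (toF1 M c : LaurentSeries (AlgebraicClosure ℚ)) = (c : LaurentSeries (AlgebraicClosure ℚ)) := by
  rw [toF1]
  exact IntermediateField.coe_inclusion (baseChange_full_le (AlgebraicClosure ℚ)) c

theorem algebraMap_algF1 (c : modularFunctionFieldBar M) :
    algebraMap (modularFunctionFieldBar M) (JacTorsion.FQ (F1 M)) c = toF1 M c := rfl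

theorem valF1_apply (x : JacTorsion.FQ (F1 M)) :
    valF1 M x = (x : LaurentSeries (AlgebraicClosure ℚ)) := rfl

theorem valF1_comp :
    (valF1 M).comp (algebraMap (modularFunctionFieldBar M) (JacTorsion.FQ (F1 M))) =
      (modularFunctionFieldBar M).val.toRingHom :=
  RingHom.ext fun c => by
    rw [RingHom.comp_apply, valF1_apply, algebraMap_algF1, coe_toF1]
    rfl

theorem valF1_u1 : valF1 M (u1 M) = uK (M := M) (AlgebraicClosure ℚ) 1 := rfl

theorem card_idx_le_natDegree {P : (modularFunctionFieldBar M)[X]} (hP : P ≠ 0)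
    (h : aeval (u1 M) P = 0) : Fintype.card (Idx M) ≤ P.natDegree := by
  set v := (modularFunctionFieldBar M).val.toRingHom with hv
  have h1 : P.eval₂ v (uK (M := M) (AlgebraicClosure ℚ) 1) = 0 := by
    have h2 := congrArg (valF1 M) h
    rw [aeval_def, hom_eval₂, map_zero, valF1_comp, valF1_u1] at h2
    exact h2
  have hroots : ∀ q : Idx M, uK (AlgebraicClosure ℚ) q.out ∈ (P.map v).roots.toFinset := fun q => by
    rw [Multiset.mem_toFinset, mem_roots (Polynomial.map_ne_zero hP), IsRoot.def, eval_map]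
    exact eval_uK_bar_eq_zero h1 _
  have hinj : Function.Injective fun q : Idx M => uK (AlgebraicClosure ℚ) q.out := fun q q' hqq =>
    idx_eq_of_eq_or_neg (uK_eq_iff (Nat.cast_ne_zero.mpr (NeZero.ne M)) hqq.symm)
  calc Fintype.card (Idx M) ≤ (P.map v).roots.toFinset.card := by
        simpa using Finset.card_le_card_of_injOn _ (s := (Finset.univ : Finset (Idx M)))
          (fun q _ => hroots q) hinj.injOn
    _ ≤ Multiset.card (P.map v).roots := Multiset.toFinset_card_le _
    _ ≤ (P.map v).natDegree := card_roots' _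
    _ ≤ P.natDegree := natDegree_map_le

variable (M) in
/-- The relation satisfied by `u`. -/
theorem exists_relation : ∃ P : (modularFunctionFieldBar M)[X],
    P.Monic ∧ P.natDegree = Fintype.card (Idx M) ∧ aeval (u1 M) P = 0 := by
  set PL : Polynomial (LaurentSeries (AlgebraicClosure ℚ)) :=
    (diaPolyQ M).map (coeffEmb (AlgebraicClosure ℚ))
  have hm : PL.Monic := (monic_prod_of_monic _ _ fun q _ => monic_X_sub_C _).map _
  have hl : PL ∈ Polynomial.lifts (algebraMap (modularFunctionFieldBar M) (LaurentSeries _)) := by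
    rw [Polynomial.lifts_iff_coeff_lifts]
    intro n
    refine ⟨⟨_, coeffEmb_mem_laurentBaseChange (AlgebraicClosure ℚ)
      (coeff_diaPolyQ_mem (M := M) n)⟩, ?_⟩
    rw [coeff_map]
    rfl
  obtain ⟨Q, hQ, hQn, hQm⟩ := Polynomial.lifts_and_natDegree_eq_and_monic hl hm
  refine ⟨Q, hQm, ?_, (valF1 M).injective ?_⟩
  · rw [hQn, natDegree_map, diaPolyQ,
      natDegree_prod_of_monic _ _ fun q _ => monic_X_sub_C _]
    simp
  · rw [map_zero, aeval_def, hom_eval₂, valF1_comp, valF1_u1,
      show (modularFunctionFieldBar M).val.toRingHom =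
        algebraMap (modularFunctionFieldBar M) (LaurentSeries _) from rfl, ← eval_map, hQ]
    exact eval_diaPolyQ 1

theorem isIntegral_u1 : IsIntegral (modularFunctionFieldBar M) (u1 M) :=
  let ⟨P, hPm, _, hP⟩ := exists_relation M
  ⟨P, hPm, hP⟩

theorem natDegree_minpoly_u1 :
    (minpoly (modularFunctionFieldBar M) (u1 M)).natDegree = Fintype.card (Idx M) := by
  obtain ⟨P, hPm, hPn, hP⟩ := exists_relation M
  exact le_antisymm (hPn ▸ natDegree_le_of_dvd (minpoly.dvd _ _ hP) hPm.ne_zero)
    (card_idx_le_natDegree (minpoly.ne_zero isIntegral_u1) (minpoly.aeval _ _))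

/-- `u` and level `M` generate every `uK a`. -/
theorem uK_mem_adjoin (a : (ZMod M)ˣ) :
    uK (AlgebraicClosure ℚ) a ∈ IntermediateField.adjoin (AlgebraicClosure ℚ)
      ((modularFunctionFieldBar M : Set (LaurentSeries (AlgebraicClosure ℚ))) ∪
        {uK (M := M) (AlgebraicClosure ℚ) 1}) := by
  set T := IntermediateField.adjoin (AlgebraicClosure ℚ)
      ((modularFunctionFieldBar M : Set (LaurentSeries (AlgebraicClosure ℚ))) ∪
        {uK (M := M) (AlgebraicClosure ℚ) 1})
  refine JacTorsion.mem_of_coeffMap_mem_cExt (ι := JacTorsion.ιQ) ?_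
  rw [coeffMap_uK, ← qExp1_uC]
  refine (IntermediateField.adjoin_le_iff.mpr ?_) (qExp1_mem_adjoin (uC a))
  rintro x (hx | hx)
  · rw [SetLike.mem_coe, ModFun.FC, ← laurentBaseChange_eq_fullC,
      ← JacTorsion.cExt_laurentBaseChange (ι := JacTorsion.ιQ) (F₀ := modularFunctionFieldFull M)] at hx
    exact IntermediateField.adjoin.mono ℂ _ _ (Set.image_mono fun y hy =>
      IntermediateField.subset_adjoin _ _ (Or.inl hy)) hx
  · rw [Set.mem_singleton_iff.mp hx, qExp1_uC, ← coeffMap_uK (AlgebraicClosure ℚ) JacTorsion.ιQ]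
    exact JacTorsion.coeffMap_mem_cExt _ _
      (IntermediateField.subset_adjoin _ _ (Or.inr rfl))

variable (M) in
theorem adjoin_u1_eq_top : (modularFunctionFieldBar M)⟮u1 M⟯ = ⊤ := by
  have hle : JacTorsion.FQ (F1 M) ≤ IntermediateField.adjoin (AlgebraicClosure ℚ)
      ((modularFunctionFieldBar M : Set (LaurentSeries (AlgebraicClosure ℚ))) ∪
        {uK (M := M) (AlgebraicClosure ℚ) 1}) := by
    rw [JacTorsion.FQ, baseChange_F1_eq, IntermediateField.adjoin_le_iff]
    rintro x (hx | ⟨a, rfl⟩)
    · exact IntermediateField.subset_adjoin _ _ (Or.inl hx)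
    · exact uK_mem_adjoin a
  refine eq_top_iff.mpr fun x _ => ?_
  suffices h : ∀ y : LaurentSeries (AlgebraicClosure ℚ),
      y ∈ IntermediateField.adjoin (AlgebraicClosure ℚ)
        ((modularFunctionFieldBar M : Set (LaurentSeries (AlgebraicClosure ℚ))) ∪
          {uK (M := M) (AlgebraicClosure ℚ) 1}) →
      ∃ y' ∈ (modularFunctionFieldBar M)⟮u1 M⟯, valF1 M y' = y by
    obtain ⟨x', hx', he⟩ := h _ (hle x.2)
    rwa [(valF1 M).injective (he.trans rfl : valF1 M x' = valF1 M x)] at hx'
  intro y hy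
  induction hy using IntermediateField.adjoin_induction with
  | mem y hy =>
    rcases hy with hy | rfl
    · exact ⟨algebraMap (modularFunctionFieldBar M) (JacTorsion.FQ (F1 M)) ⟨y, hy⟩,
        IntermediateField.algebraMap_mem _ _, rfl⟩
    · exact ⟨u1 M, IntermediateField.mem_adjoin_simple_self _ _, rfl⟩
  | algebraMap c =>
    exact ⟨algebraMap (modularFunctionFieldBar M) (JacTorsion.FQ (F1 M))
      (algebraMap (AlgebraicClosure ℚ) (modularFunctionFieldBar M) c),
      IntermediateField.algebraMap_mem _ _, rfl⟩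
  | add a b _ _ ha hb =>
    obtain ⟨a', ha', rfl⟩ := ha
    obtain ⟨b', hb', rfl⟩ := hb
    exact ⟨a' + b', add_mem ha' hb', map_add _ _ _⟩
  | inv a _ ha =>
    obtain ⟨a', ha', rfl⟩ := ha
    exact ⟨a'⁻¹, inv_mem ha', map_inv₀ _ _⟩
  | mul a b _ _ ha hb =>
    obtain ⟨a', ha', rfl⟩ := ha
    obtain ⟨b', hb', rfl⟩ := hb
    exact ⟨a' * b', mul_mem ha' hb', map_mul _ _ _⟩

variable (M) in
/-- The powers of `u` form a basis. -/
theorem exists_basis_u1 : ∃ b : Module.Basis (Fin (Fintype.card (Idx M)))
    (modularFunctionFieldBar M) (JacTorsion.FQ (F1 M)), ∀ i, b i = u1 M ^ (i : ℕ) := by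
  have hfin : Module.finrank (modularFunctionFieldBar M) (JacTorsion.FQ (F1 M))
      = Fintype.card (Idx M) := by
    rw [← IntermediateField.finrank_top', ← adjoin_u1_eq_top M,
      IntermediateField.adjoin.finrank isIntegral_u1, natDegree_minpoly_u1]
  have hli : LinearIndependent (modularFunctionFieldBar M)
      fun i : Fin (Fintype.card (Idx M)) => u1 M ^ (i : ℕ) :=
    (linearIndependent_pow (u1 M)).comp (Fin.cast natDegree_minpoly_u1.symm)
      (Fin.cast_injective _)
  haveI : Nonempty (Fin (Fintype.card (Idx M))) := Fin.pos_iff_nonempty.mp Fintype.card_pos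
  exact ⟨basisOfLinearIndependentOfCardEqFinrank hli (by simpa using hfin.symm), fun i => by
    simp [coe_basisOfLinearIndependentOfCardEqFinrank]⟩

end Fermat.Agent.DeligneSerre.Residual
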