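import Fermat.Agent.DeligneSerre.Residual.HasRed
import Fermat.Agent.EichlerShimura.SeriesFrob
import Fermat.Agent.GaloisReps.HeckeGalois
import Fermat.Agent.Arith.RootsOfUnity
import Mathlib.LinearAlgebra.Matrix.ToLin

/-!
# Galois on the periods of `±Γ₁(M)`

The Kummer group of the function field over `ℚ̄` is the space of homomorphisms killing elliptic and
parabolic elements; Galois acts on it, and good reduction gives inertia and Frobenius.
-/

set_option autoImplicit false
set_option linter.unusedSectionVars false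
set_option maxHeartbeats 400000

noncomputable section

open IsLocalRing ModularCurve AlgebraicCurve
open Fermat.Agent.Arith Fermat.Agent.RedTorsion
open Fermat.Agent.JacTorsion (divGrp powGrp FQ)
open Fermat.Agent.DeligneSerre.Curve (F1 GoodLevel kummerChar1 kummerChar1_bijective diaFQ
  diaFQ_galois exists_hecke exists_diamond heckeSeries coeffMap_heckeSeries)
open scoped MatrixGroups Pointwise

namespace Fermat.Agent.DeligneSerre

variable {M : ℕ} [NeZero M] [GoodLevel M] {ℓ : ℕ} [NeZero ℓ]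

/-- The function under a unit of `FQ (F1 M)`. -/
abbrev funOf (f : divGrp QBar (FQ (F1 M)) ℓ) : FQ (F1 M) := ((f : (FQ (F1 M))ˣ) : FQ (F1 M))

theorem funOf_ne_zero (f : divGrp QBar (FQ (F1 M)) ℓ) : funOf f ≠ 0 := Units.ne_zero _

/-- Its series. -/
abbrev serOf (f : divGrp QBar (FQ (F1 M)) ℓ) : LaurentSeries QBar :=
  (funOf f : LaurentSeries QBar)

theorem serOf_ne_zero (f : divGrp QBar (FQ (F1 M)) ℓ) : serOf f ≠ 0 := fun h =>
  funOf_ne_zero f (Subtype.ext h)

theorem serOf_injective : Function.Injective (serOf (M := M) (ℓ := ℓ)) := fun _ _ h =>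
  Subtype.ext (Units.ext (Subtype.ext h))

theorem units_galois_mem (σ : GQ) {f : (FQ (F1 M))ˣ} (hf : f ∈ divGrp QBar (FQ (F1 M)) ℓ) :
    Units.map (arithmeticRingAut (F1 M) σ).toRingHom.toMonoidHom f
      ∈ divGrp QBar (FQ (F1 M)) ℓ := fun P => by
  have h := SemilinearAut.ord_smul ((arithmeticGalois (F1 M) σ)⁻¹) P
    (arithmeticGalois (F1 M) σ • (f : FQ (F1 M)))
  rw [inv_smul_smul] at h
  show (ℓ : ℤ) ∣ P.ord (arithmeticGalois (F1 M) σ • (f : FQ (F1 M)))
  rw [← h]
  exact hf _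

/-- Galois on functions with divisor divisible by `ℓ`. -/
def galDiv (σ : GQ) : divGrp QBar (FQ (F1 M)) ℓ →* divGrp QBar (FQ (F1 M)) ℓ :=
  ((Units.map (arithmeticRingAut (F1 M) σ).toRingHom.toMonoidHom).comp
    (Subgroup.subtype _)).codRestrict _ fun f => units_galois_mem σ f.2

theorem serOf_galDiv (σ : GQ) (f : divGrp QBar (FQ (F1 M)) ℓ) :
    serOf (galDiv σ f) = coeffMap (σ : QBar →+* QBar) (serOf f) := rfl

theorem galDiv_one (f : divGrp QBar (FQ (F1 M)) ℓ) : galDiv (1 : GQ) f = f := by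
  refine serOf_injective ?_
  rw [serOf_galDiv]
  exact (coeffMap_congr (RingHom.ext fun _ => rfl) _).trans (coeffMap_id _)

theorem galDiv_mul (σ τ : GQ) (f : divGrp QBar (FQ (F1 M)) ℓ) :
    galDiv (σ * τ) f = galDiv σ (galDiv τ f) := by
  refine serOf_injective ?_
  rw [serOf_galDiv, serOf_galDiv, serOf_galDiv, coeffMap_coeffMap]
  exact coeffMap_congr (RingHom.ext fun _ => rfl) _

theorem galDiv_mem_powGrp (σ : GQ) {f : divGrp QBar (FQ (F1 M)) ℓ}
    (hf : f ∈ powGrp QBar (FQ (F1 M)) ℓ) : galDiv σ f ∈ powGrp QBar (FQ (F1 M)) ℓ := by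
  obtain ⟨g, hg⟩ := hf
  refine ⟨Units.map (arithmeticRingAut (F1 M) σ).toRingHom.toMonoidHom g, ?_⟩
  rw [powMonoidHom_apply] at hg ⊢
  rw [← map_pow, hg]
  rfl

/-- The periods of a root of `f` at the chosen points. -/
def periodVec (f : divGrp QBar (FQ (F1 M)) ℓ) : Fin (homRank M) → ZMod ℓ := fun a =>
  (kummerChar1 M ℓ (QuotientGroup.mk f)).toAdd.1 (Additive.ofMul (homPts M a))

theorem periodVec_mul (f g : divGrp QBar (FQ (F1 M)) ℓ) :
    periodVec (f * g) = periodVec f + periodVec g := by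
  funext a
  simp only [periodVec, Pi.add_apply, QuotientGroup.mk_mul, map_mul, toAdd_mul,
    AddSubgroup.coe_add, AddMonoidHom.add_apply]

/-- `periodVec` as a homomorphism. -/
def periodVecHom : Additive (divGrp QBar (FQ (F1 M)) ℓ) →+ (Fin (homRank M) → ZMod ℓ) :=
  AddMonoidHom.mk' (fun f => periodVec f.toMul) fun f g => periodVec_mul f.toMul g.toMul

theorem periodVec_surjective : Function.Surjective (periodVec (M := M) (ℓ := ℓ)) := fun v => by
  obtain ⟨φ, hφ⟩ := (homPts_bijective M (ZMod ℓ)).2 v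
  obtain ⟨x, hx⟩ := (kummerChar1_bijective M ℓ).2 (Multiplicative.ofAdd φ)
  obtain ⟨f, rfl⟩ := QuotientGroup.mk_surjective x
  refine ⟨f, ?_⟩
  rw [← hφ]
  funext a
  rw [periodVec, hx, toAdd_ofAdd]

theorem periodVec_eq_zero_iff (f : divGrp QBar (FQ (F1 M)) ℓ) :
    periodVec f = 0 ↔ f ∈ powGrp QBar (FQ (F1 M)) ℓ := by
  rw [← QuotientGroup.eq_one_iff, ← (kummerChar1_bijective M ℓ).1.eq_iff, map_one]
  constructor
  · intro h
    refine Multiplicative.toAdd.injective ((homPts_bijective M (ZMod ℓ)).1 ?_)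
    funext a
    exact congrFun h a
  · intro h
    funext a
    rw [periodVec, h]
    rfl

theorem periodVec_div (f g : divGrp QBar (FQ (F1 M)) ℓ) :
    periodVec (f / g) = periodVec f - periodVec g :=
  map_sub periodVecHom (Additive.ofMul f) (Additive.ofMul g)

theorem periodVec_pow (f : divGrp QBar (FQ (F1 M)) ℓ) (n : ℕ) :
    periodVec (f ^ n) = n • periodVec f :=
  map_nsmul periodVecHom n (Additive.ofMul f)

theorem periodVec_galDiv_congr (σ : GQ) {f g : divGrp QBar (FQ (F1 M)) ℓ}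
    (h : periodVec f = periodVec g) : periodVec (galDiv σ f) = periodVec (galDiv σ g) := by
  rw [← sub_eq_zero, ← periodVec_div, periodVec_eq_zero_iff] at h
  rw [← sub_eq_zero, ← periodVec_div, periodVec_eq_zero_iff, ← map_div]
  exact galDiv_mem_powGrp σ h

/-- The matrix of an operator on periods. -/
def opVec (i : GoodOp M) : Matrix (Fin (homRank M)) (Fin (homRank M)) (ZMod ℓ) :=
  (opMat i).map (Int.cast : ℤ → ZMod ℓ)

theorem periodVec_eq_mulVec (i : GoodOp M) {f g : divGrp QBar (FQ (F1 M)) ℓ}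
    (h : (kummerChar1 M ℓ (QuotientGroup.mk g)).toAdd.1 =
      goodOp ℤ i (kummerChar1 M ℓ (QuotientGroup.mk f)).toAdd.1) :
    periodVec g = Matrix.mulVec (opVec i) (periodVec f) := by
  funext b
  rw [periodVec, h, goodOp_apply_homPts i (kummerChar1 M ℓ (QuotientGroup.mk f)).toAdd.2]
  simp [Matrix.mulVec, dotProduct, opVec, periodVec, zsmul_eq_mul]

/-- The series of `⟨p⟩`. -/
abbrev diaSer {p : ℕ} (hp : p.Prime) (hpM : ¬ p ∣ M) (f : divGrp QBar (FQ (F1 M)) ℓ) :
    LaurentSeries QBar :=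
  ((diaFQ M (ZMod.unitOfCoprime p ((Nat.Prime.coprime_iff_not_dvd hp).2 hpM)) (funOf f) :
    FQ (F1 M)) : LaurentSeries QBar)

theorem exists_opT {p : ℕ} (hp : p.Prime) (hpM : ¬ p ∣ M) [NeZero p]
    (f : divGrp QBar (FQ (F1 M)) ℓ) :
    ∃ g : divGrp QBar (FQ (F1 M)) ℓ,
      qExpand QBar p (serOf g) = heckeSeries p (serOf f) (diaSer hp hpM f) ∧
      periodVec g = Matrix.mulVec (opVec (opT hp hpM)) (periodVec f) := by
  haveI := Fact.mk hp
  obtain ⟨g, hg, hc⟩ := exists_hecke (p := p) hpM f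
  exact ⟨g, hg, periodVec_eq_mulVec (opT hp hpM) hc⟩

theorem exists_opDia (u : (ZMod M)ˣ) (f : divGrp QBar (FQ (F1 M)) ℓ) :
    ∃ g : divGrp QBar (FQ (F1 M)) ℓ, funOf g = diaFQ M u (funOf f) ∧
      periodVec g = Matrix.mulVec (opVec (Sum.inr u : GoodOp M)) (periodVec f) := by
  obtain ⟨g, hg, hc⟩ := exists_diamond u f
  exact ⟨g, hg, periodVec_eq_mulVec (Sum.inr u : GoodOp M) hc⟩

theorem diaSer_galDiv {p : ℕ} (hp : p.Prime) (hpM : ¬ p ∣ M) (σ : GQ)
    (f : divGrp QBar (FQ (F1 M)) ℓ) :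
    diaSer hp hpM (galDiv σ f) = coeffMap (σ : QBar →+* QBar) (diaSer hp hpM f) :=
  congrArg Subtype.val (diaFQ_galois _ σ (funOf f))

/-- Galois on period vectors. -/
def galVec (σ : GQ) (v : Fin (homRank M) → ZMod ℓ) : Fin (homRank M) → ZMod ℓ :=
  periodVec (galDiv σ (periodVec_surjective v).choose)

theorem galVec_periodVec (σ : GQ) (f : divGrp QBar (FQ (F1 M)) ℓ) :
    galVec σ (periodVec f) = periodVec (galDiv σ f) :=
  periodVec_galDiv_congr σ (periodVec_surjective (periodVec f)).choose_spec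

theorem galVec_add (σ : GQ) (v w : Fin (homRank M) → ZMod ℓ) :
    galVec σ (v + w) = galVec σ v + galVec σ w := by
  obtain ⟨f, rfl⟩ := periodVec_surjective v
  obtain ⟨g, rfl⟩ := periodVec_surjective w
  rw [← periodVec_mul, galVec_periodVec, galVec_periodVec, galVec_periodVec, map_mul,
    periodVec_mul]

/-- Galois on period vectors, additively. -/
def galAdd (σ : GQ) : (Fin (homRank M) → ZMod ℓ) →+ (Fin (homRank M) → ZMod ℓ) :=
  AddMonoidHom.mk' (galVec (M := M) (ℓ := ℓ) σ) (fun v w => galVec_add (M := M) (ℓ := ℓ) σ v w)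

theorem galAdd_periodVec (σ : GQ) (f : divGrp QBar (FQ (F1 M)) ℓ) :
    galAdd σ (periodVec f) = periodVec (galDiv σ f) :=
  galVec_periodVec σ f

/-- Galois on period vectors, linearly. -/
def galLin (σ : GQ) : Module.End (ZMod ℓ) (Fin (homRank M) → ZMod ℓ) :=
  AddMonoidHom.toZModLinearMap ℓ (galAdd (M := M) (ℓ := ℓ) σ)

theorem galLin_periodVec (σ : GQ) (f : divGrp QBar (FQ (F1 M)) ℓ) :
    galLin σ (periodVec f) = periodVec (galDiv σ f) :=
  galAdd_periodVec σ f

theorem galLin_one : galLin (M := M) (ℓ := ℓ) 1 = 1 := LinearMap.ext fun v => by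
  obtain ⟨f, rfl⟩ := periodVec_surjective v
  rw [galLin_periodVec, galDiv_one, Module.End.one_apply]

theorem galLin_mul (σ τ : GQ) :
    galLin (M := M) (ℓ := ℓ) (σ * τ) = galLin σ * galLin τ := LinearMap.ext fun v => by
  obtain ⟨f, rfl⟩ := periodVec_surjective v
  rw [Module.End.mul_apply, galLin_periodVec, galLin_periodVec, galLin_periodVec, galDiv_mul]

/-- Galois on periods as matrices. -/
def galMat : GQ →* Matrix (Fin (homRank M)) (Fin (homRank M)) (ZMod ℓ) :=
  { toFun := fun σ =>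
      LinearMap.toMatrixAlgEquiv' (R := ZMod ℓ) (n := Fin (homRank M)) (galLin (M := M) (ℓ := ℓ) σ)
    map_one' := by rw [galLin_one, map_one]
    map_mul' := fun σ τ => by rw [galLin_mul, map_mul] }

theorem galMat_mulVec (σ : GQ) (f : divGrp QBar (FQ (F1 M)) ℓ) :
    Matrix.mulVec (galMat σ) (periodVec f) = periodVec (galDiv σ f) := by
  rw [← galLin_periodVec]
  exact LinearMap.toMatrix'_mulVec (galLin σ) _

theorem matrix_ext_periodVec {B C : Matrix (Fin (homRank M)) (Fin (homRank M)) (ZMod ℓ)}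
    (h : ∀ f : divGrp QBar (FQ (F1 M)) ℓ,
      Matrix.mulVec B (periodVec f) = Matrix.mulVec C (periodVec f)) : B = C := by
  refine Matrix.toLin'.injective (LinearMap.ext fun v => ?_)
  obtain ⟨f, rfl⟩ := periodVec_surjective v
  simpa [Matrix.toLin'_apply] using h f

theorem galMat_commute (i : GoodOp M) (σ : GQ) :
    Commute (opVec (ℓ := ℓ) i) (galMat σ) := by
  refine matrix_ext_periodVec fun f => ?_
  rw [← Matrix.mulVec_mulVec, ← Matrix.mulVec_mulVec, galMat_mulVec]
  rcases i with ⟨p, hp, hpM⟩ | u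
  · have : NeZero p := ⟨hp.ne_zero⟩
    obtain ⟨g, hg, hgv⟩ := exists_opT hp hpM f
    obtain ⟨g', hg', hgv'⟩ := exists_opT hp hpM (galDiv σ f)
    change Matrix.mulVec (opVec (opT hp hpM)) _
      = Matrix.mulVec _ (Matrix.mulVec (opVec (opT hp hpM)) _)
    rw [← hgv, ← hgv', galMat_mulVec]
    refine congrArg periodVec (serOf_injective (qExpand_injective p ?_))
    rw [hg', serOf_galDiv σ g, ← coeffMap_qExpand, hg, coeffMap_heckeSeries, ← diaSer_galDiv,
      serOf_galDiv]
  · obtain ⟨g, hg, hgv⟩ := exists_opDia u f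
    obtain ⟨g', hg', hgv'⟩ := exists_opDia u (galDiv σ f)
    rw [← hgv, ← hgv', galMat_mulVec]
    refine congrArg periodVec (Subtype.ext (Units.ext (hg'.trans ?_)))
    show diaFQ M u (arithmeticRingAut (F1 M) σ (funOf f))
      = arithmeticRingAut (F1 M) σ (funOf g)
    rw [diaFQ_galois, ← hg]

theorem exists_level :
    ∃ L : IntermediateField ℚ QBar, FiniteDimensional ℚ L ∧
      ∀ σ : GQ, (∀ x ∈ L, σ x = x) → galMat (M := M) (ℓ := ℓ) σ = 1 := by
  choose f hf using fun a : Fin (homRank M) =>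
    periodVec_surjective (ℓ := ℓ) (Pi.single a (1 : ZMod ℓ) : Fin (homRank M) → ZMod ℓ)
  choose L hL hfix using fun a => GaloisReps.exists_fixing_element (F1 M)
    (x := serOf (f a)) (funOf (f a)).2
  have : ∀ a, FiniteDimensional ℚ (L a) := hL
  refine ⟨⨆ a, L a, IntermediateField.finiteDimensional_iSup_of_finite, fun σ hσ => ?_⟩
  refine Matrix.ext_of_mulVec_single fun a => ?_
  rw [← hf a, galMat_mulVec, Matrix.one_mulVec]
  refine congrArg periodVec (serOf_injective ?_)
  rw [serOf_galDiv]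
  exact hfix a σ fun z hz => hσ z (le_iSup L a hz)

section Local

variable {A : ValuationSubring QBar} {p : ℕ}

theorem exists_residue_map {σ : GQ} (hσ : σ • A = A) (θr : ResidueField A →+* ResidueField A)
    (h : ∀ (x : QBar) (hx : x ∈ A),
      residue A ⟨σ x, map_mem_of_mem_decomposition hσ hx⟩ = θr (residue A ⟨x, hx⟩))
    {f : LaurentSeries QBar} {y : LaurentSeries (ResidueField A)} (hf : HasRed A f y) :
    HasRed A (coeffMap (σ : QBar →+* QBar) f) (coeffMap θr y) :=
  hf.map (σ : QBar →+* QBar)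
    (((σ : QBar →+* QBar).comp A.subtype).codRestrict A
      fun x => map_mem_of_mem_decomposition hσ x.2)
    (fun _ => rfl) θr fun x => h x x.2

theorem HasRed.inertia {σ : GQ} (hσ : σ ∈ A.inertiaSubgroupIn ℚ) {f : LaurentSeries QBar}
    {y : LaurentSeries (ResidueField A)} (hf : HasRed A f y) :
    HasRed A (coeffMap (σ : QBar →+* QBar) f) y := by
  obtain ⟨hσA, hσ⟩ := mem_inertia_iff_forall_mem.mp hσ
  have := exists_residue_map hσA (RingHom.id _)
    (fun x hx => residue_eq_iff.mpr (hσ x hx)) hf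
  rwa [coeffMap_id] at this

theorem HasRed.frobenius [Fact p.Prime] [CharP (ResidueField A) p] {σ : GQ}
    (hσ : A.IsFrobeniusAt σ p) {f : LaurentSeries QBar}
    {y : LaurentSeries (ResidueField A)} (hf : HasRed A f y) :
    HasRed A (coeffMap (σ : QBar →+* QBar) f)
      (coeffMap (_root_.frobenius (ResidueField A) p) y) := by
  obtain ⟨hσA, hσ⟩ := isFrobeniusAt_iff_forall_mem.mp hσ
  refine exists_residue_map hσA _ (fun x hx => ?_) hf
  rw [frobenius_def, ← map_pow]
  exact residue_eq_iff.mpr (hσ x hx)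

theorem periodVec_galDiv_of_inertia (hgr : GoodReduction M) (hp : p.Prime) (hℓ : ℓ.Prime)
    (hpℓ : p ≠ ℓ) (hpM : ¬ p ∣ M) (hA : A.LiesOverPrime p) {σ : GQ}
    (hσ : σ ∈ A.inertiaSubgroupIn ℚ) (f : divGrp QBar (FQ (F1 M)) ℓ) :
    periodVec (galDiv σ f) = periodVec f := by
  obtain ⟨hex, hpow⟩ := hgr p ℓ hp hℓ hpℓ hpM A hA
  obtain ⟨y, hy⟩ := hex (funOf f) (funOf_ne_zero f)
  rw [← sub_eq_zero, ← periodVec_div, periodVec_eq_zero_iff]
  refine hpow _ 1 ?_
  have h := (hy.inertia hσ).div hy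
  rw [div_self hy.1] at h
  rw [map_one]
  convert h using 1
  rw [← serOf_galDiv]
  simp [serOf, funOf, IntermediateField.coe_div]

theorem periodVec_frobenius (hgr : GoodReduction M) (hp : p.Prime) (hℓ : ℓ.Prime)
    (hpℓ : p ≠ ℓ) (hpM : ¬ p ∣ M) (hA : A.LiesOverPrime p) {σ : GQ} (hσ : A.IsFrobeniusAt σ p)
    (f : divGrp QBar (FQ (F1 M)) ℓ) :
    periodVec (galDiv σ (galDiv σ f)) + p • Matrix.mulVec (opVec (opD hp hpM)) (periodVec f)
      = Matrix.mulVec (opVec (opT hp hpM)) (periodVec (galDiv σ f)) := by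
  haveI := Fact.mk hp
  haveI : NeZero p := ⟨hp.ne_zero⟩
  haveI := residueField_charP hA hp
  obtain ⟨hex, hpow⟩ := hgr p ℓ hp hℓ hpℓ hpM A hA
  obtain ⟨g, hg, hgv⟩ := exists_opT hp hpM (galDiv σ f)
  obtain ⟨d, hd, hdv⟩ :=
    exists_opDia (ZMod.unitOfCoprime p ((Nat.Prime.coprime_iff_not_dvd hp).2 hpM)) f
  rw [opD, ← hdv, ← hgv, ← periodVec_pow, ← periodVec_mul, ← sub_eq_zero, ← periodVec_div,
    periodVec_eq_zero_iff]
  set r := galDiv σ (galDiv σ f) * d ^ p / g with hr
  obtain ⟨y, hy⟩ := hex (funOf f) (funOf_ne_zero f)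
  obtain ⟨yd, hyd⟩ := hex (funOf d) (funOf_ne_zero d)
  set Φ := coeffMap (_root_.frobenius (ResidueField A) p) with hΦ
  have hds : diaSer hp hpM (galDiv σ f) = coeffMap (σ : QBar →+* QBar) (serOf d) := by
    rw [diaSer_galDiv]
    exact congrArg (coeffMap _) (congrArg Subtype.val hd.symm)
  have hnum : HasRed A (qExpand QBar p (serOf (galDiv σ (galDiv σ f))) *
      qExpand QBar p (serOf d ^ p)) (qExpand _ p (Φ (Φ y)) * qExpand _ p (yd ^ p)) :=
    ((((hy.frobenius hσ).frobenius hσ).qExpand p).mul ((hyd.pow hp.ne_zero).qExpand p))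
  have hden : HasRed A (qExpand QBar p (serOf g))
      (qExpand _ p (qExpand _ p (Φ yd)) * (Φ y) ^ p) := by
    rw [hg, hds]
    exact hasRed_heckeSeries hp (hy.frobenius hσ) (hyd.frobenius hσ)
  have heq : qExpand _ p (Φ (Φ y)) * qExpand _ p (yd ^ p)
      = qExpand _ p (qExpand _ p (Φ yd)) * (Φ y) ^ p := by
    rw [EichlerShimura.pow_eq_qExpand_frobenius p yd,
      EichlerShimura.pow_eq_qExpand_frobenius p (Φ y), hΦ]
    ring
  have hone := hnum.div hden
  rw [heq, div_self hden.1] at hone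
  have hser : serOf r = serOf (galDiv σ (galDiv σ f)) * serOf d ^ p / serOf g := by
    simp [hr, serOf, funOf, IntermediateField.coe_div]
  rw [← map_mul, ← map_div₀, ← hser] at hone
  obtain ⟨yr, hyr⟩ := hex (funOf r) (funOf_ne_zero r)
  obtain ⟨a, ha⟩ := HasRed.exists_div_eq_const
    ((map_ne_zero_iff _ (qExpand_injective p)).mpr (serOf_ne_zero r)) (hyr.qExpand p) hone
  rw [div_one] at ha
  have hyr' : yr = algebraMap _ _ a := qExpand_injective p (by
    rw [ha, algebraMap_laurentSeries_eq_single, qExpand_single, mul_zero])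
  exact hpow r a (hyr' ▸ hyr)

end Local

/-- Good reduction gives Galois on periods. -/
theorem galoisOnPeriods (hgr : GoodReduction M) (hℓ : ℓ.Prime) : GaloisOnPeriods M ℓ := by
  intro k _ _
  let φ : ZMod ℓ →+* k := ZMod.castHom (dvd_refl ℓ) k
  have hop : ∀ i : GoodOp M, φ.mapMatrix (opVec i) = opMatOver k i := fun i => by
    ext a b; simp [opVec, opMatOver]
  refine ⟨φ.mapMatrix.toMonoidHom.comp galMat, ?_, fun i σ => ?_, fun p hp hpM hpℓ A hA => ?_⟩
  · obtain ⟨L, hL, h⟩ := exists_level (M := M) (ℓ := ℓ)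
    exact ⟨L, hL, fun σ hσ => by
      rw [MonoidHom.comp_apply, h σ hσ, map_one]⟩
  · rw [← hop]
    exact (galMat_commute i σ).map φ.mapMatrix
  · refine ⟨fun σ hσ => ?_, fun σ hσ => ?_⟩
    · have h1 : galMat σ = (1 : Matrix (Fin (homRank M)) (Fin (homRank M)) (ZMod ℓ)) :=
        matrix_ext_periodVec fun f => by
          rw [galMat_mulVec, Matrix.one_mulVec,
            periodVec_galDiv_of_inertia hgr hp hℓ hpℓ hpM hA hσ f]
      rw [MonoidHom.comp_apply, h1, map_one]
    · have h1 : galMat σ * galMat σ + (p : ZMod ℓ) • opVec (ℓ := ℓ) (opD hp hpM)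
          = opVec (ℓ := ℓ) (opT hp hpM) * galMat σ := matrix_ext_periodVec fun f => by
        rw [Matrix.add_mulVec, Matrix.smul_mulVec, ← Matrix.mulVec_mulVec,
          ← Matrix.mulVec_mulVec, galMat_mulVec, galMat_mulVec, Nat.cast_smul_eq_nsmul]
        exact periodVec_frobenius hgr hp hℓ hpℓ hpM hA hσ f
      have h2 := congrArg φ.mapMatrix h1
      rw [map_add, map_mul, map_mul, hop] at h2
      have h3 : φ.mapMatrix ((p : ZMod ℓ) • opVec (opD hp hpM))
          = (p : k) • opMatOver k (opD hp hpM) := by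
        ext a b; simp [opVec, opMatOver]
      rw [h3] at h2
      show φ.mapMatrix (galMat σ) * φ.mapMatrix (galMat σ)
          - opMatOver k (opT hp hpM) * φ.mapMatrix (galMat σ) + _ = 0
      rw [← h2]
      abel

end Fermat.Agent.DeligneSerre
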