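import Fermat.Agent.DeligneSerre.Residual.Translate
import Fermat.Agent.DeligneSerre.Curve.Diamond
import Fermat.Prelude.Thm_ModularCurve_coeffMap_qExpand
import Mathlib.RingTheory.RootsOfUnity.Complex

/-!
# Hecke and diamond operators on the Kummer group over `ℚ̄`

`T_p` sends `f` to the function whose `q^p`-series is `(⟨p⟩ f)(q^{p²}) ∏_{u^p = 1} f (u q)`.
-/

set_option autoImplicit false
set_option linter.unusedSectionVars false

noncomputable section

open UpperHalfPlane hiding I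
open Matrix.SpecialLinearGroup (mapGL)
open ModularCurve (qExpand coeffMap coeffMap_coeff coeffMap_qExpand qExpand_qExpand qExpand_coeff_mul
  qExpand_coeff_of_not_dvd qExpand_one_apply qExpand_injective qExpand_congr)
open Fermat.Agent.ModFun (MerH HolH actMer actMer_algebraMap MeroAtInfty CuspAlg laurentExp twist
  coeff_twist affine affineRoot affineRoot_zero twist_one compAffine compAffine_apply
  laurentExp_compAffine scaleH coe_scaleH coe_affine comp_affine_mem exists_scaleH_smul)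
open Fermat.Agent.JacTorsion (divGrp extQ coe_extQ ιQ FQ)
open Fermat.Agent.GaloisReps (actGL actGL_algebraMap actGL_mapGL comp_scaleH_mem_CuspAlg)
open Fermat.Agent.RT.GammaH (GLR hRep HIdx gamma0Elt gamma0Elt_mem gamma0Elt_upperLeft
  admissible_hRep admissible_diaRep hRep_mem_heckeSet hecke diamond)
open scoped MatrixGroups Manifold Classical

namespace Fermat.Agent.DeligneSerre.Curve

local notation "Qb" => AlgebraicClosure ℚ

section Series

attribute [local instance] Fintype.ofFinite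

variable {K L : Type*} [Field K] [Field L]

/-- The series of `T_p f` in `q^(1/p)`, given that of `⟨p⟩ f`. -/
def heckeSeries (p : ℕ) [NeZero p] (f fd : LaurentSeries K) : LaurentSeries K :=
  qExpand K p (qExpand K p fd) * ∏ u : rootsOfUnity p K, twist (u : Kˣ) f

theorem heckeSeries_div (p : ℕ) [NeZero p] (a b a' b' : LaurentSeries K) :
    heckeSeries p (a / b) (a' / b') = heckeSeries p a a' / heckeSeries p b b' := by
  simp only [heckeSeries, map_div₀, Finset.prod_div_distrib, div_mul_div_comm]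

theorem coeffMap_twist (ι : K →+* L) (u : Kˣ) (x : LaurentSeries K) :
    coeffMap ι (twist u x) = twist (Units.map (ι : K →* L) u) (coeffMap ι x) := by
  ext k
  rw [coeffMap_coeff, coeff_twist, coeff_twist, coeffMap_coeff, map_mul, ← map_zpow]
  rfl

theorem coeffMap_heckeSeries (ι : K →+* L) (p : ℕ) [NeZero p] [HasEnoughRootsOfUnity K p]
    [HasEnoughRootsOfUnity L p] (f fd : LaurentSeries K) :
    coeffMap ι (heckeSeries p f fd) = heckeSeries p (coeffMap ι f) (coeffMap ι fd) := by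
  rw [heckeSeries, heckeSeries, map_mul, coeffMap_qExpand, coeffMap_qExpand, map_prod]
  congr 1
  have hb : Function.Bijective (restrictRootsOfUnity ι p) := by
    rw [Fintype.bijective_iff_injective_and_card]
    refine ⟨fun x y h => Subtype.ext (Units.ext (ι.injective ?_)), ?_⟩
    · simpa using congrArg (fun z : rootsOfUnity p L => ((z : Lˣ) : L)) h
    · rw [← Nat.card_eq_fintype_card, ← Nat.card_eq_fintype_card,
        HasEnoughRootsOfUnity.natCard_rootsOfUnity, HasEnoughRootsOfUnity.natCard_rootsOfUnity]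
  refine Fintype.prod_bijective _ hb _ _ fun u => ?_
  rw [coeffMap_twist]
  exact congrArg (fun v => twist v _) (Units.ext rfl)

/-- Over `ℂ` the roots of unity are the `affineRoot j p`. -/
theorem prod_rootsOfUnity_complex (p : ℕ) [NeZero p] (F : ℂˣ → LaurentSeries ℂ) :
    ∏ j : Fin p, F (affineRoot (j : ℕ) p) = ∏ u : rootsOfUnity p ℂ, F u := by
  have hmem : ∀ j : Fin p, affineRoot ((j : ℕ) : ℤ) p ∈ rootsOfUnity p ℂ := fun j => by
    rw [Complex.mem_rootsOfUnity]
    exact ⟨j, j.2, by simp [affineRoot, mul_div_assoc]⟩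
  refine Fintype.prod_bijective (fun j => (⟨_, hmem j⟩ : rootsOfUnity p ℂ)) ?_ _ _ fun _ => rfl
  rw [Fintype.bijective_iff_surjective_and_card]
  refine ⟨fun u => ?_, by
    rw [Fintype.card_fin, ← Nat.card_eq_fintype_card, HasEnoughRootsOfUnity.natCard_rootsOfUnity]⟩
  obtain ⟨i, hi, he⟩ := (Complex.mem_rootsOfUnity p u).mp u.2
  exact ⟨⟨i, hi⟩, Subtype.ext (Units.ext (he ▸ by simp [affineRoot, mul_div_assoc]))⟩

end Series

section Reps

variable {M : ℕ} {p : ℕ} [hp : Fact p.Prime]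

theorem heckeMatrix_smul (j : ℕ) (τ : ℍ) :
    (ModularForm.heckeMatrix p j : GLR) • τ = affine 1 (j : ℤ) p τ := by
  apply UpperHalfPlane.ext
  rw [coe_smul_of_det_pos (det_pos_of_mem_heckeSet (M := 1) (K := ⊤) hp.out.pos
    (RT.GammaH.heckeMatrix_mem_heckeSet j)), coe_affine]
  simp [num, denom, ModularForm.val_heckeMatrix hp.out.ne_zero]

theorem heckeDiagMatrix_smul (τ : ℍ) :
    (ModularForm.heckeDiagMatrix p : GLR) • τ = scaleH p τ := by
  apply UpperHalfPlane.ext
  rw [coe_smul_of_det_pos, coe_scaleH]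
  · simp [num, denom, ModularForm.val_heckeDiagMatrix hp.out.ne_zero]
  · rw [Matrix.GeneralLinearGroup.val_det_apply,
      ModularForm.val_heckeDiagMatrix hp.out.ne_zero, Matrix.det_fin_two_of]
    simp [hp.out.pos]

theorem affine_one_eq (j : ℤ) (τ : ℍ) :
    affine 1 j p τ = ModularGroup.S • scaleH p (ModularGroup.S • ((j : ℝ) +ᵥ τ)) := by
  have h1 : (p : ℂ) ≠ 0 := by exact_mod_cast hp.out.ne_zero
  have h2 : ((((j : ℝ) +ᵥ τ : ℍ)) : ℂ) ≠ 0 := ((j : ℝ) +ᵥ τ).ne_zero
  apply UpperHalfPlane.ext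
  simp only [coe_affine, modular_S_smul, coe_mk, coe_scaleH]
  push_cast [coe_vadd] at h2 ⊢
  field_simp
  ring

theorem lowerRight_of_upperLeft {σ : SL(2, ℤ)} (hσ : σ ∈ CongruenceSubgroup.Gamma0 M)
    {u : (ZMod M)ˣ} (h : (σ 0 0 : ZMod M) = ((u⁻¹ : (ZMod M)ˣ) : ZMod M)) :
    (σ 1 1 : ZMod M) = u := by
  have hd : (σ 0 0 : ZMod M) * σ 1 1 - σ 0 1 * σ 1 0 = 1 := by
    exact_mod_cast congrArg (Int.cast : ℤ → ZMod M) (Gamma0.det_eq σ)
  rw [CongruenceSubgroup.Gamma0_mem.1 hσ, mul_zero, sub_zero, h] at hd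
  have h2 := congrArg (fun x => (u : ZMod M) * x) hd
  simpa [← mul_assoc] using h2

variable [NeZero M]

/-- Translates of functions of level `M` by `u diag(p,1) v` are meromorphic at infinity. -/
theorem meroAtInfty_scale (a : Hol1 M) (u g : SL(2, ℤ)) :
    MeroAtInfty fun τ => (a : ℍ → ℂ) (u • scaleH p (g • τ)) := by
  obtain ⟨δ, a', b, e, _, _, -, -, h⟩ := exists_scaleH_smul p g
  haveI : NeZero (e * M) := ⟨mul_ne_zero (NeZero.ne e) (NeZero.ne M)⟩
  have hN : ∀ τ : ℍ, scaleH M (affine a' b (e * M) τ) = affine a' b e τ := fun τ => by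
    have hN : (M : ℂ) ≠ 0 := by exact_mod_cast NeZero.ne M
    apply UpperHalfPlane.ext
    rw [coe_scaleH, coe_affine, coe_affine]
    push_cast
    field_simp
  have he : (fun τ => (a : ℍ → ℂ) (u • scaleH p (g • τ))) =
      fun τ => (fun τ => (a : ℍ → ℂ) ((u * δ) • scaleH M τ)) (affine a' b (e * M) τ) := by
    funext τ
    show _ = (a : ℍ → ℂ) ((u * δ) • scaleH M (affine a' b (e * M) τ))
    rw [h, hN, mul_smul]
  rw [he]
  exact (comp_affine_mem a' b (e * M) (comp_scaleH_mem_CuspAlg (compSL1 M (u * δ) a))).2.2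

theorem hRep_meroAtInfty (a : Hol1 M) (i : HIdx M p) (g : SL(2, ℤ)) :
    MeroAtInfty fun τ => (a : ℍ → ℂ) (hRep M p i • g • τ) := by
  rcases i with ⟨_ | j, h⟩
  · simp only [hRep, mul_smul, heckeDiagMatrix_smul]
    exact meroAtInfty_scale a _ g
  · have := meroAtInfty_scale (p := p) a ModularGroup.S
      (ModularGroup.S * ModularGroup.T ^ ((j : ℕ) : ℤ) * g)
    simp only [mul_smul, modular_T_zpow_smul, ← affine_one_eq] at this
    simp only [hRep, heckeMatrix_smul]
    exact this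

theorem det_hRep_pos (i : HIdx M p) : 0 < (hRep M p i).det.val :=
  det_pos_of_mem_heckeSet hp.out.pos (hRep_mem_heckeSet (K := ⊤) i)

end Reps

section Main

variable {M : ℕ} [NeZero M] [GoodLevel M] {p : ℕ} [hp : Fact p.Prime]

/-- `T_p` on `Hol1 M`. -/
def heckeHol (a : Hol1 M) : Hol1 M :=
  transHol (admissible_hRep (K := Subgroup.zpowers (-1 : (ZMod M)ˣ)) (n := p)) det_hRep_pos
    hRep_meroAtInfty a

theorem qExpand_heckeHol (hpM : ¬ p ∣ M) (a : Hol1 M) :
    qExpand ℂ p (qExp1 M (heckeHol (p := p) a)) = heckeSeries p (qExp1 M a)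
      (qExp1 M (dia M (ZMod.unitOfCoprime p ((Nat.Prime.coprime_iff_not_dvd hp.out).2 hpM)) a)) := by
  have : NeZero p := ⟨hp.out.ne_zero⟩
  set u := ZMod.unitOfCoprime p ((Nat.Prime.coprime_iff_not_dvd hp.out).2 hpM) with hu
  have h11 : ∀ f : CuspAlg 1, laurentExp p (compAffine p 0 p f) = qExpand ℂ p (laurentExp 1 f) :=
    fun f => by rw [laurentExp_compAffine, affineRoot_zero, twist_one]
  have hF : ∀ f : Hol1 M, qExp1 M f
      = laurentExp 1 (Subalgebra.inclusion Hol1_le_CuspAlg_one f) := fun _ => rfl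
  set A0 : CuspAlg p :=
    compAffine (p * p) 0 p (Subalgebra.inclusion Hol1_le_CuspAlg_one (dia M u a)) with hA0
  set A : Fin p → CuspAlg p := fun j =>
    compAffine 1 ((j : ℕ) : ℤ) p (Subalgebra.inclusion Hol1_le_CuspAlg_one a) with hA
  have hprod : compAffine p 0 p (Subalgebra.inclusion Hol1_le_CuspAlg_one (heckeHol (p := p) a))
      = A0 * ∏ j, A j := by
    refine Subtype.ext (funext fun τ => ?_)
    rw [compAffine_apply]
    have hτ : affine p 0 p τ = τ := by
      apply UpperHalfPlane.ext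
      rw [coe_affine]
      have : (p : ℂ) ≠ 0 := by exact_mod_cast hp.out.ne_zero
      push_cast; field_simp; ring
    rw [hτ, MulMemClass.coe_mul, SubmonoidClass.coe_finsetProd, Pi.mul_apply, Finset.prod_apply]
    show (heckeHol (p := p) a : ℍ → ℂ) τ = _
    rw [heckeHol, transHol_apply]
    let e : HIdx M p ≃ Option (Fin p) := Equiv.subtypeUnivEquiv fun _ _ => hpM
    rw [← e.symm.prod_comp, Fintype.prod_option]
    congr 1
    · show (a : ℍ → ℂ) (hRep M p ⟨none, fun _ => hpM⟩ • τ)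
        = (dia M u a : ℍ → ℂ) (affine (p * p) 0 p τ)
      have hτ2 : affine (p * p) 0 p τ = scaleH p τ := by
        apply UpperHalfPlane.ext
        rw [coe_affine, coe_scaleH]
        have : (p : ℂ) ≠ 0 := by exact_mod_cast hp.out.ne_zero
        push_cast; field_simp; ring
      rw [hτ2, ← comp_gamma0_eq_dia a (gamma0Elt_mem u⁻¹) u
        (Or.inl (lowerRight_of_upperLeft (gamma0Elt_mem _) (gamma0Elt_upperLeft _)))]
      show (a : ℍ → ℂ) ((mapGL ℝ (gamma0Elt u⁻¹) * ModularForm.heckeDiagMatrix p : GLR) • τ) = _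
      rw [mul_smul, heckeDiagMatrix_smul]
      rfl
    · refine Finset.prod_congr rfl fun j _ => ?_
      show (a : ℍ → ℂ) (hRep M p ⟨some j, fun _ => hpM⟩ • τ) = (a : ℍ → ℂ) (affine 1 _ p τ)
      rw [← heckeMatrix_smul]
      rfl
  rw [hF, hF, hF, ← h11, hprod, map_mul, map_prod, heckeSeries,
    ← prod_rootsOfUnity_complex p (fun v => twist v _)]
  congr 1
  · rw [hA0, laurentExp_compAffine, affineRoot_zero, twist_one, qExpand_qExpand]
  · refine Finset.prod_congr rfl fun j _ => ?_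
    rw [hA, laurentExp_compAffine, qExpand_one_apply]

variable {m : ℕ} [NeZero m]

theorem exists_descend (x : divGrp ℂ (F1C M) m) (y : LaurentSeries Qb)
    (hy : coeffMap ιQ y = (((x : (F1C M)ˣ) : F1C M) : LaurentSeries ℂ)) :
    ∃ g : divGrp Qb (FQ (F1 M)) m,
      (((g : (FQ (F1 M))ˣ) : FQ (F1 M)) : LaurentSeries Qb) = y ∧
      kummerChar1 M m (QuotientGroup.mk g) = Multiplicative.ofAdd (rootChar1 M m x) := by
  obtain ⟨z, hz, hze⟩ := exists_emb_eq hy
  have hz0 : z ≠ 0 := fun h => Units.ne_zero (x : (F1C M)ˣ) (by rw [← hze, h, map_zero])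
  have hmem : Units.mk0 z hz0 ∈ divGrp Qb (FQ (F1 M)) m := fun P => by
    obtain ⟨w, hw⟩ := JacTorsion.exists_place_over (extQ (F1 M)) P
      (JacTorsion.residueConst_of_isFunctionField P)
    rw [Units.val_mk0, ← hw z, hze]
    exact x.2 w
  refine ⟨⟨_, hmem⟩, hz, ?_⟩
  show charHom1 M m (JacTorsion.kummerExt m (QuotientGroup.mk (⟨_, hmem⟩ :
    divGrp Qb (FQ (F1 M)) m))) = _
  rw [JacTorsion.kummerExt_mk, show JacTorsion.divGrpExt m
    (⟨_, hmem⟩ : divGrp Qb (FQ (F1 M)) m) = x from Subtype.ext (Units.ext hze), charHom1_mk]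

theorem kummerChar1_mk (f : divGrp Qb (FQ (F1 M)) m) :
    kummerChar1 M m (QuotientGroup.mk f)
      = Multiplicative.ofAdd (rootChar1 M m (JacTorsion.divGrpExt m f)) :=
  rfl

/-- `T_p` on the Kummer group over `ℚ̄`. -/
theorem exists_hecke (hpM : ¬ p ∣ M) (f : divGrp Qb (FQ (F1 M)) m) :
    ∃ g : divGrp Qb (FQ (F1 M)) m,
      qExpand Qb p (((g : (FQ (F1 M))ˣ) : FQ (F1 M)) : LaurentSeries Qb) =
        heckeSeries p (((f : (FQ (F1 M))ˣ) : FQ (F1 M)) : LaurentSeries Qb)
          ((diaFQ M (ZMod.unitOfCoprime p ((Nat.Prime.coprime_iff_not_dvd hp.out).2 hpM))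
            ((f : (FQ (F1 M))ˣ) : FQ (F1 M)) : FQ (F1 M)) : LaurentSeries Qb) ∧
      (kummerChar1 M m (QuotientGroup.mk g)).toAdd.1 =
        hecke M _ p ℤ (kummerChar1 M m (QuotientGroup.mk f)).toAdd.1 := by
  have : NeZero p := ⟨hp.out.ne_zero⟩
  set u := ZMod.unitOfCoprime p ((Nat.Prime.coprime_iff_not_dvd hp.out).2 hpM) with hu
  set f' := JacTorsion.divGrpExt m f with hf'
  obtain ⟨g, hg, hchar⟩ := exists_translate (admissible_hRep (n := p)) det_hRep_pos
    hRep_meroAtInfty (fun φ hφ => hecke_mem_ellParHoms (R := ℤ) hφ) f'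
  obtain ⟨a, b, hb, hab⟩ := exists_div_eq1 ((f' : (F1C M)ˣ) : F1C M)
  have hgx : ((g : (F1C M)ˣ) : F1C M)
      = toF1C M (heckeHol (p := p) a) / toF1C M (heckeHol (p := p) b) := by
    refine (e11 M).toRingHom.injective ?_
    show e11 M _ = e11 M _
    rw [hg, hab, map_div₀, map_div₀, heckeHol, heckeHol, e11_transHol, e11_transHol,
      ← Finset.prod_div_distrib]
    exact Finset.prod_congr rfl fun i _ => by rw [map_div₀]
  set fs : LaurentSeries Qb := (((f : (FQ (F1 M))ˣ) : FQ (F1 M)) : LaurentSeries Qb) with hfs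
  set fd : LaurentSeries Qb :=
    ((diaFQ M u ((f : (FQ (F1 M))ˣ) : FQ (F1 M)) : FQ (F1 M)) : LaurentSeries Qb) with hfd
  have hS : qExpand ℂ p (((g : (F1C M)ˣ) : F1C M) : LaurentSeries ℂ)
      = coeffMap ιQ (heckeSeries p fs fd) := by
    have h1 : coeffMap ιQ fs = qExp1 M a / qExp1 M b := by
      rw [hfs, ← coe_extQ, ← coe_toF1C, ← coe_toF1C, ← IntermediateField.coe_div, ← hab]
      rfl
    have h2 : coeffMap ιQ fd = qExp1 M (dia M u a) / qExp1 M (dia M u b) := by
      rw [hfd, ← coe_extQ, emb_diaFQ, ← coe_toF1C, ← coe_toF1C, ← IntermediateField.coe_div,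
        ← diaF_toF1C, ← diaF_toF1C, ← map_div₀, ← hab]
      rfl
    rw [hgx, IntermediateField.coe_div, coe_toF1C, coe_toF1C, map_div₀, qExpand_heckeHol hpM,
      qExpand_heckeHol hpM, coeffMap_heckeSeries, h1, h2, heckeSeries_div]
  have hc : ∀ k : ℤ, ιQ ((heckeSeries p fs fd).coeff ((p : ℤ) * k))
      = (((g : (F1C M)ˣ) : F1C M) : LaurentSeries ℂ).coeff k := fun k => by
    have := congrArg (fun s => HahnSeries.coeff s ((p : ℤ) * k)) hS
    simp only [qExpand_coeff_mul, coeffMap_coeff] at this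
    exact this.symm
  let y : LaurentSeries Qb := ⟨fun k => (heckeSeries p fs fd).coeff ((p : ℤ) * k),
    (((g : (F1C M)ˣ) : F1C M) : LaurentSeries ℂ).isPWO_support.mono fun k hk => by
      simp only [HahnSeries.mem_support, Function.mem_support, ne_eq] at hk ⊢
      exact fun h => hk (ιQ.injective (by rw [hc, h, map_zero]))⟩
  have hy : coeffMap ιQ y = (((g : (F1C M)ˣ) : F1C M) : LaurentSeries ℂ) :=
    HahnSeries.ext (funext hc)
  obtain ⟨g', hg', hchar'⟩ := exists_descend g y hy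
  refine ⟨g', ?_, ?_⟩
  · rw [hg']
    refine HahnSeries.ext (funext fun n => ιQ.injective ?_)
    rw [← coeffMap_coeff, ← coeffMap_coeff, coeffMap_qExpand, hy, hS]
  · rw [hchar', kummerChar1_mk]
    exact hchar

/-- `⟨u⟩` on the Kummer group over `ℚ̄`. -/
theorem exists_diamond (u : (ZMod M)ˣ) (f : divGrp Qb (FQ (F1 M)) m) :
    ∃ g : divGrp Qb (FQ (F1 M)) m,
      ((g : (FQ (F1 M))ˣ) : FQ (F1 M)) = diaFQ M u ((f : (FQ (F1 M))ˣ) : FQ (F1 M)) ∧
      (kummerChar1 M m (QuotientGroup.mk g)).toAdd.1 =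
        diamond M _ ℤ u (kummerChar1 M m (QuotientGroup.mk f)).toAdd.1 := by
  set f' := JacTorsion.divGrpExt m f with hf'
  have hdet : ∀ i : Unit, 0 < (RT.GammaH.diaRep u i).det.val := fun _ => by simp [RT.GammaH.diaRep]
  have hmero : ∀ (a : Hol1 M) (i : Unit) (g : SL(2, ℤ)),
      MeroAtInfty fun τ => (a : ℍ → ℂ) (RT.GammaH.diaRep u i • g • τ) := fun a i g => by
    have := a.2.2.2 (gamma0Elt u⁻¹ * g)
    simp only [mul_smul] at this
    exact this
  obtain ⟨g, hg, hchar⟩ := exists_translate (admissible_diaRep u) hdet hmero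
    (fun φ hφ => diamond_mem_ellParHoms (R := ℤ) u hφ) f'
  have hgx : ((g : (F1C M)ˣ) : F1C M) = diaF u ((f' : (F1C M)ˣ) : F1C M) := by
    obtain ⟨a, b, hb, hab⟩ := exists_div_eq1 ((f' : (F1C M)ˣ) : F1C M)
    refine (e11 M).toRingHom.injective ?_
    show e11 M _ = e11 M _
    have key : ∀ a : Hol1 M, actGL (RT.GammaH.diaRep u ()) (hdet ()) (e11 M (toF1C M a))
        = e11 M (toF1C M (dia M u a)) := fun a => by
      rw [e11_toF1C, e11_toF1C, actGL_algebraMap]
      refine congrArg _ (Subtype.ext (funext fun τ => ?_))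
      exact comp_gamma0_eq_dia a (gamma0Elt_mem u⁻¹) u
        (Or.inl (lowerRight_of_upperLeft (gamma0Elt_mem _) (gamma0Elt_upperLeft _))) τ
    rw [hg, Fintype.prod_unique, hab, map_div₀, map_div₀, map_div₀, key, key, map_div₀, diaF_toF1C,
      diaF_toF1C]
  obtain ⟨g', hg', hchar'⟩ := exists_descend g
    ((diaFQ M u ((f : (FQ (F1 M))ˣ) : FQ (F1 M)) : FQ (F1 M)) : LaurentSeries Qb) (by
      rw [← coe_extQ, emb_diaFQ, hgx]
      rfl)
  refine ⟨g', Subtype.ext hg', ?_⟩
  rw [hchar', kummerChar1_mk]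
  exact hchar

end Main

end Fermat.Agent.DeligneSerre.Curve
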