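import Fermat.Agent.DeligneSerre.Residual.Statement
import Fermat.Agent.DeligneSerre.Residual.Hecke
import Fermat.Agent.EichlerShimura.HeckeNorm

/-!
# Reductions of fractions of integral series
-/

set_option autoImplicit false
set_option linter.unusedSectionVars false

noncomputable section

open IsLocalRing ModularCurve
open Fermat.Agent.Arith Fermat.Agent.RedTorsion
open Fermat.Agent.ModFun (twist)

namespace Fermat.Agent.DeligneSerre

variable {L : Type*} [Field L] {A : ValuationSubring L}

theorem HasRed.mul {f g : LaurentSeries L} {y z : LaurentSeries (ResidueField A)}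
    (hf : HasRed A f y) (hg : HasRed A g z) : HasRed A (f * g) (y * z) := by
  obtain ⟨hy, c, u, w, hc, hw, hu, hfw⟩ := hf
  obtain ⟨hz, c', u', w', hc', hw', hu', hgw⟩ := hg
  refine ⟨mul_ne_zero hy hz, c * c', u * u', w * w', mul_ne_zero hc hc',
    by rw [map_mul]; exact mul_ne_zero hw hw', by rw [map_mul, map_mul, hu, hu']; ring, ?_⟩
  rw [Subring.coe_mul, Subring.coe_mul, map_mul, mul_mul_mul_comm, hfw, hgw]
  ring

theorem HasRed.inv {f : LaurentSeries L} {y : LaurentSeries (ResidueField A)}
    (hf : HasRed A f y) : HasRed A f⁻¹ y⁻¹ := by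
  obtain ⟨hy, c, u, w, hc, hw, hu, hfw⟩ := hf
  have hru : serRed A u ≠ 0 := by rw [hu]; exact mul_ne_zero hy hw
  have hu0 : (u : LaurentSeries L) ≠ 0 := fun h => hru (by
    rw [show u = 0 from Subtype.ext h, map_zero])
  have hf0 : f ≠ 0 := by
    rintro rfl
    rw [zero_mul, eq_comm, mul_eq_zero, map_eq_zero] at hfw
    exact hfw.elim hc hu0
  refine ⟨inv_ne_zero hy, c⁻¹, w, u, inv_ne_zero hc, hru, ?_, ?_⟩
  · rw [hu, inv_mul_cancel_left₀ hy]
  · have hac : algebraMap L (LaurentSeries L) c ≠ 0 := (map_ne_zero _).mpr hc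
    apply mul_left_cancel₀ (mul_ne_zero hf0 hac)
    rw [map_inv₀]
    field_simp
    linear_combination (norm := ring_nf) -hfw

theorem HasRed.pow {f : LaurentSeries L} {y : LaurentSeries (ResidueField A)}
    (hf : HasRed A f y) {n : ℕ} (hn : n ≠ 0) : HasRed A (f ^ n) (y ^ n) := by
  induction n with
  | zero => exact absurd rfl hn
  | succ n ih =>
    rcases eq_or_ne n 0 with rfl | h
    · simpa using hf
    · rw [pow_succ, pow_succ]; exact (ih h).mul hf

theorem HasRed.div {f g : LaurentSeries L} {y z : LaurentSeries (ResidueField A)}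
    (hf : HasRed A f y) (hg : HasRed A g z) : HasRed A (f / g) (y / z) := by
  rw [div_eq_mul_inv, div_eq_mul_inv]; exact hf.mul hg.inv

theorem HasRed.prod {ι : Type*} (s : Finset ι) (hs : s.Nonempty) {f : ι → LaurentSeries L}
    {y : ι → LaurentSeries (ResidueField A)} (h : ∀ i ∈ s, HasRed A (f i) (y i)) :
    HasRed A (∏ i ∈ s, f i) (∏ i ∈ s, y i) := by
  induction hs using Finset.Nonempty.cons_induction with
  | singleton a => simpa using h a (Finset.mem_singleton_self a)
  | cons a s ha hs ih =>
    rw [Finset.prod_cons, Finset.prod_cons]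
    exact (h a (Finset.mem_cons_self a s)).mul
      (ih fun i hi => h i (Finset.mem_cons.mpr (Or.inr hi)))

/-- The reduction of `1` is constant. -/
theorem HasRed.exists_const {z : LaurentSeries (ResidueField A)}
    (h : HasRed A (1 : LaurentSeries L) z) :
    ∃ a : ResidueField A, z = algebraMap _ _ a := by
  obtain ⟨hz, c, u, w, hc, hw, hu, hwu⟩ := h
  rw [one_mul] at hwu
  rcases A.mem_or_inv_mem c with hcA | hcA
  · have he : w = ⟨_, algebraMap_mem_serInt hcA⟩ * u := Subtype.ext hwu
    have h1 := congrArg (serRed A) he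
    rw [map_mul, serRed_algebraMap hcA, hu, ← mul_assoc] at h1
    have h2 := (mul_eq_right₀ hw).mp h1.symm
    refine ⟨(residue A ⟨c, hcA⟩)⁻¹, ?_⟩
    rw [map_inv₀]
    exact eq_inv_of_mul_eq_one_right h2
  · have he : u = ⟨_, algebraMap_mem_serInt hcA⟩ * w := Subtype.ext (by
      show (u : LaurentSeries L) = algebraMap L (LaurentSeries L) c⁻¹ * (w : LaurentSeries L)
      rw [hwu, ← mul_assoc, ← map_mul, inv_mul_cancel₀ hc, map_one, one_mul])
    have h1 := congrArg (serRed A) he
    rw [map_mul, serRed_algebraMap hcA, hu] at h1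
    exact ⟨_, mul_right_cancel₀ hw h1⟩

/-- Reductions are unique up to constants. -/
theorem HasRed.exists_div_eq_const {f : LaurentSeries L} {y z : LaurentSeries (ResidueField A)}
    (hf : f ≠ 0) (hy : HasRed A f y) (hz : HasRed A f z) :
    ∃ a : ResidueField A, y / z = algebraMap _ _ a := by
  have h := hy.div hz
  rw [div_self hf] at h
  exact h.exists_const

theorem serInt_map {R : Type*} [CommRing R] (θ : A →+* A) (φ : L →+* L)
    (hθ : ∀ x : A, φ x = (θ x : L)) (π : A →+* R) (u : serInt A) :
    ∃ h : coeffMap φ (u : LaurentSeries L) ∈ serInt A,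
      coeffMap π (serLift A ⟨_, h⟩) = coeffMap (π.comp θ) (serLift A u) := by
  have hu : coeffMap A.subtype (serLift A u) = (u : LaurentSeries L) :=
    congrArg Subtype.val ((serLift A).symm_apply_apply u)
  have he : coeffMap φ (u : LaurentSeries L) = coeffMap A.subtype (coeffMap θ (serLift A u)) := by
    rw [← hu, coeffMap_coeffMap, coeffMap_coeffMap]
    exact coeffMap_congr (RingHom.ext hθ) _
  refine ⟨⟨_, he.symm⟩, ?_⟩
  have h1 : serLift A ⟨coeffMap φ (u : LaurentSeries L), ⟨_, he.symm⟩⟩
      = coeffMap θ (serLift A u) := by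
    exact (congrArg (serLift A) (Subtype.ext he :
      (⟨coeffMap φ (u : LaurentSeries L), ⟨_, he.symm⟩⟩ : serInt A)
        = (serLift A).symm (coeffMap θ (serLift A u)))).trans ((serLift A).apply_symm_apply _)
  rw [h1, coeffMap_coeffMap]

/-- Reductions of conjugate series. -/
theorem HasRed.map {f : LaurentSeries L} {y : LaurentSeries (ResidueField A)}
    (hf : HasRed A f y) (φ : L →+* L) (θ : A →+* A) (hθ : ∀ x : A, φ x = (θ x : L))
    (θr : ResidueField A →+* ResidueField A)
    (hθr : ∀ x : A, residue A (θ x) = θr (residue A x)) :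
    HasRed A (coeffMap φ f) (coeffMap θr y) := by
  obtain ⟨hy, c, u, w, hc, hw, hu, hfw⟩ := hf
  obtain ⟨hu', hru⟩ := serInt_map θ φ hθ (residue A) u
  obtain ⟨hw', hrw⟩ := serInt_map θ φ hθ (residue A) w
  have key : ∀ (v : serInt A), coeffMap ((residue A).comp θ) (serLift A v)
      = coeffMap θr (serRed A v) := fun v => by
    rw [serRed, RingHom.comp_apply, coeffMap_coeffMap]
    exact coeffMap_congr (RingHom.ext hθr) _
  have hinj : Function.Injective (coeffMap θr) := fun a b h => HahnSeries.ext (funext fun n =>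
    θr.injective (by rw [← coeffMap_coeff, ← coeffMap_coeff, h]))
  refine ⟨(map_ne_zero_iff _ hinj).mpr hy, φ c, ⟨_, hu'⟩, ⟨_, hw'⟩,
    (map_ne_zero φ).mpr hc, ?_, ?_, ?_⟩
  · rw [serRed, RingHom.comp_apply, RingEquiv.toRingHom_eq_coe, RingEquiv.coe_toRingHom, hrw, key]
    exact (map_ne_zero_iff _ hinj).mpr hw
  · rw [serRed, RingHom.comp_apply, RingHom.comp_apply, RingEquiv.toRingHom_eq_coe,
      RingEquiv.coe_toRingHom, hru, hrw, key, key, hu, map_mul]
  · rw [← map_mul, hfw, map_mul, coeffMap_algebraMap]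

theorem HasRed.qExpand {f : LaurentSeries L} {y : LaurentSeries (ResidueField A)}
    (hf : HasRed A f y) (n : ℕ) [NeZero n] :
    HasRed A (qExpand L n f) (qExpand (ResidueField A) n y) := by
  obtain ⟨hy, c, u, w, hc, hw, hu, hfw⟩ := hf
  have key : ∀ v : serInt A, ∃ v' : serInt A,
      (v' : LaurentSeries L) = ModularCurve.qExpand L n (v : LaurentSeries L) ∧
      serRed A v' = ModularCurve.qExpand (ResidueField A) n (serRed A v) := by
    intro v
    have hv : coeffMap A.subtype (serLift A v) = (v : LaurentSeries L) :=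
      congrArg Subtype.val ((serLift A).symm_apply_apply v)
    refine ⟨(serLift A).symm (ModularCurve.qExpand A n (serLift A v)), ?_, ?_⟩
    · show coeffMap A.subtype (ModularCurve.qExpand A n (serLift A v)) = _
      rw [coeffMap_qExpand, hv]
    · show coeffMap (residue A) (serLift A ((serLift A).symm _)) = _
      rw [RingEquiv.apply_symm_apply, coeffMap_qExpand]
      rfl
  obtain ⟨u', hu', hru⟩ := key u
  obtain ⟨w', hw', hrw⟩ := key w
  refine ⟨(map_ne_zero_iff _ (qExpand_injective _)).mpr hy, c, u', w', hc, ?_, ?_, ?_⟩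
  · rw [hrw]; exact (map_ne_zero_iff _ (qExpand_injective _)).mpr hw
  · rw [hru, hrw, hu, map_mul]
  · rw [hu', hw', ← map_mul, hfw, map_mul]
    congr 1
    rw [algebraMap_laurentSeries_eq_single, qExpand_single, mul_zero]

/-- Twisting by a `p`-th root of unity does not change the reduction in characteristic `p`. -/
theorem HasRed.twist {A : ValuationSubring QBar} {p : ℕ} [NeZero p] (hp : p.Prime)
    [CharP (ResidueField A) p] {f : LaurentSeries QBar} {y : LaurentSeries (ResidueField A)}
    (hf : HasRed A f y) {u : QBarˣ} (hu : u ^ p = 1) : HasRed A (twist u f) y := by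
  obtain ⟨hy, c, v, w, hc, hw, hv, hfw⟩ := hf
  have key : ∀ v : serInt A, ∃ v' : serInt A,
      (v' : LaurentSeries QBar) = ModFun.twist u (v : LaurentSeries QBar) ∧
      serRed A v' = serRed A v := by
    intro v
    have hv : coeffMap A.subtype (serLift A v) = (v : LaurentSeries QBar) :=
      congrArg Subtype.val ((serLift A).symm_apply_apply v)
    obtain ⟨z, hz1, hz2⟩ := EichlerShimura.exists_twist_lift (residue A) hp u hu (serLift A v)
    refine ⟨(serLift A).symm z, ?_, ?_⟩
    · show coeffMap A.subtype z = _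
      rw [hz1, hv]
    · show coeffMap (residue A) (serLift A ((serLift A).symm _)) = _
      rw [RingEquiv.apply_symm_apply, hz2]
      rfl
  obtain ⟨v', hv', hrv⟩ := key v
  obtain ⟨w', hw', hrw⟩ := key w
  refine ⟨hy, c, v', w', hc, by rwa [hrw], by rw [hrv, hrw, hv], ?_⟩
  rw [hv', hw', ← map_mul, hfw, map_mul]
  congr 1
  rw [algebraMap_laurentSeries_eq_single, ModFun.twist_single]
  simp

attribute [local instance] Fintype.ofFinite in
/-- The reduction of the series of `T_p`. -/
theorem hasRed_heckeSeries {A : ValuationSubring QBar} {p : ℕ} [NeZero p] (hp : p.Prime)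
    [CharP (ResidueField A) p] {f fd : LaurentSeries QBar}
    {y yd : LaurentSeries (ResidueField A)} (hf : HasRed A f y) (hfd : HasRed A fd yd) :
    HasRed A (Curve.heckeSeries p f fd)
      (ModularCurve.qExpand _ p (ModularCurve.qExpand _ p yd) * y ^ p) := by
  refine ((hfd.qExpand p).qExpand p).mul ?_
  have h : HasRed A (∏ u : rootsOfUnity p QBar, ModFun.twist (u : QBarˣ) f)
      (∏ _u : rootsOfUnity p QBar, y) := by
    refine HasRed.prod _ ⟨1, Finset.mem_univ _⟩ fun u _ => hf.twist hp ?_
    exact u.2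
  rw [Finset.prod_const, Finset.card_univ, ← Nat.card_eq_fintype_card,
    HasEnoughRootsOfUnity.natCard_rootsOfUnity] at h
  exact h

end Fermat.Agent.DeligneSerre
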