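import Fermat.Agent.DeligneSerre.ModelAdjoin
import Fermat.Agent.DeligneSerre.ArchVal
import Fermat.Agent.FF.Along
import Fermat.Agent.FF.RiemannRoch
import Fermat.Agent.JacTorsion.Descent
import Mathlib.FieldTheory.KummerPolynomial
import Mathlib.RingTheory.RootsOfUnity.EnoughRootsOfUnity

/-!
# Kummer covers with good reduction

A function with divisor divisible by `ℓ` defines an unramified cyclic cover. If the curve has good
reduction at a place of residue characteristic `≠ ℓ` and the reduction of the function is a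
constant, the reduced cover would be disconnected: so the function is an `ℓ`-th power.
-/

set_option autoImplicit false
set_option linter.unusedSectionVars false

noncomputable section

open scoped Classical Pointwise
open Polynomial IsLocalRing AlgebraicCurve

namespace Fermat.Agent.DeligneSerre.Residual

open Fermat.Agent.EichlerShimura Fermat.Agent.FF

section Unram

variable {K F F2 : Type*} [Field K] [IsAlgClosed K] [CharZero K] [Field F] [Field F2] [Algebra K F]
  [Algebra K F2] [Algebra F F2] [IsScalarTower K F F2] [FiniteDimensional F F2]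
  [IsFunctionField K F] [IsFunctionField K F2]

/-- Adjoining an `ℓ`-th root of a function with divisor divisible by `ℓ` is unramified. -/
theorem ramificationIndex_eq_one {ℓ : ℕ} (hℓ : 0 < ℓ) {z : F} (hz0 : z ≠ 0) {r : F2}
    (hr : r ^ ℓ = algebraMap F F2 z) (hdeg : Module.finrank F F2 = ℓ)
    (hdiv : ∀ P : Place K F, (ℓ : ℤ) ∣ P.ord z)
    (hσ : ∀ ζ : K, ζ ^ ℓ = 1 → ∃ σ : F2 ≃ₐ[F] F2, σ r = algebraMap K F2 ζ * r)
    (Q : Place K F2) : Q.ramificationIndex F = 1 := by
  obtain ⟨k, hk⟩ := hdiv (Q.restrict F)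
  obtain ⟨t, ht0, ht⟩ := exists_ord_eq (Q.restrict F) k
  have hta : algebraMap F F2 t ≠ 0 := (_root_.map_ne_zero _).mpr ht0
  have hr0 : r ≠ 0 := fun h => by
    rw [h, zero_pow hℓ.ne', eq_comm, map_eq_zero] at hr
    exact hz0 hr
  set w : F2 := r / algebraMap F F2 t with hw
  have hw0 : w ≠ 0 := div_ne_zero hr0 hta
  have hword : Q.ord w = 0 := by
    have h1 : Q.ord (w ^ ℓ) = 0 := by
      rw [hw, div_pow, hr, ← map_pow, ← map_div₀, Q.ord_restrict (F := F),
        FF.ord_div _ hz0 (pow_ne_zero _ ht0), FF.ord_pow, hk, ht, sub_self, mul_zero]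
    rw [FF.ord_pow] at h1
    rcases mul_eq_zero.mp h1 with h | h
    · omega
    · exact h
  obtain ⟨c, hc⟩ := JacTorsion.residueConst_of_isFunctionField Q w
    (JacTorsion.mem_of_ord_nonneg Q hword.ge)
  have hcw : w - algebraMap K F2 c ∈ ordGe Q 1 := by
    rw [mem_ordGe]
    rcases (JacTorsion.valuation_lt_one_iff Q).mp hc with h | h
    · exact Or.inl h
    · exact Or.inr h
  have hℓK : NeZero (ℓ : K) := ⟨Nat.cast_ne_zero.mpr hℓ.ne'⟩
  obtain ⟨ζ, hζ⟩ := HasEnoughRootsOfUnity.exists_primitiveRoot K ℓ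
  choose σ hσ using fun i : Fin ℓ => hσ (ζ ^ (i : ℕ))
    (by rw [← pow_mul, mul_comm, pow_mul, hζ.pow_eq_one, one_pow])
  let Qi : Fin ℓ → Place K F2 := fun i => (σ i).restrictScalars K • Q
  have hfib : ∀ i, Qi i ∈ (Q.restrict F).fiber F2 := fun i => by
    rw [Place.mem_fiber]
    refine Place.ext ?_
    ext y
    show algebraMap F F2 y ∈ (σ i).restrictScalars K • Q.toValuationSubring ↔ _
    rw [ValuationSubring.mem_pointwise_smul_iff_inv_smul_mem]
    show (σ i).symm (algebraMap F F2 y) ∈ Q.toValuationSubring ↔ _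
    rw [AlgEquiv.commutes]
    rfl
  have hact : ∀ i, (σ i).restrictScalars K w = algebraMap K F2 (ζ ^ (i : ℕ)) * w := fun i => by
    show σ i w = _
    rw [hw, map_div₀, hσ, AlgEquiv.commutes, mul_div_assoc]
  have hmem : ∀ i, algebraMap K F2 (ζ ^ (i : ℕ)) * w - algebraMap K F2 c ∈ ordGe (Qi i) 1 := by
    intro i
    have h : ((σ i).restrictScalars K) (w - algebraMap K F2 c) ∈ ordGe (Qi i) 1 := by
      rw [mem_ordGe, map_eq_zero_iff _ (EquivLike.injective _), Place.ord_smul]
      exact (mem_ordGe Q).mp hcw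
    rwa [map_sub, hact, AlgEquiv.commutes] at h
  have hinj : Function.Injective Qi := by
    intro i j hij
    by_contra hne
    have hζ0 : ζ ≠ 0 := hζ.ne_zero hℓ.ne'
    have hd : ζ ^ (i : ℕ) - ζ ^ (j : ℕ) ≠ 0 := sub_ne_zero.mpr fun h =>
      hne (Fin.ext (hζ.pow_inj i.2 j.2 h))
    have hordi : (Qi i).ord w = 0 := by
      have h := Place.ord_smul ((σ i).restrictScalars K) Q w
      rwa [hact, ← Algebra.smul_def, FF.ord_smul' _ (pow_ne_zero _ hζ0), hword] at h
    have h := sub_mem (hmem i) (hij ▸ hmem j)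
    rw [sub_sub_sub_cancel_right, ← sub_mul, ← map_sub, ← Algebra.smul_def,
      Submodule.smul_mem_iff _ hd, mem_ordGe, hordi] at h
    exact h.elim hw0 (by omega)
  have hsum := fundamental_identity (F' := F2) (Q.restrict F)
  rw [hdeg, FF.deg_eq_one (Q.restrict F), Nat.cast_one, mul_one] at hsum
  have hone : ∀ v : Place K F2, (v.ramificationIndex F : ℤ) * (v.deg : ℤ) = v.ramificationIndex F :=
    fun v => by rw [FF.deg_eq_one, Nat.cast_one, mul_one]
  simp only [hone] at hsum
  have hcard : ℓ ≤ ((Q.restrict F).fiber F2).card := by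
    simpa using Finset.card_le_card_of_injOn Qi (s := (Finset.univ : Finset (Fin ℓ)))
      (fun i _ => hfib i) hinj.injOn
  have hnn : ∀ v ∈ (Q.restrict F).fiber F2, (0 : ℤ) ≤ (v.ramificationIndex F : ℤ) - 1 :=
    fun v _ => by have := v.ramificationIndex_pos (F := F); omega
  have hz : ∑ v ∈ (Q.restrict F).fiber F2, ((v.ramificationIndex F : ℤ) - 1) = 0 := by
    refine le_antisymm ?_ (Finset.sum_nonneg hnn)
    rw [Finset.sum_sub_distrib, hsum, Finset.sum_const, nsmul_one]
    omega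
  have := (Finset.sum_eq_zero_iff_of_nonneg hnn).mp hz Q (Place.restrict_mem_fiber Q)
  omega

end Unram

section Kummer

variable {L : Type*} [Field L] [IsAlgClosed L] [CharZero L] {A : ValuationSubring L}
  [IsAlgClosed (Kappa A)] {ι : Type*} [Fintype ι] [DecidableEq ι]
variable {E : Type*} [Field E] [Algebra (RatFunc L) E] [Algebra L E]
  [IsScalarTower L (RatFunc L) E] [FiniteDimensional (RatFunc L) E] [IsFunctionField L E]
variable {Eb : Type*} [Field Eb] [Algebra (RatFunc (Kappa A)) Eb]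
  [Algebra.IsSeparable (RatFunc (Kappa A)) Eb]

/-- On a curve with good reduction, a function with divisor divisible by `ℓ` whose reduction is a
nonzero constant is an `ℓ`-th power. -/
theorem exists_pow_eq_of_red_const (M : Model A ι E Eb) (harch : IsArchVal A) {x : E}
    (hx : algebraMap (RatFunc L) E RatFunc.X = x) {N : ℕ} (hN : N ≠ 0)
    (h0 : ∀ P : Place L E, 0 < P.ord x → P.ord x ∣ 3)
    (h1728 : ∀ P : Place L E, 0 < P.ord (x - algebraMap L E 1728) →
      P.ord (x - algebraMap L E 1728) ∣ 2)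
    (hgen : ∀ a : L, a ≠ 0 → a ≠ 1728 → ∀ P : Place L E, 0 < P.ord (x - algebraMap L E a) →
      P.ord (x - algebraMap L E a) ∣ 1)
    (hpole : ∀ P : Place L E, P.ord x < 0 → P.ord x ∣ (N : ℤ))
    {ℓ : ℕ} (hℓ : ℓ.Prime) (hℓA : (ℓ : Kappa A) ≠ 0) (z : M.S) {a : Kappa A} (ha : a ≠ 0)
    (hz : M.red z = algebraMap (RatFunc (Kappa A)) Eb (RatFunc.C a))
    (hdiv : ∀ P : Place L E, (ℓ : ℤ) ∣ P.ord (z : E)) : ∃ g : E, g ^ ℓ = (z : E) := by
  by_contra! hno
  set cR : Kappa A →+* Eb := (algebraMap (RatFunc (Kappa A)) Eb).comp RatFunc.C with hcR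
  have hz' : M.red z = cR a := hz
  have hz0 : (z : E) ≠ 0 := fun h => by
    rw [show z = 0 from Subtype.ext h, map_zero, eq_comm, map_eq_zero] at hz'
    exact ha hz'
  set p : E[X] := X ^ ℓ - C (z : E) with hp
  have hirr : Irreducible p := X_pow_sub_C_irreducible_of_prime hℓ hno
  haveI : Fact (Irreducible p) := ⟨hirr⟩
  have hpm : p.Monic := monic_X_pow_sub_C _ hℓ.ne_zero
  have hpn : p.natDegree = ℓ := natDegree_X_pow_sub_C
  let pb := AdjoinRoot.powerBasis hpm.ne_zero
  let b1 : Module.Basis (Fin ℓ) E (AdjoinRoot p) := pb.basis.reindex (finCongr hpn)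
  have hb1 : ∀ i : Fin ℓ, b1 i = AdjoinRoot.root p ^ (i : ℕ) := fun i => by
    simp only [b1, Module.Basis.reindex_apply, pb.coe_basis]
    rfl
  haveI : FiniteDimensional E (AdjoinRoot p) := Module.Finite.of_basis b1
  haveI : FiniteDimensional (RatFunc L) (AdjoinRoot p) := Module.Finite.trans E _
  haveI : IsFunctionField L (AdjoinRoot p) := FF.isFunctionField_extension L E _
  have hroot : AdjoinRoot.root p ^ ℓ = algebraMap E (AdjoinRoot p) (z : E) := by
    have h := AdjoinRoot.eval₂_root p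
    rw [hp, eval₂_sub, eval₂_X_pow, eval₂_C, sub_eq_zero] at h
    exact h
  have hram : ∀ Q : Place L (AdjoinRoot p), Q.ramificationIndex E = 1 := by
    refine ramificationIndex_eq_one hℓ.pos hz0 hroot
      ((Module.finrank_eq_card_basis b1).trans (Fintype.card_fin ℓ)) hdiv fun ζ hζ => ?_
    let φ : AdjoinRoot p →ₐ[E] AdjoinRoot p := AdjoinRoot.liftAlgHom p
      (Algebra.ofId E (AdjoinRoot p)) (algebraMap L (AdjoinRoot p) ζ * AdjoinRoot.root p) (by
        show eval₂ _ _ (X ^ ℓ - C (z : E)) = 0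
        rw [eval₂_sub, eval₂_X_pow, eval₂_C, mul_pow, ← map_pow, hζ, map_one, one_mul, hroot]
        exact sub_self _)
    refine ⟨AlgEquiv.ofBijective φ (AlgHom.bijective φ), ?_⟩
    show φ (AdjoinRoot.root p) = _
    exact AdjoinRoot.liftAlgHom_root _ _ _ _
  set Φ : M.S[X] := X ^ ℓ - C z with hΦ
  haveI : Nontrivial M.S := M.red.domain_nontrivial
  have hΦm : Φ.Monic := monic_X_pow_sub_C _ hℓ.ne_zero
  have hΦn : Φ.natDegree = ℓ := natDegree_X_pow_sub_C
  have hΦroot : evU M (AdjoinRoot.root p) Φ = 0 := by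
    rw [evU, coe_eval₂RingHom, hΦ, eval₂_sub, eval₂_X_pow, eval₂_C, sub_eq_zero]
    exact hroot
  have hΦbar : Φ.map M.red = X ^ ℓ - C (cR a) := by
    rw [hΦ, Polynomial.map_sub, Polynomial.map_pow, map_X, map_C, hz']
  have hsep : (Φ.map M.red).Separable := by
    rw [hΦbar]
    refine separable_X_pow_sub_C _ ?_ ((_root_.map_ne_zero _).mpr ha)
    rw [← map_natCast cR]
    exact (_root_.map_ne_zero _).mpr hℓA
  let M2 := adjoinModel hb1 hΦm hΦn hΦroot hsep
  haveI : Nontrivial (AdjoinRoot (Φ.map M.red)) := AdjoinRoot.nontrivial _ (by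
    rw [degree_eq_natDegree (hΦm.map M.red).ne_zero, hΦm.natDegree_map, hΦn]
    exact_mod_cast hℓ.ne_zero)
  have hord : ∀ (Q : Place L (AdjoinRoot p)) (y : E),
      Q.ord (algebraMap E (AdjoinRoot p) y) = (Q.restrict E).ord y := fun Q y => by
    rw [Q.ord_restrict (F := E), hram Q, Nat.cast_one, one_mul]
  have hidem : ∀ e : AdjoinRoot (Φ.map M.red), IsIdempotentElem e → e = 0 ∨ e = 1 := by
    intro e he
    have hsub : ∀ c : L, algebraMap E (AdjoinRoot p) x - algebraMap L (AdjoinRoot p) c =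
        algebraMap E (AdjoinRoot p) (x - algebraMap L E c) := fun c => by
      rw [map_sub, ← IsScalarTower.algebraMap_apply L E (AdjoinRoot p)]
    refine idem_eq_zero_or_one_of_ord M2 harch (x := algebraMap E (AdjoinRoot p) x) ?_ hN
      (fun P hP => ?_) (fun P hP => ?_) (fun b hb0 hb1' P hP => ?_) (fun P hP => ?_) he
    · rw [IsScalarTower.algebraMap_apply (RatFunc L) E (AdjoinRoot p), hx]
    · rw [hord] at hP ⊢; exact h0 _ hP
    · rw [hsub, hord] at hP ⊢; exact h1728 _ hP
    · rw [hsub, hord] at hP ⊢; exact hgen b hb0 hb1' _ hP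
    · rw [hord] at hP ⊢; exact hpole _ hP
  haveI : Module.Finite (RatFunc (Kappa A)) (AdjoinRoot (Φ.map M.red)) :=
    Module.Finite.of_basis M2.bb
  haveI : IsReduced (AdjoinRoot (Φ.map M.red)) := isReduced_of_discr_ne_zero M2.bb M2.disc_ne
  haveI : IsArtinianRing (AdjoinRoot (Φ.map M.red)) :=
    IsArtinianRing.of_finite (RatFunc (Kappa A)) _
  have hfield := isField_of_idem hidem
  obtain ⟨α, hα⟩ := IsAlgClosed.exists_pow_nat_eq a hℓ.pos
  let f : AdjoinRoot (Φ.map M.red) →+* Eb := AdjoinRoot.lift (RingHom.id Eb) (cR α) (by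
    rw [hΦbar, eval₂_sub, eval₂_X_pow, eval₂_C, RingHom.id_apply, ← map_pow, hα, sub_self])
  have hy : AdjoinRoot.mk (Φ.map M.red) (X - C (cR α)) ≠ 0 :=
    AdjoinRoot.mk_ne_zero_of_natDegree_lt (hΦm.map M.red) (X_sub_C_ne_zero _) (by
      rw [natDegree_X_sub_C, hΦm.natDegree_map, hΦn]; exact hℓ.one_lt)
  obtain ⟨u, hu⟩ := hfield.mul_inv_cancel hy
  have h1 := congrArg f hu
  rw [map_mul, map_one, AdjoinRoot.lift_mk, eval₂_sub, eval₂_X, eval₂_C, RingHom.id_apply,
    sub_self, zero_mul] at h1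
  exact zero_ne_one h1

end Kummer

end Fermat.Agent.DeligneSerre.Residual
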