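import Fermat.Agent.DeligneSerre.Residual.FieldExt
import Fermat.Agent.DeligneSerre.ModelAdjoin
import Fermat.Agent.EichlerShimura.GlobalRed

/-!
# The Gauss model of the field of `±Γ₁(M)` at a prime not dividing `M`

It is obtained from the model of level `M` by adjoining `uK 1`, whose conjugates stay distinct
modulo every prime not dividing `M`.
-/

set_option autoImplicit false
set_option linter.unusedSectionVars false
set_option maxHeartbeats 1000000
set_option synthInstance.maxHeartbeats 400000

noncomputable section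

open Polynomial IsLocalRing ModularCurve
open Fermat.Agent.RedTorsion Fermat.Agent.EichlerShimura
open scoped IntermediateField Classical

namespace Fermat.Agent.DeligneSerre.Residual

open Curve

variable (M : ℕ) [NeZero M] (A : ValuationSubring (AlgebraicClosure ℚ))

local notation "Qb" => AlgebraicClosure ℚ
local notation "Fb" => modularFunctionFieldBar M
local notation "F1b" => JacTorsion.FQ (F1 M)
local notation "Fk" => modularFunctionFieldFullC (Kappa A) M

/-- The field of level `M` over the `j`-line. -/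
abbrev ratFb : Algebra (RatFunc Qb) Fb := ratAlgebra (transcendental_jF (F := Fb) hFb)

/-- The reduced field of level `M` over the `j`-line. -/
abbrev ratFk : Algebra (RatFunc (Kappa A)) Fk :=
  ratAlgebra (transcendental_jF (K := Kappa A) (N := M) (F := Fk) rfl)

attribute [local instance] ratFb ratFk algF1 towerF1

variable [GoodLevel M]

/-- The field of `±Γ₁(M)` over the `j`-line. -/
abbrev ratF1 : Algebra (RatFunc Qb) F1b :=
  ((algebraMap Fb F1b).comp (algebraMap (RatFunc Qb) Fb)).toAlgebra

attribute [local instance] ratF1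

theorem tower_ratFb_F1 : IsScalarTower (RatFunc Qb) Fb F1b :=
  IsScalarTower.of_algebraMap_eq fun _ => rfl

attribute [local instance] tower_ratFb_F1

variable {M A} [IsAlgClosed (Kappa A)]

theorem isSeparable_ratFk (hMA : (M : Kappa A) ≠ 0) : Algebra.IsSeparable (RatFunc (Kappa A)) Fk :=
  haveI := isSeparable_jF (K := Kappa A) (N := M) (F := Fk) rfl hMA
  isSeparable_ratAlgebra (transcendental_jF (K := Kappa A) (N := M) (F := Fk) rfl)

theorem inv_natCast_mem (hMA : (M : Kappa A) ≠ 0) : ((M : Qb))⁻¹ ∈ A := by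
  rw [← map_natCast (residue A), residue_ne_zero_iff_isUnit] at hMA
  obtain ⟨v, hv⟩ := hMA.exists_right_inv
  have h : (M : Qb) * (v : Qb) = 1 := by simpa using congrArg Subtype.val hv
  rw [inv_eq_of_mul_eq_one_right h]
  exact v.2

/-- `uK` with integral coefficients. -/
def uA (hMA : (M : Kappa A) ≠ 0) (a : (ZMod M)ˣ) : LaurentSeries A :=
  uSer A ⟨((M : Qb))⁻¹, inv_natCast_mem hMA⟩ a

variable (hMA : (M : Kappa A) ≠ 0)

theorem coeffMap_subtype_uA (a : (ZMod M)ˣ) :
    coeffMap A.subtype (uA hMA a) = uK Qb a := coeffMap_uSer _ _ _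

theorem coeffMap_residue_uA (a : (ZMod M)ˣ) :
    coeffMap (residue A) (uA hMA a) = uK (Kappa A) a := by
  rw [uA, coeffMap_uSer, uK]
  congr 1
  refine eq_inv_of_mul_eq_one_left ?_
  rw [← map_natCast (residue A), ← map_mul, ← map_one (residue A)]
  refine congrArg _ (Subtype.ext ?_)
  have hM : (M : Qb) ≠ 0 := Nat.cast_ne_zero.mpr (NeZero.ne M)
  simpa using inv_mul_cancel₀ hM

include hMA in
theorem uK_residue_neg (a : (ZMod M)ˣ) : uK (Kappa A) (-a) = uK (Kappa A) a := by
  rw [← coeffMap_residue_uA hMA, ← coeffMap_residue_uA hMA]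
  refine congrArg _ (HahnSeries.ext (funext fun n => Subtype.ext ?_))
  have e : coeffMap A.subtype (uA hMA (-a)) = coeffMap A.subtype (uA hMA a) := by
    rw [coeffMap_subtype_uA, coeffMap_subtype_uA, uK_neg]
  exact (coeffMap_coeff A.subtype _ n).symm.trans
    ((congrArg (fun t => HahnSeries.coeff t n) e).trans (coeffMap_coeff A.subtype _ n))

/-- The Gauss model of level `M`. -/
abbrev M0 : Model A (Fin (Nat.card (ModFun.Coset M))) Fb Fk := model (A := A) (F := Fb) hFb hMA

/-- The expansion of a lattice element of level `M`. -/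
def serOf : (M0 hMA).S →+* LaurentSeries Qb :=
  ((modularFunctionFieldBar M).val.toRingHom).comp (M0 hMA).S.subtype

/-- The expansion of the reduction of a lattice element of level `M`. -/
def serRedOf : (M0 hMA).S →+* LaurentSeries (Kappa A) :=
  ((modularFunctionFieldFullC (Kappa A) M).val.toRingHom).comp (M0 hMA).red

theorem serOf_apply (z : (M0 hMA).S) : serOf hMA z = ((z : Fb) : LaurentSeries Qb) := rfl

theorem serRedOf_apply (z : (M0 hMA).S) :
    serRedOf hMA z = ((M0 hMA).red z : LaurentSeries (Kappa A)) := rfl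

/-- Lattice elements of level `M` are fractions of integral series. -/
theorem exists_series_frac0 (z : (M0 hMA).S) : ∃ u w : serInt A, serRed A w ≠ 0 ∧
    serOf hMA z * (w : LaurentSeries Qb) = u ∧
    serRedOf hMA z * serRed A w = serRed A u := by
  obtain ⟨d, p, hd, hzd⟩ := (M0 hMA).exists_common_den z
  have he : ∀ q : A[X], algebraMap (RatFunc Qb) Fb (ratIncl A q) =
      ((evalS (F := Fb) hFb q : sint A Fb) : Fb) := fun q => by
    rw [coe_evalS]
    exact ratLine_algebraMap (transcendental_jF (F := Fb) hFb) _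
  have hw : serRed A (toSerInt (evalS (F := Fb) hFb d)) ≠ 0 := fun h => hd
    ((transcendental_iff_injective.mp (transcendental_jqModC (Kappa A)))
      ((sred_evalS (F := Fb) hFb d).symm.trans (h.trans (map_zero _).symm)))
  let u : serInt A :=
    toSerInt (∑ i, evalS (F := Fb) hFb (p i) * ⟨_, basisInt_mem hFb hMA i⟩)
  have heq : ((z : Fb) : LaurentSeries Qb) *
      (toSerInt (evalS (F := Fb) hFb d) : LaurentSeries Qb) = u := by
    rw [coe_toSerInt, coe_toSerInt]
    refine congrArg Subtype.val (?_ : (z : Fb) * ((evalS (F := Fb) hFb d : sint A Fb) : Fb) = _)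
    rw [← he, hzd, AddSubmonoidClass.coe_finsetSum]
    refine Finset.sum_congr rfl fun i _ => ?_
    rw [he]
    rfl
  obtain ⟨hm, hr⟩ := mem_model_S_of_mul_eq hFb hMA hw heq
  exact ⟨u, _, hw, heq, hr⟩

theorem exists_Phi : ∃ Φ : (M0 hMA).S[X], Φ.Monic ∧ Φ.natDegree = Fintype.card (Idx M) ∧
    Φ.map (serOf hMA) = (diaPolyQ M).map (coeffEmb Qb) ∧
    Φ.map (serRedOf hMA) = ∏ q : Idx M, (X - C (uK (Kappa A) q.out)) := by
  set PA : Polynomial (LaurentSeries A) := ∏ q : Idx M, (X - C (uA hMA q.out)) with hPA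
  have hPAm : PA.Monic := monic_prod_of_monic _ _ fun q _ => monic_X_sub_C _
  have hPL : PA.map (coeffMap A.subtype) = (diaPolyQ M).map (coeffEmb Qb) := by
    simp only [hPA, diaPolyQ, Polynomial.map_prod, Polynomial.map_sub, map_X, map_C, coeffEmb_uK,
      coeffMap_subtype_uA]
  have hcmem : ∀ n, coeffMap A.subtype (PA.coeff n) ∈ modularFunctionFieldBar M := fun n => by
    rw [← coeff_map, hPL, coeff_map]
    exact coeffEmb_mem_laurentBaseChange Qb (coeff_diaPolyQ_mem (M := M) n)
  have hl : PA.map (coeffMap A.subtype) ∈ Polynomial.lifts (serOf hMA) := by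
    rw [Polynomial.lifts_iff_coeff_lifts]
    intro n
    rw [coeff_map]
    exact ⟨⟨_, mem_model_S hFb hMA (⟨⟨_, hcmem n⟩, ⟨PA.coeff n, rfl⟩⟩ : sint A Fb)⟩, rfl⟩
  obtain ⟨Φ, hΦmap, hΦn', hΦm⟩ :=
    Polynomial.lifts_and_natDegree_eq_and_monic hl (hPAm.map _)
  refine ⟨Φ, hΦm, ?_, hΦmap.trans hPL, ?_⟩
  · rw [hΦn', hPAm.natDegree_map, hPA, natDegree_prod_of_monic _ _ fun q _ => monic_X_sub_C _]
    simp
  have h : Φ.map (serRedOf hMA) = PA.map (coeffMap (residue A)) := by
    refine Polynomial.ext fun n => ?_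
    have h1 : ((Φ.coeff n : Fb) : LaurentSeries Qb) = coeffMap A.subtype (PA.coeff n) := by
      have := congrArg (fun P => Polynomial.coeff P n) hΦmap
      simp only [coeff_map] at this
      exact this
    obtain ⟨_, hr⟩ := mem_model_S_of_mul_eq hFb hMA (y := (Φ.coeff n : Fb)) (d := 1)
      (p := ⟨_, ⟨PA.coeff n, rfl⟩⟩) (by rw [map_one]; exact one_ne_zero)
      (by rw [OneMemClass.coe_one, mul_one, h1])
    rw [map_one, mul_one] at hr
    rw [coeff_map, coeff_map]
    exact hr.trans (serRed_coeffMap _ _)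
  rw [h, hPA]
  simp only [Polynomial.map_prod, Polynomial.map_sub, map_X, map_C, coeffMap_residue_uA]

/-- The relation of `u` with integral coefficients. -/
def Phi : (M0 hMA).S[X] := (exists_Phi hMA).choose

theorem Phi_monic : (Phi hMA).Monic := (exists_Phi hMA).choose_spec.1

theorem Phi_natDegree : (Phi hMA).natDegree = Fintype.card (Idx M) :=
  (exists_Phi hMA).choose_spec.2.1

theorem Phi_map : (Phi hMA).map (serOf hMA) = (diaPolyQ M).map (coeffEmb Qb) :=
  (exists_Phi hMA).choose_spec.2.2.1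

theorem Phi_map_red :
    (Phi hMA).map (serRedOf hMA) = ∏ q : Idx M, (X - C (uK (Kappa A) q.out)) :=
  (exists_Phi hMA).choose_spec.2.2.2

theorem Phi_separable : ((Phi hMA).map (M0 hMA).red).Separable := by
  rw [← separable_map (modularFunctionFieldFullC (Kappa A) M).val.toRingHom,
    Polynomial.map_map]
  show ((Phi hMA).map (serRedOf hMA)).Separable
  rw [Phi_map_red, separable_prod_X_sub_C_iff]
  exact fun q q' hqq => idx_eq_of_eq_or_neg (uK_eq_iff hMA hqq.symm)

theorem valF1_comp_subtype :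
    (valF1 M).comp ((algebraMap Fb F1b).comp (M0 hMA).S.subtype) = serOf hMA := by
  rw [← RingHom.comp_assoc, valF1_comp]
  rfl

theorem evU_Phi : evU (M0 hMA) (u1 M) (Phi hMA) = 0 := by
  refine (valF1 M).injective ?_
  rw [evU, coe_eval₂RingHom, map_zero, hom_eval₂, valF1_comp_subtype, valF1_u1, ← eval_map,
    Phi_map]
  exact eval_diaPolyQ 1

/-- The power basis of `u`. -/
def bas1 : Module.Basis (Fin (Fintype.card (Idx M))) Fb F1b := (exists_basis_u1 M).choose

theorem bas1_apply (i : Fin (Fintype.card (Idx M))) :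
    bas1 (M := M) i = u1 M ^ (i : ℕ) := (exists_basis_u1 M).choose_spec i

/-- The model of the field of `±Γ₁(M)`. -/
def M1 :
    Model A (Fin (Nat.card (ModFun.Coset M)) × Fin (Fintype.card (Idx M))) F1b
      (AdjoinRoot ((Phi hMA).map (M0 hMA).red)) :=
  haveI := isSeparable_ratFk hMA
  adjoinModel bas1_apply (Phi_monic hMA) (Phi_natDegree hMA) (evU_Phi hMA) (Phi_separable hMA)

/-- Lattice elements are values of integral polynomials at `u`. -/
theorem exists_evU_eq (z : (M1 hMA).S) : ∃ P : (M0 hMA).S[X],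
    (z : F1b) = evU (M0 hMA) (u1 M) P ∧ (M1 hMA).red z = evB (M0 hMA) (Phi hMA) P := by
  haveI := isSeparable_ratFk hMA
  have hcj : ∀ j, bas1.repr (z : F1b) j ∈ (M0 hMA).S := fun j i => by
    have h : ((M0 hMA).b.smulTower bas1).repr (z : F1b) (i, j) ∈ Og A := z.2 (i, j)
    rwa [Module.Basis.smulTower_repr] at h
  refine ⟨∑ j : Fin (Fintype.card (Idx M)), monomial (j : ℕ) ⟨_, hcj j⟩, ?_⟩
  have hz : (z : F1b) = evU (M0 hMA) (u1 M) (∑ j : Fin (Fintype.card (Idx M)), monomial (j : ℕ) ⟨_, hcj j⟩) := by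
    rw [map_sum]
    conv_lhs => rw [← bas1.sum_repr (z : F1b)]
    refine Finset.sum_congr rfl fun j _ => ?_
    rw [evU, coe_eval₂RingHom, eval₂_monomial, bas1_apply, Algebra.smul_def]
    rfl
  refine ⟨hz, ?_⟩
  exact (congrArg (M1 hMA).red (Subtype.ext hz)).trans
    (red_evU bas1_apply (Phi_monic hMA) (Phi_natDegree hMA) (evU_Phi hMA) (Phi_separable hMA) _)

end Fermat.Agent.DeligneSerre.Residual
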