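import Fermat.Agent.DeligneSerre.Residual.Statement

/-!
# Reductions of fractions of integral series

`IsCompat e1 e2 P` says that the series `e1 P` is a fraction of integral series with primitive
denominator reducing to `e2 P`.
-/

set_option autoImplicit false

noncomputable section

open IsLocalRing ModularCurve
open Fermat.Agent.RedTorsion

namespace Fermat.Agent.DeligneSerre.Residual

variable {R : Type*} [CommRing R] {L : Type*} [Field L] {A : ValuationSubring L}
  (e1 : R →+* LaurentSeries L) (e2 : R →+* LaurentSeries (ResidueField A))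

/-- `e1 P` is a fraction with primitive denominator reducing to `e2 P`. -/
def IsCompat (P : R) : Prop :=
  ∃ u w : serInt A, serRed A w ≠ 0 ∧ e1 P * (w : LaurentSeries L) = u ∧
    e2 P * serRed A w = serRed A u

variable {e1 e2}

theorem IsCompat.add {P Q : R} (hP : IsCompat e1 e2 P) (hQ : IsCompat e1 e2 Q) :
    IsCompat e1 e2 (P + Q) := by
  obtain ⟨u, w, hw, h, h'⟩ := hP
  obtain ⟨u', w', hw', k, k'⟩ := hQ
  refine ⟨u * w' + u' * w, w * w', by rw [map_mul]; exact mul_ne_zero hw hw', ?_, ?_⟩
  · rw [map_add, Subring.coe_add, Subring.coe_mul, Subring.coe_mul, Subring.coe_mul, ← h, ← k]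
    ring
  · rw [map_add e2, map_add (serRed A), map_mul, map_mul, map_mul, ← h', ← k']
    ring

theorem IsCompat.mul {P Q : R} (hP : IsCompat e1 e2 P) (hQ : IsCompat e1 e2 Q) :
    IsCompat e1 e2 (P * Q) := by
  obtain ⟨u, w, hw, h, h'⟩ := hP
  obtain ⟨u', w', hw', k, k'⟩ := hQ
  refine ⟨u * u', w * w', by rw [map_mul]; exact mul_ne_zero hw hw', ?_, ?_⟩
  · rw [map_mul, Subring.coe_mul, Subring.coe_mul, ← h, ← k]
    ring
  · rw [map_mul e2, map_mul (serRed A), map_mul, ← h', ← k']
    ring

theorem isCompat_one : IsCompat e1 e2 1 :=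
  ⟨1, 1, by rw [map_one]; exact one_ne_zero,
    by rw [map_one, OneMemClass.coe_one, one_mul],
    by rw [map_one e2, map_one, one_mul]⟩

theorem IsCompat.pow {P : R} (hP : IsCompat e1 e2 P) (n : ℕ) : IsCompat e1 e2 (P ^ n) := by
  induction n with
  | zero => simpa using isCompat_one
  | succ n ih => rw [pow_succ]; exact ih.mul hP

/-- A ratio of two primitive series is a unit constant. -/
theorem exists_residue_mul {r : L} {g h : serInt A} (hg : serRed A g ≠ 0) (hh : serRed A h ≠ 0)
    (e : (h : LaurentSeries L) = algebraMap L (LaurentSeries L) r * g) :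
    ∃ a : ResidueField A, a ≠ 0 ∧
      serRed A h = algebraMap (ResidueField A) (LaurentSeries (ResidueField A)) a * serRed A g := by
  obtain ⟨n, hn⟩ : ∃ n, (serRed A g).coeff n ≠ 0 := by
    by_contra! h0
    exact hg (HahnSeries.ext (funext h0))
  rw [coeff_serRed, Ne, residue_eq_zero_iff, mem_maximalIdeal, mem_nonunits_iff, not_not] at hn
  obtain ⟨v, hv⟩ := hn.exists_right_inv
  have hv' : g.1.coeff n * (v : L) = 1 := congrArg Subtype.val hv
  have hc : h.1.coeff n = r * g.1.coeff n := by rw [e, coeff_algebraMap_mul]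
  have hrA : r ∈ A := by
    have : h.1.coeff n * (v : L) = r := by rw [hc, mul_assoc, hv', mul_one]
    exact this ▸ mul_mem (mem_serInt.mp h.2 n) v.2
  have hh' : h = ⟨_, algebraMap_mem_serInt hrA⟩ * g := Subtype.ext e
  have hred : serRed A h =
      algebraMap (ResidueField A) _ (residue A ⟨r, hrA⟩) * serRed A g := by
    rw [hh', map_mul, serRed_algebraMap hrA]
  exact ⟨_, fun h0 => hh (by rw [hred, h0, map_zero, zero_mul]), hred⟩

theorem hasRed_of_isCompat {P : R} {c : L} {f : LaurentSeries L} (hc : c ≠ 0)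
    (hP : IsCompat e1 e2 P) (h0 : e2 P ≠ 0)
    (hf : f = algebraMap L (LaurentSeries L) c * e1 P) : HasRed A f (e2 P) := by
  obtain ⟨u, w, hw, h, h'⟩ := hP
  exact ⟨h0, c, u, w, hc, hw, h'.symm, by rw [hf, mul_assoc, h]⟩

theorem exists_of_hasRed {P : R} {c : L} {f : LaurentSeries L}
    {y : LaurentSeries (ResidueField A)} (hc : c ≠ 0) (hP : IsCompat e1 e2 P) (h0 : e2 P ≠ 0)
    (hf : f = algebraMap L (LaurentSeries L) c * e1 P) (hy : HasRed A f y) :
    ∃ b : ResidueField A, b ≠ 0 ∧
      e2 P = algebraMap (ResidueField A) (LaurentSeries (ResidueField A)) b * y := by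
  obtain ⟨u, w, hw, h, h'⟩ := hP
  obtain ⟨hy0, c', u', w', hc', hw', hu', hf'⟩ := hy
  have key : ((u' * w : serInt A) : LaurentSeries L) =
      algebraMap L (LaurentSeries L) (c / c') * ((u * w' : serInt A) : LaurentSeries L) := by
    rw [map_div₀, div_mul_eq_mul_div, eq_div_iff ((_root_.map_ne_zero _).mpr hc'),
      Subring.coe_mul, Subring.coe_mul, ← h]
    rw [hf] at hf'
    linear_combination (-(w : LaurentSeries L)) * hf'
  have hg : serRed A (u * w') ≠ 0 := by
    rw [map_mul, ← h']
    exact mul_ne_zero (mul_ne_zero h0 hw) hw'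
  have hh : serRed A (u' * w) ≠ 0 := by
    rw [map_mul, hu']
    exact mul_ne_zero (mul_ne_zero hy0 hw') hw
  obtain ⟨a, ha, he⟩ := exists_residue_mul hg hh key
  refine ⟨a⁻¹, inv_ne_zero ha, ?_⟩
  rw [map_mul, map_mul, hu', ← h'] at he
  rw [map_inv₀, eq_inv_mul_iff_mul_eq₀ ((_root_.map_ne_zero _).mpr ha)]
  exact mul_right_cancel₀ (mul_ne_zero hw hw') (by linear_combination -he)

end Fermat.Agent.DeligneSerre.Residual
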