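import Fermat.Agent.DeligneSerre.Residual.Kummer
import Fermat.Agent.DeligneSerre.Residual.ModelFrac
import Fermat.Agent.DeligneSerre.Residual.Level
import Fermat.Agent.DeligneSerre.Curve.Kummer
import Fermat.Agent.Arith.RootsOfUnity

/-!
# Good reduction of the curve of `±Γ₁(M)`
-/

set_option autoImplicit false
set_option linter.unusedSectionVars false
set_option maxHeartbeats 1000000
set_option synthInstance.maxHeartbeats 400000

noncomputable section

open Polynomial IsLocalRing AlgebraicCurve ModularCurve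
open Fermat.Agent.Arith Fermat.Agent.RedTorsion Fermat.Agent.EichlerShimura
open scoped IntermediateField Classical

namespace Fermat.Agent.DeligneSerre.Residual

open Curve

variable {M : ℕ} [NeZero M] [GoodLevel M] {A : ValuationSubring (AlgebraicClosure ℚ)}
  [IsAlgClosed (Kappa A)] (hMA : (M : Kappa A) ≠ 0)

local notation "Qb" => AlgebraicClosure ℚ
local notation "Fb" => modularFunctionFieldBar M
local notation "F1b" => JacTorsion.FQ (F1 M)
local notation "Fk" => modularFunctionFieldFullC (Kappa A) M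
local notation "Eb1" => AdjoinRoot (Polynomial.map (Model.red (M0 hMA)) (Phi hMA))

attribute [local instance] ratFb ratFk algF1 towerF1 ratF1 tower_ratFb_F1

theorem tower_Qb_ratF1 : IsScalarTower Qb (RatFunc Qb) F1b := by
  haveI := isScalarTower_ratAlgebra (transcendental_jF (F := Fb) hFb)
  refine IsScalarTower.of_algebraMap_eq fun c => ?_
  show algebraMap Qb F1b c = algebraMap Fb F1b (algebraMap (RatFunc Qb) Fb (algebraMap Qb _ c))
  rw [← IsScalarTower.algebraMap_apply Qb (RatFunc Qb) Fb,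
    ← IsScalarTower.algebraMap_apply Qb Fb F1b]

attribute [local instance] tower_Qb_ratF1

theorem algebraMap_X_F1 : algebraMap (RatFunc Qb) F1b RatFunc.X = jBase1 M Qb := by
  show algebraMap Fb F1b (algebraMap (RatFunc Qb) Fb RatFunc.X) = _
  rw [show algebraMap (RatFunc Qb) Fb RatFunc.X = jF (F := Fb) hFb from ratLine_X _,
    algebraMap_algF1]
  exact Subtype.ext ((coe_toF1 _).trans rfl)

include hMA in
theorem finite_ratF1 : FiniteDimensional (RatFunc Qb) F1b := by
  haveI : FiniteDimensional (RatFunc Qb) Fb := Module.Finite.of_basis (M0 hMA).b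
  haveI : FiniteDimensional Fb F1b := Module.Finite.of_basis bas1
  exact Module.Finite.trans Fb _

theorem ord_bounds :
    (∀ P : Place Qb F1b, 0 < P.ord (jBase1 M Qb) → P.ord (jBase1 M Qb) ∣ 3) ∧
    (∀ P : Place Qb F1b, 0 < P.ord (jBase1 M Qb - algebraMap Qb F1b 1728) →
      P.ord (jBase1 M Qb - algebraMap Qb F1b 1728) ∣ 2) ∧
    (∀ a : Qb, a ≠ 0 → a ≠ 1728 → ∀ P : Place Qb F1b,
      0 < P.ord (jBase1 M Qb - algebraMap Qb F1b a) →
      P.ord (jBase1 M Qb - algebraMap Qb F1b a) ∣ 1) ∧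
    ∀ P : Place Qb F1b, P.ord (jBase1 M Qb) < 0 → P.ord (jBase1 M Qb) ∣ (M : ℤ) :=
  ⟨fun P hP => by simpa using ord_jBase1_sub_dvd P 0 (by simpa using hP),
    fun P hP => by simpa using ord_jBase1_sub_dvd P 1728 hP,
    fun a h0 h1 P hP => by simpa [h0, h1] using ord_jBase1_sub_dvd P a hP,
    fun P hP => ord_jBase1_dvd P hP⟩

theorem nontrivial_Eb1 : Nontrivial Eb1 := AdjoinRoot.nontrivial _ (by
  rw [degree_eq_natDegree ((Phi_monic hMA).map (M0 hMA).red).ne_zero,
    (Phi_monic hMA).natDegree_map, Phi_natDegree]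
  exact_mod_cast Fintype.card_ne_zero)

/-- The reduced relation is irreducible: the reduced curve is connected. -/
theorem irreducible_red_Phi : Irreducible ((Phi hMA).map (M0 hMA).red) := by
  haveI := finite_ratF1 hMA
  haveI := nontrivial_Eb1 hMA
  haveI : Module.Finite (RatFunc (Kappa A)) Eb1 := Module.Finite.of_basis (M1 hMA).bb
  haveI : IsReduced Eb1 := isReduced_of_discr_ne_zero (M1 hMA).bb (M1 hMA).disc_ne
  haveI : IsArtinianRing Eb1 := IsArtinianRing.of_finite (RatFunc (Kappa A)) _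
  obtain ⟨h3, h2, h1, hM⟩ := ord_bounds (M := M)
  have hfield : IsField Eb1 := isField_of_idem fun e he =>
    idem_eq_zero_or_one_of_ord (M1 hMA) (isArchVal_algebraicClosure A) algebraMap_X_F1
      (NeZero.ne M) h3 h2 h1 hM he
  haveI : (Ideal.span {(Phi hMA).map (M0 hMA).red}).IsMaximal :=
    Ideal.Quotient.maximal_of_isField _ hfield
  exact ((Ideal.span_singleton_prime ((Phi_monic hMA).map (M0 hMA).red).ne_zero).mp
    (Ideal.IsMaximal.isPrime ‹_›)).irreducible

theorem isSeparable_Eb1 :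
    haveI := Fact.mk (irreducible_red_Phi hMA)
    Algebra.IsSeparable (RatFunc (Kappa A)) Eb1 := by
  haveI := Fact.mk (irreducible_red_Phi hMA)
  by_contra hns
  haveI : Nonempty (Fin (Fintype.card (Idx M))) := Fin.pos_iff_nonempty.mp Fintype.card_pos
  refine (M1 hMA).disc_ne ?_
  rw [Algebra.discr_def, show Algebra.traceMatrix (RatFunc (Kappa A)) (M1 hMA).bb = 0 by
    ext i j
    rw [Algebra.traceMatrix_apply, Algebra.traceForm_apply,
      Algebra.trace_eq_zero_of_not_isSeparable hns, LinearMap.zero_apply, Matrix.zero_apply],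
    Matrix.det_zero]

/-- The reduced field inside Laurent series. -/
def psi : Eb1 →+* LaurentSeries (Kappa A) :=
  AdjoinRoot.lift (modularFunctionFieldFullC (Kappa A) M).val.toRingHom
    (uK (M := M) (Kappa A) 1) (by
      rw [eval₂_map]
      show (Phi hMA).eval₂ (serRedOf hMA) _ = 0
      rw [← eval_map, Phi_map_red, eval_prod]
      refine Finset.prod_eq_zero (Finset.mem_univ (QuotientGroup.mk 1 : Idx M)) ?_
      rw [eval_sub, eval_X, eval_C, sub_eq_zero]
      rcases out_mk_eq (M := M) 1 with h | h <;> rw [h]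
      exact (uK_residue_neg hMA 1).symm)

/-- Expansion of the value at `u` of an integral polynomial. -/
def e1Hom : (M0 hMA).S[X] →+* LaurentSeries Qb := (valF1 M).comp (evU (M0 hMA) (u1 M))

/-- Its reduction. -/
def e2Hom : (M0 hMA).S[X] →+* LaurentSeries (Kappa A) :=
  (psi hMA).comp (evB (M0 hMA) (Phi hMA))

theorem e1Hom_C (s : (M0 hMA).S) : e1Hom hMA (C s) = serOf hMA s := by
  rw [e1Hom, RingHom.comp_apply, evU, coe_eval₂RingHom, eval₂_C, RingHom.comp_apply,
    algebraMap_algF1, valF1_apply, coe_toF1, serOf_apply, Subring.coe_subtype]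

theorem e1Hom_X : e1Hom hMA X = uK (M := M) Qb 1 := by
  rw [e1Hom, RingHom.comp_apply, evU, coe_eval₂RingHom, eval₂_X, valF1_u1]

theorem e2Hom_C (s : (M0 hMA).S) : e2Hom hMA (C s) = serRedOf hMA s := by
  rw [e2Hom, RingHom.comp_apply, evB, RingHom.comp_apply, coe_mapRingHom, map_C,
    AdjoinRoot.mk_C, psi, AdjoinRoot.lift_of]
  rfl

theorem e2Hom_X : e2Hom hMA X = uK (M := M) (Kappa A) 1 := by
  rw [e2Hom, RingHom.comp_apply, evB, RingHom.comp_apply, coe_mapRingHom, map_X,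
    AdjoinRoot.mk_X, psi, AdjoinRoot.lift_root]

theorem isCompat_all (P : (M0 hMA).S[X]) : IsCompat (A := A) (e1Hom hMA) (e2Hom hMA) P := by
  have hC : ∀ s, IsCompat (A := A) (e1Hom hMA) (e2Hom hMA) (C s) := fun s => by
    obtain ⟨u, w, hw, h, h'⟩ := exists_series_frac0 hMA s
    exact ⟨u, w, hw, by rw [e1Hom_C, h], by rw [e2Hom_C, h']⟩
  have hX : IsCompat (A := A) (e1Hom hMA) (e2Hom hMA) X := by
    refine ⟨⟨coeffMap A.subtype (uA hMA 1), ⟨_, rfl⟩⟩, 1,
      by rw [map_one]; exact one_ne_zero, ?_, ?_⟩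
    · rw [OneMemClass.coe_one, mul_one, e1Hom_X]
      exact (coeffMap_subtype_uA hMA 1).symm
    · rw [map_one, mul_one, e2Hom_X, ← coeffMap_residue_uA hMA]
      exact (serRed_coeffMap _ _).symm
  induction P using Polynomial.induction_on' with
  | add p q hp hq => exact hp.add hq
  | monomial k s =>
    rw [← C_mul_X_pow_eq_monomial]
    exact (hC s).mul (hX.pow k)

/-- Every function is a constant times a lattice element with nonzero reduction. -/
theorem exists_scaled (f : F1b) (hf : f ≠ 0) :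
    ∃ (c : Qb) (z : (M1 hMA).S) (P : (M0 hMA).S[X]), c ≠ 0 ∧
      f = algebraMap Qb F1b c * (z : F1b) ∧
      (f : LaurentSeries Qb) = algebraMap Qb _ c * e1Hom hMA P ∧
      psi hMA ((M1 hMA).red z) = e2Hom hMA P ∧ e2Hom hMA P ≠ 0 := by
  haveI := Fact.mk (irreducible_red_Phi hMA)
  obtain ⟨c, hc, z, hfz, hz⟩ := (M1 hMA).exists_scale' hf
  obtain ⟨P, hP1, hP2⟩ := exists_evU_eq hMA z
  rw [← RatFunc.algebraMap_eq_C, ← IsScalarTower.algebraMap_apply] at hfz
  have h2 : psi hMA ((M1 hMA).red z) = e2Hom hMA P := congrArg (psi hMA) hP2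
  refine ⟨c, z, P, hc, hfz, ?_, h2, ?_⟩
  · rw [e1Hom, RingHom.comp_apply, ← hP1, hfz]
    rfl
  · rw [← h2]
    exact (_root_.map_ne_zero (psi hMA)).mpr hz

theorem psi_algebraMap_C (t : Kappa A) :
    psi hMA (algebraMap (RatFunc (Kappa A)) Eb1 (RatFunc.C t)) =
      algebraMap (Kappa A) (LaurentSeries (Kappa A)) t := by
  rw [IsScalarTower.algebraMap_apply (RatFunc (Kappa A)) Fk Eb1, AdjoinRoot.algebraMap_eq, psi,
    AdjoinRoot.lift_of,
    show algebraMap (RatFunc (Kappa A)) Fk (RatFunc.C t) = algebraMap (Kappa A) Fk t from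
      ratLine_C _ t]
  rfl

include hMA in
theorem mem_powGrp_of_hasRed {ℓ : ℕ} (hℓ : ℓ.Prime) (hℓA : (ℓ : Kappa A) ≠ 0)
    (f : JacTorsion.divGrp Qb F1b ℓ) (a : ResidueField A)
    (hy : HasRed A (((f : F1bˣ) : F1b) : LaurentSeries Qb) (algebraMap _ _ a)) :
    f ∈ JacTorsion.powGrp Qb F1b ℓ := by
  haveI := Fact.mk (irreducible_red_Phi hMA)
  haveI := isSeparable_Eb1 hMA
  haveI := finite_ratF1 hMA
  obtain ⟨h3, h2, h1, hM⟩ := ord_bounds (M := M)
  obtain ⟨c, z, P, hc, hfz, hfP, hzP, hP0⟩ := exists_scaled hMA _ (f : F1bˣ).ne_zero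
  obtain ⟨b, hb, hbP⟩ := exists_of_hasRed hc (isCompat_all hMA P) hP0 hfP hy
  have ha : a ≠ 0 := fun h => hy.1 (by rw [h, map_zero])
  have hred : (M1 hMA).red z = algebraMap (RatFunc (Kappa A)) Eb1 (RatFunc.C (b * a)) :=
    (psi hMA).injective (by rw [hzP, hbP, psi_algebraMap_C, map_mul])
  have hdiv : ∀ Q : Place Qb F1b, (ℓ : ℤ) ∣ Q.ord (z : F1b) := fun Q => by
    have hz0 : (z : F1b) ≠ 0 := fun h => (f : F1bˣ).ne_zero (by rw [hfz, h, mul_zero])
    have h := f.2 Q
    rwa [hfz, Q.ord_mul ((_root_.map_ne_zero _).mpr hc) hz0, FF.ord_algebraMap, zero_add] at h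
  obtain ⟨g, hg⟩ := exists_pow_eq_of_red_const (M1 hMA) (isArchVal_algebraicClosure A)
    algebraMap_X_F1 (NeZero.ne M) h3 h2 h1 hM hℓ hℓA z (mul_ne_zero hb ha) hred hdiv
  obtain ⟨d, hd⟩ := IsAlgClosed.exists_pow_nat_eq c hℓ.pos
  have hgd : (algebraMap Qb F1b d * g) ^ ℓ = ((f : F1bˣ) : F1b) := by
    rw [mul_pow, ← map_pow, hd, hg, hfz]
  rw [JacTorsion.mem_powGrp]
  refine ⟨Units.mk0 (algebraMap Qb F1b d * g) fun h => (f : F1bˣ).ne_zero ?_, Units.ext hgd⟩
  rw [← hgd, h, zero_pow hℓ.ne_zero]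

omit [IsAlgClosed (Kappa A)] in
/-- Good reduction of the curve of `±Γ₁(M)`. -/
theorem goodReduction (M : ℕ) [NeZero M] [GoodLevel M] : GoodReduction M := by
  intro p ℓ hp hℓ hpℓ hpM A hA
  haveI : IsAlgClosed (Kappa A) := residueField_isAlgClosed A
  haveI : CharP (Kappa A) p := (CharP.charP_iff_prime_eq_zero hp).mpr (by
    rw [← map_natCast (residue A), residue_eq_zero_iff]
    exact (A.valuation_lt_one_iff (p : A)).mpr (by
      simpa using RedTorsion.valuation_prime_lt_one hA))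
  have hMA : (M : Kappa A) ≠ 0 := fun h => hpM ((CharP.cast_eq_zero_iff (Kappa A) p M).mp h)
  have hℓA : (ℓ : Kappa A) ≠ 0 := fun h => hpℓ
    ((Nat.prime_dvd_prime_iff_eq hp hℓ).mp ((CharP.cast_eq_zero_iff (Kappa A) p ℓ).mp h))
  refine ⟨fun f hf => ?_, fun f a hy => mem_powGrp_of_hasRed hMA hℓ hℓA f a hy⟩
  obtain ⟨c, z, P, hc, -, hfP, -, hP0⟩ := exists_scaled hMA f hf
  exact ⟨e2Hom hMA P, hasRed_of_isCompat hc (isCompat_all hMA P) hP0 hfP⟩

end Fermat.Agent.DeligneSerre.Residual
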