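import Fermat.Agent.DeligneSerre.Curve.Field
import Fermat.Agent.DeligneSerre.PeriodsOps
import Fermat.Agent.DeligneSerre.Criterion
import Fermat.Agent.RedTorsion.Series
import Fermat.Agent.JacTorsion.Kummer

/-!
# Residual representations on the periods of `±Γ₁(M)`: the statements

`GoodReduction M` is what is used from the good reduction of the curve of `±Γ₁(M)` at a prime
`p ∤ M`: every function is a constant times a primitive fraction of integral series, and a function
with divisor divisible by a prime `ℓ ≠ p` whose reduction is constant is an `ℓ`-th power.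
`GaloisOnPeriods M ℓ` is the resulting action of Galois on the homomorphisms
`±Γ₁(M) → k` killing elliptic and parabolic elements.
-/

set_option autoImplicit false

noncomputable section

open IsLocalRing ModularCurve
open Fermat.Agent.Arith Fermat.Agent.RedTorsion

namespace Fermat.Agent.DeligneSerre

/-- `f` is a nonzero constant times a fraction of integral series with reduction `y ≠ 0`. -/
def HasRed {L : Type*} [Field L] (A : ValuationSubring L) (f : LaurentSeries L)
    (y : LaurentSeries (ResidueField A)) : Prop :=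
  y ≠ 0 ∧ ∃ (c : L) (u w : serInt A), c ≠ 0 ∧ serRed A w ≠ 0 ∧ serRed A u = y * serRed A w ∧
    f * (w : LaurentSeries L) = algebraMap L (LaurentSeries L) c * (u : LaurentSeries L)

/-- The matrix of a good operator with coefficients in a ring. -/
def opMatOver {M : ℕ} [NeZero M] (k : Type) [Ring k] (i : GoodOp M) :
    Matrix (Fin (homRank M)) (Fin (homRank M)) k :=
  (opMat i).map (Int.cast : ℤ → k)

/-- The operator `T_p`. -/
def opT {M p : ℕ} (hp : p.Prime) (hpM : ¬ p ∣ M) : GoodOp M := Sum.inl ⟨p, hp, hpM⟩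

/-- The operator `⟨p⟩`. -/
def opD {M p : ℕ} (hp : p.Prime) (hpM : ¬ p ∣ M) : GoodOp M :=
  Sum.inr (ZMod.unitOfCoprime p ((Nat.Prime.coprime_iff_not_dvd hp).2 hpM))

/-- Good reduction of the curve of `±Γ₁(M)`, in the form used here. -/
def GoodReduction (M : ℕ) [NeZero M] [Curve.GoodLevel M] : Prop :=
  ∀ p ℓ : ℕ, p.Prime → ℓ.Prime → p ≠ ℓ → ¬ p ∣ M →
    ∀ A : ValuationSubring QBar, A.LiesOverPrime p →
      (∀ f : JacTorsion.FQ (Curve.F1 M), f ≠ 0 →
        ∃ y, HasRed A (f : LaurentSeries QBar) y) ∧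
      ∀ (f : JacTorsion.divGrp QBar (JacTorsion.FQ (Curve.F1 M)) ℓ) (a : ResidueField A),
        HasRed A (((f : (JacTorsion.FQ (Curve.F1 M))ˣ) : JacTorsion.FQ (Curve.F1 M)) :
            LaurentSeries QBar) (algebraMap _ _ a) →
          f ∈ JacTorsion.powGrp QBar (JacTorsion.FQ (Curve.F1 M)) ℓ

/-- Galois acts on the homomorphisms killing elliptic and parabolic elements with coefficients in
characteristic `ℓ`, commuting with the good operators, unramified and with
`F² - T_p F + p ⟨p⟩ = 0` at `p ∤ M ℓ`. -/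
def GaloisOnPeriods (M ℓ : ℕ) [NeZero M] : Prop :=
  ∀ (k : Type) [Field k] [CharP k ℓ],
    ∃ ρ : GQ →* Matrix (Fin (homRank M)) (Fin (homRank M)) k,
      GaloisFactorsThroughFiniteLevel ρ ∧
      (∀ (i : GoodOp M) (σ : GQ), Commute (opMatOver k i) (ρ σ)) ∧
      ∀ (p : ℕ) (hp : p.Prime) (hpM : ¬ p ∣ M), p ≠ ℓ →
        ∀ A : ValuationSubring QBar, A.LiesOverPrime p →
          (∀ σ ∈ A.inertiaSubgroupIn ℚ, ρ σ = 1) ∧
          ∀ σ : GQ, A.IsFrobeniusAt σ p →
            ρ σ * ρ σ - opMatOver k (opT hp hpM) * ρ σ + (p : k) • opMatOver k (opD hp hpM) = 0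

end Fermat.Agent.DeligneSerre
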