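import Fermat.Agent.DeligneSerre.Curve.Kummer
import Fermat.Agent.DeligneSerre.PeriodsOps
import Fermat.Agent.GaloisReps.DegeneracyFun

/-!
# Coset operators on the Kummer group of the complex field of `±Γ₁(M)`

For a right-stable family of representatives, `a ↦ ∏ᵢ a ∘ gᵢ` acts on functions with divisor
divisible by `m`, and on their monodromy characters as the coset operator.
-/

set_option autoImplicit false
set_option linter.unusedSectionVars false

noncomputable section

open UpperHalfPlane hiding I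
open Matrix.SpecialLinearGroup (mapGL)
open Fermat.Agent.ModFun (MerH HolH actMer actHol actMer_algebraMap MeroAtInfty)
open Fermat.Agent.JacTorsion (zetaPow zetaPow_zero zetaPow_add divGrp meroAtInfty_of_pow
  algebraMap_ne_zero')
open Fermat.Agent.GaloisReps (actGL actGLHom actGL_algebraMap actGL_congr actGL_mul actGL_mapGL
  det_mapGL_pos det_mul_pos)
open Fermat.Agent.RT.GammaH (GLR Admissible IsPerm opOf opOf_apply_of_isPerm exists_of_mem_img
  onImg_mapGL img)
open scoped MatrixGroups Manifold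

namespace Fermat.Agent.DeligneSerre.Curve

variable {M : ℕ} [NeZero M] [GoodLevel M] {m : ℕ} [NeZero m] {ι : Type} [Fintype ι]
variable {rep : ι → GLR}

theorem zetaPow_finset_sum (s : Finset ι) (a : ι → ZMod m) :
    zetaPow m (∑ i ∈ s, a i) = ∏ i ∈ s, zetaPow m (a i) := by
  classical
  induction s using Finset.induction with
  | empty => simpa using zetaPow_zero (m := m)
  | insert i s hi ih => rw [Finset.sum_insert hi, Finset.prod_insert hi, zetaPow_add, ih]

/-- The product of the translates of a root has the translated character. -/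
theorem actMer_prod_actGL (hadm : Admissible (G1 M) (G1 M) rep) (hdet : ∀ i, 0 < (rep i).det.val)
    (φ : Additive (G1 M) →+ ZMod m) {h : MerH}
    (hh : ∀ γ : G1 M,
      actMer (γ : SL(2, ℤ)) h = algebraMap ℂ MerH (zetaPow m (φ (Additive.ofMul γ))) * h)
    (γ : G1 M) :
    actMer (γ : SL(2, ℤ)) (∏ i, actGL (rep i) (hdet i) h) =
      algebraMap ℂ MerH (zetaPow m (opOf hadm ℤ φ (Additive.ofMul γ))) *
        ∏ i, actGL (rep i) (hdet i) h := by
  obtain ⟨σ, hσ⟩ := hadm γ
  choose c hc using fun i => exists_of_mem_img (hσ.2 i)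
  rw [opOf_apply_of_isPerm hadm φ γ hσ, zetaPow_finset_sum, map_prod, map_prod,
    ← hσ.1.prod_comp (fun i => actGL (rep i) (hdet i) h), ← Finset.prod_mul_distrib]
  refine Finset.prod_congr rfl fun i _ => ?_
  have hA : rep i * mapGL ℝ (γ : SL(2, ℤ)) = mapGL ℝ (c i : SL(2, ℤ)) * rep (σ i) := by
    rw [hc, inv_mul_cancel_right]
  rw [← actGL_mapGL, ← actGL_mul (hdet i) (det_mapGL_pos _),
    actGL_congr hA _ (det_mul_pos (det_mapGL_pos _) (hdet _)),
    actGL_mul (det_mapGL_pos _) (hdet _), actGL_mapGL, hh, map_mul, AlgEquiv.commutes, ← hc,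
    onImg_mapGL]

theorem meroAtInfty_prod (s : Finset ι) {f : ι → ℍ → ℂ} (hf : ∀ i ∈ s, MeroAtInfty (f i)) :
    MeroAtInfty (∏ i ∈ s, f i) := by
  classical
  induction s using Finset.induction with
  | empty =>
    rw [Finset.prod_empty]
    exact MeroAtInfty.of_isBounded ModFun.isBounded_one
  | insert i s hi ih =>
    rw [Finset.prod_insert hi]
    exact (hf i (Finset.mem_insert_self i s)).mul
      (ih fun j hj => hf j (Finset.mem_insert_of_mem hj))

/-- `a ↦ ∏ᵢ a ∘ gᵢ` preserves `Hol1 M`. -/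
theorem prod_translate_mem (hadm : Admissible (G1 M) (G1 M) rep)
    (hdet : ∀ i, 0 < (rep i).det.val)
    (hmero : ∀ (a : Hol1 M) (i : ι) (g : SL(2, ℤ)),
      MeroAtInfty fun τ => (a : ℍ → ℂ) (rep i • g • τ)) (a : Hol1 M) :
    (∏ i, fun τ : ℍ => (a : ℍ → ℂ) (rep i • τ)) ∈ Hol1 M := by
  have hprod : (∏ i, fun τ : ℍ => (a : ℍ → ℂ) (rep i • τ))
      = ((∏ i, actGLHom (rep i) (hdet i) (hol1ToHolH M a) : HolH) : ℍ → ℂ) :=
    (SubmonoidClass.coe_finsetProd (fun i => actGLHom (rep i) (hdet i) (hol1ToHolH M a))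
      Finset.univ).symm
  refine ⟨?_, fun γ hγ τ => ?_, fun g => ?_⟩
  · rw [hprod]
    exact (∏ i, actGLHom (rep i) (hdet i) (hol1ToHolH M a)).2
  · obtain ⟨σ, hσ⟩ := hadm ⟨γ, hγ⟩
    choose c hc using fun i => exists_of_mem_img (hσ.2 i)
    rw [Finset.prod_apply, Finset.prod_apply, ← hσ.1.prod_comp (fun i => (a : ℍ → ℂ) (rep i • τ))]
    refine Finset.prod_congr rfl fun i _ => ?_
    have hA : rep i * mapGL ℝ γ = mapGL ℝ (c i : SL(2, ℤ)) * rep (σ i) := by
      rw [hc, inv_mul_cancel_right]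
    show (a : ℍ → ℂ) (rep i • mapGL ℝ γ • τ) = _
    rw [← mul_smul, hA, mul_smul]
    exact a.2.2.1 _ (c i).2 _
  · have he : (fun τ => (∏ i, fun τ : ℍ => (a : ℍ → ℂ) (rep i • τ)) (g • τ))
        = ∏ i, fun τ : ℍ => (a : ℍ → ℂ) (rep i • g • τ) := by
      funext τ
      rw [Finset.prod_apply, Finset.prod_apply]
    rw [he]
    exact meroAtInfty_prod _ fun i _ => hmero a i g

section Operator

variable (hadm : Admissible (G1 M) (G1 M) rep) (hdet : ∀ i, 0 < (rep i).det.val)
  (hmero : ∀ (a : Hol1 M) (i : ι) (g : SL(2, ℤ)),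
    MeroAtInfty fun τ => (a : ℍ → ℂ) (rep i • g • τ))

/-- `a ↦ ∏ᵢ a ∘ gᵢ`. -/
def transHol (a : Hol1 M) : Hol1 M :=
  ⟨∏ i, fun τ : ℍ => (a : ℍ → ℂ) (rep i • τ), prod_translate_mem hadm hdet hmero a⟩

theorem transHol_apply (a : Hol1 M) (τ : ℍ) :
    (transHol hadm hdet hmero a : ℍ → ℂ) τ = ∏ i, (a : ℍ → ℂ) (rep i • τ) :=
  Finset.prod_apply τ _ _

theorem hol1ToHolH_transHol (a : Hol1 M) :
    hol1ToHolH M (transHol hadm hdet hmero a) =
      ∏ i, actGLHom (rep i) (hdet i) (hol1ToHolH M a) :=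
  Subtype.ext (SubmonoidClass.coe_finsetProd
    (fun i => actGLHom (rep i) (hdet i) (hol1ToHolH M a)) Finset.univ).symm

theorem e11_transHol (a : Hol1 M) :
    e11 M (toF1C M (transHol hadm hdet hmero a)) =
      ∏ i, actGL (rep i) (hdet i) (e11 M (toF1C M a)) := by
  rw [e11_toF1C, e11_toF1C, hol1ToHolH_transHol, map_prod]
  exact Finset.prod_congr rfl fun i _ => (actGL_algebraMap _ _ _).symm

theorem transHol_ne_zero {a : Hol1 M} (ha : a ≠ 0) : transHol hadm hdet hmero a ≠ 0 := by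
  intro h
  have h1 := e11_transHol hadm hdet hmero a
  rw [h, map_zero, map_zero] at h1
  obtain ⟨i, -, hi⟩ := Finset.prod_eq_zero_iff.mp h1.symm
  exact ha (toF1C_injective (((map_eq_zero (e11 M)).mp ((map_eq_zero _).mp hi)).trans
    (map_zero (toF1C M)).symm))

include hmero in
/-- The operator on functions with divisor divisible by `m` and on their characters. -/
theorem exists_translate
    (hmem : ∀ φ ∈ Gamma0.ellParHoms (G1 M) (ZMod m),
      opOf hadm ℤ φ ∈ Gamma0.ellParHoms (G1 M) (ZMod m))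
    (f : divGrp ℂ (F1C M) m) :
    ∃ g : divGrp ℂ (F1C M) m,
      e11 M ((g : (F1C M)ˣ) : F1C M) =
        ∏ i, actGL (rep i) (hdet i) (e11 M ((f : (F1C M)ˣ) : F1C M)) ∧
      (rootChar1 M m g).1 = opOf hadm ℤ (rootChar1 M m f).1 := by
  obtain ⟨H, b, C, hH0, hb, hHC, hC, hh⟩ := exists_root1 (Units.ne_zero (f : (F1C M)ˣ)) f.2
  set φ := (rootChar1 M m f).1 with hφ
  set HT : HolH := ∏ i, actGLHom (rep i) (hdet i) H with hHT
  set bT := transHol hadm hdet hmero b with hbT
  have hbT0 : bT ≠ 0 := transHol_ne_zero hadm hdet hmero hb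
  have hroot : (∏ i, actGL (rep i) (hdet i) (algebraMap HolH MerH H / e11 M (toF1C M b)))
      = algebraMap HolH MerH HT / e11 M (toF1C M bT) := by
    simp only [map_div₀, Finset.prod_div_distrib]
    rw [← e11_transHol hadm hdet hmero b, hHT, map_prod]
    exact congrArg (· / _) (Finset.prod_congr rfl fun i _ => actGL_algebraMap _ _ _)
  have hchar := actMer_prod_actGL hadm hdet φ (rootChar1_spec f _ hh)
  rw [hroot] at hchar
  have hpow : HT ^ m = hol1ToHolH M (transHol hadm hdet hmero C) := by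
    rw [hol1ToHolH_transHol, hHT, ← Finset.prod_pow]
    exact Finset.prod_congr rfl fun i _ => by rw [← map_pow, hHC]
  obtain ⟨f₂, hf₂⟩ := exists_rootChar1_eq (M := M) (m := m)
    (-⟨_, hmem φ (rootChar1 M m f).2⟩ : Gamma0.ellParHoms (G1 M) (ZMod m))
  obtain ⟨H₂, b₂, C₂, hH₂0, hb₂, hH₂C, hC₂, hh₂⟩ :=
    exists_root1 (Units.ne_zero (f₂ : (F1C M)ˣ)) f₂.2
  have hinv : ∀ γ : G1 M, actHol (γ : SL(2, ℤ)) (HT * H₂) = HT * H₂ := fun γ => by
    have h1 := rootChar1_spec f₂ _ hh₂ γ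
    rw [hf₂] at h1
    rw [map_mul, e11_algebraMap_inv γ.2 hbT0 (hchar γ), e11_algebraMap_inv γ.2 hb₂ h1,
      mul_mul_mul_comm, ← map_mul, ← zetaPow_add, NegMemClass.coe_neg, AddMonoidHom.neg_apply,
      add_neg_cancel, zetaPow_zero, map_one, one_mul]
  have hmem1 : ((HT * H₂ : HolH) : ℍ → ℂ) ∈ Hol1 M := by
    refine ⟨(HT * H₂).2, fun g hg τ => congrFun (congrArg Subtype.val (hinv ⟨g, hg⟩)) τ,
      fun g => meroAtInfty_of_pow (m := m) ?_⟩
    have he : (fun τ => ((HT * H₂ : HolH) : ℍ → ℂ) (g • τ)) ^ m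
        = fun τ => ((transHol hadm hdet hmero C * C₂ : Hol1 M) : ℍ → ℂ) (g • τ) := by
      funext τ
      have h1 := congrFun (congrArg Subtype.val hpow) (g • τ)
      have h2 := congrFun (congrArg Subtype.val hH₂C) (g • τ)
      show (((HT : ℍ → ℂ) (g • τ)) * ((H₂ : ℍ → ℂ) (g • τ))) ^ m = _
      rw [mul_pow]
      exact congrArg₂ (· * ·) h1 h2
    rw [he]
    exact (transHol hadm hdet hmero C * C₂).2.2.2 g
  set D : Hol1 M := ⟨_, hmem1⟩ with hD
  have hDH : hol1ToHolH M D = HT * H₂ := rfl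
  have hD' : D ^ m = transHol hadm hdet hmero C * C₂ := by
    have hinjH : Function.Injective (hol1ToHolH M) := fun a b h =>
      hol1_ext fun τ => congrFun (congrArg Subtype.val h) τ
    refine hinjH ?_
    rw [map_pow, hDH, mul_pow, hpow, hH₂C, map_mul]
  have hne : ∀ {a : Hol1 M}, a ≠ 0 → toF1C M a ≠ 0 := fun ha h =>
    ha (toF1C_injective (h.trans (map_zero (toF1C M)).symm))
  have hD0 : D ≠ 0 := fun h => mul_ne_zero (Finset.prod_ne_zero_iff.mpr fun i _ h0 => hH0
    ((injective_iff_map_eq_zero (actGLHom (rep i) (hdet i))).mp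
      (fun x y hxy => (FaithfulSMul.algebraMap_injective HolH MerH)
        ((actGL (rep i) (hdet i)).injective (by rw [actGL_algebraMap, actGL_algebraMap, hxy]))) _
      h0)) hH₂0 (by rw [← hDH, h, map_zero] : HT * H₂ = 0)
  set x : F1C M := toF1C M (transHol hadm hdet hmero C) / toF1C M bT ^ m with hx
  have hTC0 : transHol hadm hdet hmero C ≠ 0 := fun h => pow_ne_zero m hD0 (by
    rw [hD', h, zero_mul])
  have hx0 : x ≠ 0 := div_ne_zero (hne hTC0) (pow_ne_zero m (hne hbT0))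
  set u : F1C M := toF1C M D / (toF1C M bT * toF1C M b₂) with hu
  have hu0 : u ≠ 0 := div_ne_zero (hne hD0) (mul_ne_zero (hne hbT0) (hne hb₂))
  have hrel : x * ((f₂ : (F1C M)ˣ) : F1C M) = u ^ m := by
    rw [hu, div_pow, ← map_pow, hD', map_mul, mul_pow, hC₂, hx]
    field_simp [hne hbT0, hne hb₂]
  have hmemx : Units.mk0 x hx0 ∈ divGrp ℂ (F1C M) m := fun P => by
    rw [Units.val_mk0]
    have h1 := congrArg P.ord hrel
    rw [P.ord_mul hx0 (Units.ne_zero _), JacTorsion.ord_pow] at h1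
    obtain ⟨c, hc⟩ := f₂.2 P
    exact ⟨P.ord u - c, by rw [mul_sub, ← hc]; linear_combination h1⟩
  have hhT : (algebraMap HolH MerH HT / e11 M (toF1C M bT)) ^ m = e11 M x := by
    rw [hx, div_pow, ← map_pow, hpow, map_div₀, map_pow (e11 M), e11_toF1C, e11_toF1C]
  refine ⟨⟨_, hmemx⟩, ?_, rootChar1_eq_of_isRootChar1 _ (isRootChar1_of_root hx0 hhT hchar)⟩
  show e11 M x = _
  rw [← hhT, ← hroot, ← Finset.prod_pow]
  exact Finset.prod_congr rfl fun i _ => by rw [← map_pow, hh]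

end Operator

end Fermat.Agent.DeligneSerre.Curve
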